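import Fermat.Agent.Reduction.Igusa

/-!
# Igusa: the genus of `X₀(N)` does not drop modulo a prime not dividing `N`

The two results are proved in `Fermat.Agent.Reduction.Igusa` from `GenusEq` and `RamInputs`;
they are re-exported here under the `IgusaGenus` namespace.
-/

namespace Fermat.Agent.IgusaGenus

export Fermat.Agent.Reduction (genus0_le_genusC reductionFacts)

end Fermat.Agent.IgusaGenus
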