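import Mathlib

/-!
# Commutative algebra helpers

Commutative algebra helpers: extending points along integral extensions, integrality in
non-commutative algebras, localisation of subalgebras.
-/

set_option autoImplicit false

noncomputable section

namespace Fermat.Agent.IgusaGenus

section Extend

variable {A B k : Type*} [CommRing A] [CommRing B] [Algebra A B] [Algebra.IsIntegral A B]
  [Field k] [IsAlgClosed k]

/-- A prime over the kernel of a point gives a point over it. -/
theorem exists_hom_of_over (φ : A →+* k) (P : Ideal B) [P.IsPrime]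
    (hP : P.comap (algebraMap A B) = RingHom.ker φ) :
    ∃ ψ : B →+* k, ψ.comp (algebraMap A B) = φ ∧ ∀ x ∈ P, ψ x = 0 := by
  have : (RingHom.ker φ).IsPrime := RingHom.ker_isPrime φ
  have hlo : P.LiesOver (RingHom.ker φ) := ⟨hP.symm⟩
  let p := RingHom.ker φ
  let : Algebra (A ⧸ p) k := φ.kerLift.toAlgebra
  have : FaithfulSMul (A ⧸ p) k :=
    (faithfulSMul_iff_algebraMap_injective _ _).2 φ.kerLift_injective
  have : Algebra.IsIntegral (A ⧸ p) (B ⧸ P) := Ideal.Quotient.algebra_isIntegral_of_liesOver P p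
  have : Algebra.IsAlgebraic (A ⧸ p) (B ⧸ P) := Algebra.IsIntegral.isAlgebraic
  have : Module.IsTorsionFree (A ⧸ p) (B ⧸ P) := by
    rw [Module.isTorsionFree_iff_algebraMap_injective]
    exact (faithfulSMul_iff_algebraMap_injective _ _).1 inferInstance
  have : Module.IsTorsionFree (A ⧸ p) k := by
    rw [Module.isTorsionFree_iff_algebraMap_injective]
    exact φ.kerLift_injective
  let f : B ⧸ P →ₐ[A ⧸ p] k := IsAlgClosed.lift
  refine ⟨f.toRingHom.comp (Ideal.Quotient.mk P), ?_, ?_⟩
  · ext a
    change f (Ideal.Quotient.mk P (algebraMap A B a)) = φ a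
    have h1 : Ideal.Quotient.mk P (algebraMap A B a) =
        algebraMap (A ⧸ p) (B ⧸ P) (Ideal.Quotient.mk p a) := rfl
    rw [h1, f.commutes]
    exact φ.kerLift_mk a
  · intro x hx
    change f (Ideal.Quotient.mk P x) = 0
    rw [Ideal.Quotient.eq_zero_iff_mem.2 hx, map_zero]

/-- Points extend along an integral extension with injective structure map. -/
theorem exists_hom_extends (hinj : Function.Injective (algebraMap A B)) (φ : A →+* k) :
    ∃ ψ : B →+* k, ψ.comp (algebraMap A B) = φ := by
  have : (RingHom.ker φ).IsPrime := RingHom.ker_isPrime φ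
  obtain ⟨P, -, hP, hover⟩ := Ideal.exists_ideal_over_prime_of_isIntegral (S := B) (RingHom.ker φ) ⊥
    (by rw [← RingHom.ker_eq_comap_bot, (RingHom.injective_iff_ker_eq_bot _).1 hinj]; exact bot_le)
  obtain ⟨ψ, hψ, -⟩ := exists_hom_of_over φ P hover
  exact ⟨ψ, hψ⟩

/-- In an integral extension, an element killed by no point over a maximal point of a local base
is a unit. -/
theorem isUnit_of_forall_hom (φ : A →+* k) (hmax : ∀ a, φ a ≠ 0 → IsUnit a) {x : B}
    (h : ∀ ψ : B →+* k, ψ.comp (algebraMap A B) = φ → ψ x ≠ 0) : IsUnit x := by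
  by_contra hx
  obtain ⟨M, hM, hxM⟩ := exists_max_ideal_of_mem_nonunits hx
  have hle : M.comap (algebraMap A B) ≤ RingHom.ker φ := by
    intro a ha
    by_contra hne
    exact (Ideal.IsMaximal.ne_top hM)
      (Ideal.eq_top_of_isUnit_mem _ ha ((hmax a hne).map (algebraMap A B)))
  have : (M.comap (algebraMap A B)).IsMaximal :=
    Ideal.isMaximal_comap_of_isIntegral_of_isMaximal M
  have heq : M.comap (algebraMap A B) = RingHom.ker φ :=
    Ideal.IsMaximal.eq_of_le ‹_› (RingHom.ker_ne_top φ) hle
  obtain ⟨ψ, hψ, hψM⟩ := exists_hom_of_over φ M heq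
  exact h ψ hψ (hψM x hxM)

end Extend

section CommSum

variable {R S : Type*} [CommRing R] [Ring S] [Algebra R S]

/-- A sum of products of pairwise commuting integral elements is integral. -/
theorem isIntegral_sum_mul_of_commute {ι : Type*} (s : Finset ι) (x y : ι → S)
    (hx : ∀ i, IsIntegral R (x i)) (hy : ∀ i, IsIntegral R (y i))
    (hcomm : ∀ a ∈ Set.range x ∪ Set.range y, ∀ b ∈ Set.range x ∪ Set.range y, a * b = b * a) :
    IsIntegral R (∑ i ∈ s, x i * y i) := by
  let := Algebra.adjoinCommRingOfComm R hcomm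
  let T := Algebra.adjoin R (Set.range x ∪ Set.range y)
  have hx' : ∀ i, IsIntegral R (⟨x i, Algebra.subset_adjoin (Or.inl ⟨i, rfl⟩)⟩ : T) := fun i =>
    (isIntegral_algHom_iff T.val Subtype.val_injective).1 (hx i)
  have hy' : ∀ i, IsIntegral R (⟨y i, Algebra.subset_adjoin (Or.inr ⟨i, rfl⟩)⟩ : T) := fun i =>
    (isIntegral_algHom_iff T.val Subtype.val_injective).1 (hy i)
  have h := (IsIntegral.sum (fun i => (⟨x i, Algebra.subset_adjoin (Or.inl ⟨i, rfl⟩)⟩ : T) *
    ⟨y i, Algebra.subset_adjoin (Or.inr ⟨i, rfl⟩)⟩) (s := s) fun i _ => (hx' i).mul (hy' i)).map T.val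
  rw [map_sum] at h
  exact h

end CommSum

end Fermat.Agent.IgusaGenus
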