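import Mathlib

/-!
# Rational covers of the `j`-line

Rational covers `j = P(x) / Q(x)` of the `j`-line over the fraction field of `ℤ[X]`.
-/

set_option autoImplicit false

noncomputable section

open Polynomial

namespace Fermat.Agent.IgusaGenus

/-- The field `ℚ(X)` as fraction field of `ℤ[X]`. -/
abbrev BaseK := FractionRing ℤ[X]

/-- The field `ℚ(x)` in the covering variable. -/
abbrev CoverL := RatFunc ℤ

/-- A rational function `P / Q` of degree `deg P > deg Q`. -/
structure RatCover where
  P : ℤ[X]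
  Q : ℤ[X]
  hdeg : Q.natDegree < P.natDegree
  hcop : IsCoprime (P.map (Int.castRingHom ℚ)) (Q.map (Int.castRingHom ℚ))

/-- The covering variable. -/
def xL : CoverL := algebraMap ℤ[X] CoverL X

namespace RatCover

variable (r : RatCover)

/-- The degree of the cover. -/
def d : ℕ := r.P.natDegree

theorem d_pos : 0 < r.d := lt_of_le_of_lt (Nat.zero_le _) r.hdeg

theorem P_ne_zero : r.P ≠ 0 := fun h => by
  have := r.hdeg
  simp [h] at this

theorem Q_ne_zero : r.Q ≠ 0 := by
  intro h
  have hc := r.hcop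
  rw [h, Polynomial.map_zero, isCoprime_zero_right] at hc
  have hd : (r.P.map (Int.castRingHom ℚ)).natDegree = 0 := natDegree_eq_zero_of_isUnit hc
  rw [natDegree_map_eq_of_injective Int.cast_injective] at hd
  have := r.hdeg
  omega

/-- `j = P(x) / Q(x)`. -/
def j : CoverL := algebraMap ℤ[X] CoverL r.P / algebraMap ℤ[X] CoverL r.Q

theorem algebraMap_Q_ne_zero : algebraMap ℤ[X] CoverL r.Q ≠ 0 :=
  (map_ne_zero_iff _ (IsFractionRing.injective ℤ[X] CoverL)).2 r.Q_ne_zero

/-- `a ↦ a(j)`. -/
def phi : ℤ[X] →+* CoverL := (aeval r.j).toRingHom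

theorem phi_X : r.phi X = r.j := by simp [phi]

/-- Homogenisation `Q ^ e * a(P / Q)`. -/
def hom (a : ℤ[X]) (e : ℕ) : ℤ[X] :=
  ∑ i ∈ Finset.range (e + 1), C (a.coeff i) * r.P ^ i * r.Q ^ (e - i)

theorem algebraMap_hom (a : ℤ[X]) {e : ℕ} (he : a.natDegree ≤ e) :
    algebraMap ℤ[X] CoverL (r.hom a e) = algebraMap ℤ[X] CoverL r.Q ^ e * r.phi a := by
  rw [phi, AlgHom.toRingHom_eq_coe, RingHom.coe_coe,
    aeval_eq_sum_range' (Nat.lt_succ_of_le he), Finset.mul_sum, hom, map_sum]
  refine Finset.sum_congr rfl fun i hi => ?_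
  have hi' : i ≤ e := Nat.lt_succ_iff.1 (Finset.mem_range.1 hi)
  have hC : algebraMap ℤ[X] CoverL (C (a.coeff i)) = (a.coeff i : CoverL) := by simp
  rw [map_mul, map_mul, hC, map_pow, map_pow, j, div_pow, Algebra.smul_def,
    eq_intCast (algebraMap ℤ CoverL)]
  have hQ := r.algebraMap_Q_ne_zero
  have he' : algebraMap ℤ[X] CoverL r.Q ^ e =
      algebraMap ℤ[X] CoverL r.Q ^ (e - i) * algebraMap ℤ[X] CoverL r.Q ^ i := by
    rw [← pow_add, Nat.sub_add_cancel hi']
  rw [he']
  field_simp

theorem dvd_hom_sub (a : ℤ[X]) (e : ℕ) :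
    r.P ∣ r.hom a e - C (a.coeff 0) * r.Q ^ e := by
  rw [hom, Finset.sum_range_succ', pow_zero, mul_one, Nat.sub_zero, add_sub_cancel_right]
  exact Finset.dvd_sum fun i _ => Dvd.dvd.mul_right (Dvd.dvd.mul_left (dvd_pow_self _ (by omega)) _) _

theorem eq_zero_of_sum_eq_zero (a : Fin r.d → ℤ[X])
    (h : ∑ i : Fin r.d, r.phi (a i) * xL ^ (i : ℕ) = 0) : a = 0 := by
  suffices key : ∀ (e : ℕ) (a : Fin r.d → ℤ[X]), (∀ i, (a i).natDegree ≤ e) →
      ∑ i : Fin r.d, r.phi (a i) * xL ^ (i : ℕ) = 0 → a = 0 from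
    key (Finset.univ.sup fun i => (a i).natDegree) a
      (fun i => Finset.le_sup (f := fun i => (a i).natDegree) (Finset.mem_univ i)) h
  clear h a
  intro e
  induction e using Nat.strong_induction_on with
  | _ e ih =>
    intro a hae h
    have h1 : ∑ i : Fin r.d, r.hom (a i) e * X ^ (i : ℕ) = 0 := by
      apply IsFractionRing.injective ℤ[X] CoverL
      rw [map_sum, map_zero]
      simp only [map_mul, map_pow, algebraMap_hom r _ (hae _), mul_assoc, ← Finset.mul_sum]
      rw [show algebraMap ℤ[X] CoverL X = xL from rfl, h, mul_zero]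
    set c : ℤ[X] := ∑ i : Fin r.d, C ((a i).coeff 0) * X ^ (i : ℕ) with hc
    have h2 : r.P ∣ r.Q ^ e * c := by
      have h3 : r.P ∣ ∑ i : Fin r.d, (r.hom (a i) e - C ((a i).coeff 0) * r.Q ^ e) * X ^ (i : ℕ) :=
        Finset.dvd_sum fun i _ => (r.dvd_hom_sub _ e).mul_right _
      simp only [sub_mul, Finset.sum_sub_distrib, h1, zero_sub, dvd_neg] at h3
      rw [hc, Finset.mul_sum]
      refine h3.trans (dvd_of_eq ?_)
      exact Finset.sum_congr rfl fun i _ => by ring
    have hc0 : c = 0 := by
      by_contra hne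
      have h4 : r.P.map (Int.castRingHom ℚ) ∣ c.map (Int.castRingHom ℚ) := by
        refine (r.hcop.pow_right (n := e)).dvd_of_dvd_mul_left ?_
        rw [← Polynomial.map_pow, ← Polynomial.map_mul]
        exact Polynomial.map_dvd _ h2
      have h5 := natDegree_le_of_dvd h4 ((Polynomial.map_ne_zero_iff Int.cast_injective).2 hne)
      rw [natDegree_map_eq_of_injective Int.cast_injective,
        natDegree_map_eq_of_injective Int.cast_injective] at h5
      have h6 : c.natDegree < r.d := by
        refine lt_of_le_of_lt (natDegree_sum_le_of_forall_le _ _ fun i _ => ?_)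
          (Nat.sub_lt r.d_pos one_pos)
        exact (natDegree_C_mul_X_pow_le _ _).trans (by have := i.2; omega)
      exact absurd h6 (not_lt.2 h5)
    have h0 : ∀ i, (a i).coeff 0 = 0 := by
      intro i
      have := congrArg (fun p => coeff p (i : ℕ)) hc0
      simpa [hc, finsetSum_coeff, Fin.val_inj] using this
    have hb : ∀ i, a i = X * (a i).divX := fun i => by
      conv_lhs => rw [← X_mul_divX_add (a i), h0 i, map_zero, add_zero]
    rcases Nat.eq_zero_or_pos e with rfl | he
    · funext i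
      exact eq_C_of_natDegree_le_zero (hae i) |>.trans (by simp [h0 i])
    · have := ih (e - 1) (by omega) (fun i => (a i).divX)
        (fun i => by rw [natDegree_divX_eq_natDegree_tsub_one]; have := hae i; omega) (by
          have hj : r.j ≠ 0 := div_ne_zero
            ((map_ne_zero_iff _ (IsFractionRing.injective ℤ[X] CoverL)).2 r.P_ne_zero)
            r.algebraMap_Q_ne_zero
          refine (mul_eq_zero.1 ?_).resolve_left hj
          rw [Finset.mul_sum, ← h]
          refine Finset.sum_congr rfl fun i _ => ?_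
          conv_rhs => rw [hb i, map_mul, phi_X]
          ring)
      funext i
      rw [hb i, congrFun this i, Pi.zero_apply, mul_zero]

theorem phi_injective : Function.Injective r.phi := by
  rw [injective_iff_map_eq_zero]
  intro a ha
  have := r.eq_zero_of_sum_eq_zero (fun i => if (i : ℕ) = 0 then a else 0) (by
    rw [Finset.sum_eq_single ⟨0, r.d_pos⟩]
    · simp [ha]
    · intro i _ hi
      have : (i : ℕ) ≠ 0 := fun h => hi (Fin.ext h)
      simp [this]
    · simp)
  simpa using congrFun this ⟨0, r.d_pos⟩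

/-- The structure map `ℚ(X) → ℚ(x)`. -/
def toL : BaseK →+* CoverL := IsFractionRing.lift r.phi_injective

theorem toL_algebraMap (a : ℤ[X]) : r.toL (algebraMap ℤ[X] BaseK a) = r.phi a :=
  IsFractionRing.lift_algebraMap r.phi_injective a

/-- The polynomial `P(T) - X Q(T)`. -/
def eqn (A : Type*) [CommRing A] [Algebra ℤ[X] A] : A[X] :=
  r.P.map (algebraMap ℤ A) - C (algebraMap ℤ[X] A X) * r.Q.map (algebraMap ℤ A)

theorem natDegree_eqn_le (A : Type*) [CommRing A] [Algebra ℤ[X] A] :
    (r.eqn A).natDegree ≤ r.d :=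
  (natDegree_sub_le _ _).trans (max_le natDegree_map_le
    ((natDegree_C_mul_le _ _).trans (natDegree_map_le.trans r.hdeg.le)))

theorem coeff_eqn (A : Type*) [CommRing A] [Algebra ℤ[X] A] :
    (r.eqn A).coeff r.d = (r.P.leadingCoeff : A) := by
  rw [eqn, coeff_sub, coeff_C_mul, coeff_map, coeff_map,
    coeff_eq_zero_of_natDegree_lt (show r.Q.natDegree < r.d from r.hdeg), map_zero, mul_zero,
    sub_zero]
  rfl

end RatCover

end Fermat.Agent.IgusaGenus
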