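import Mathlib
import Fermat.Agent.IgusaGenus.Rigid

/-!
# The function field of a rational cover

The function field of a rational cover as a finite extension of `ℚ(X)` with power basis.
-/

set_option autoImplicit false

noncomputable section

open Polynomial

namespace Fermat.Agent.IgusaGenus.RatCover

/-- The field `ℚ(x)` seen over `ℚ(X)` through `X ↦ P(x)/Q(x)`. -/
def Lr (_r : RatCover) : Type := RatFunc ℤ

variable (r : RatCover)

instance : Field r.Lr := inferInstanceAs (Field (RatFunc ℤ))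

/-- The identification with `RatFunc ℤ`. -/
def toCover : r.Lr ≃+* CoverL := RingEquiv.refl _

/-- `a ↦ a(x)`. -/
def polyX : ℤ[X] →+* r.Lr := (r.toCover.symm : CoverL →+* r.Lr).comp (algebraMap ℤ[X] CoverL)

theorem polyX_injective : Function.Injective r.polyX :=
  r.toCover.symm.injective.comp (IsFractionRing.injective ℤ[X] CoverL)

/-- The covering variable in `Lr`. -/
def xr : r.Lr := r.polyX X

theorem polyX_eq_aeval (a : ℤ[X]) : r.polyX a = aeval r.xr a := by
  have h : (aeval r.xr : ℤ[X] →ₐ[ℤ] r.Lr).toRingHom = r.polyX := by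
    refine Polynomial.ringHom_ext (fun n => ?_) ?_
    · simp
    · simp [xr]
  exact (congrArg (fun f : ℤ[X] →+* r.Lr => f a) h).symm

instance instAlgebraBase : Algebra BaseK r.Lr :=
  ((r.toCover.symm : CoverL →+* r.Lr).comp r.toL).toAlgebra

instance instAlgebraPoly : Algebra ℤ[X] r.Lr :=
  ((algebraMap BaseK r.Lr).comp (algebraMap ℤ[X] BaseK)).toAlgebra

instance : IsScalarTower ℤ[X] BaseK r.Lr := IsScalarTower.of_algebraMap_eq' rfl

theorem algebraMap_poly (a : ℤ[X]) :
    algebraMap ℤ[X] r.Lr a = r.toCover.symm (r.phi a) := by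
  change r.toCover.symm (r.toL (algebraMap ℤ[X] BaseK a)) = _
  rw [toL_algebraMap]

theorem algebraMap_hom_eq (a : ℤ[X]) {e : ℕ} (he : a.natDegree ≤ e) :
    r.polyX (r.hom a e) = r.polyX r.Q ^ e * algebraMap ℤ[X] r.Lr a := by
  rw [algebraMap_poly]
  exact congrArg r.toCover.symm (r.algebraMap_hom a he)

theorem polyX_P : r.polyX r.P = r.polyX r.Q * algebraMap ℤ[X] r.Lr X := by
  rw [algebraMap_poly, phi_X]
  change r.toCover.symm (algebraMap ℤ[X] CoverL r.P) = r.toCover.symm (algebraMap ℤ[X] CoverL r.Q *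
    r.j)
  rw [RatCover.j, mul_div_cancel₀ _ r.algebraMap_Q_ne_zero]

theorem aeval_eqn {A : Type*} [CommRing A] [Algebra ℤ[X] A] [Algebra A r.Lr]
    [IsScalarTower ℤ[X] A r.Lr] : aeval r.xr (r.eqn A) = 0 := by
  have h : ∀ p : ℤ[X], aeval r.xr (p.map (algebraMap ℤ A)) = r.polyX p := by
    intro p
    rw [aeval_def, eval₂_map, polyX_eq_aeval, aeval_def]
    congr 1
    exact RingHom.ext_int _ _
  rw [eqn, map_sub, map_mul, aeval_C, h, h, ← IsScalarTower.algebraMap_apply, polyX_P]
  ring

theorem linearIndependent_pow_base :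
    LinearIndependent ℤ[X] fun i : Fin r.d => r.xr ^ (i : ℕ) := by
  rw [Fintype.linearIndependent_iff]
  intro a ha i
  refine congrFun (r.eq_zero_of_sum_eq_zero a ?_) i
  have := congrArg r.toCover ha
  rw [map_sum, map_zero] at this
  rw [← this]
  refine Finset.sum_congr rfl fun i _ => ?_
  rw [Algebra.smul_def, map_mul, map_pow, algebraMap_poly, RingEquiv.apply_symm_apply]
  rfl

theorem linearIndependent_pow : LinearIndependent BaseK fun i : Fin r.d => r.xr ^ (i : ℕ) :=
  (LinearIndependent.iff_fractionRing ℤ[X] BaseK).1 r.linearIndependent_pow_base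

section Span

variable (A : Type*) [CommRing A] [Algebra ℤ[X] A] [Algebra A r.Lr] [IsScalarTower ℤ[X] A r.Lr]

/-- The monic equation of `x` over a ring in which `lead P` is invertible. -/
def monicEqn (hlead : IsUnit ((r.P.leadingCoeff : A))) : A[X] :=
  C (↑hlead.unit⁻¹ : A) * r.eqn A

theorem monicEqn_monic (hlead : IsUnit ((r.P.leadingCoeff : A))) :
    (r.monicEqn A hlead).Monic := by
  refine monic_of_natDegree_le_of_coeff_eq_one r.d
    ((natDegree_C_mul_le _ _).trans (r.natDegree_eqn_le A)) ?_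
  rw [monicEqn, coeff_C_mul, coeff_eqn]
  exact hlead.val_inv_mul

theorem natDegree_monicEqn_le (hlead : IsUnit ((r.P.leadingCoeff : A))) :
    (r.monicEqn A hlead).natDegree ≤ r.d :=
  (natDegree_C_mul_le _ _).trans (r.natDegree_eqn_le A)

theorem aeval_monicEqn (hlead : IsUnit ((r.P.leadingCoeff : A))) :
    aeval r.xr (r.monicEqn A hlead) = 0 := by
  rw [monicEqn, map_mul, aeval_eqn, mul_zero]

theorem isIntegral_xr (hlead : IsUnit ((r.P.leadingCoeff : A))) : IsIntegral A r.xr :=
  ⟨r.monicEqn A hlead, r.monicEqn_monic A hlead, r.aeval_monicEqn A hlead⟩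

theorem aeval_mem_span (hlead : IsUnit ((r.P.leadingCoeff : A))) (p : A[X]) :
    aeval r.xr p ∈ Submodule.span A (Set.range fun i : Fin r.d => r.xr ^ (i : ℕ)) := by
  rcases subsingleton_or_nontrivial A with _ | _
  · rw [Subsingleton.elim p 0, map_zero]
    exact zero_mem _
  rw [← aeval_modByMonic_eq_self_of_root (r.aeval_monicEqn A hlead)]
  have hne : r.monicEqn A hlead ≠ 1 := by
    intro h
    have := r.aeval_monicEqn A hlead
    rw [h, map_one] at this
    exact one_ne_zero this
  have hdeg : (p %ₘ r.monicEqn A hlead).natDegree < r.d :=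
    lt_of_lt_of_le (natDegree_modByMonic_lt _ (r.monicEqn_monic A hlead) hne)
      (r.natDegree_monicEqn_le A hlead)
  rw [aeval_eq_sum_range' hdeg]
  refine Submodule.sum_mem _ fun i hi => Submodule.smul_mem _ _ ?_
  exact Submodule.subset_span ⟨⟨i, Finset.mem_range.1 hi⟩, rfl⟩

theorem adjoin_toSubmodule_eq_span (hlead : IsUnit ((r.P.leadingCoeff : A))) :
    Subalgebra.toSubmodule (Algebra.adjoin A {r.xr}) =
      Submodule.span A (Set.range fun i : Fin r.d => r.xr ^ (i : ℕ)) := by
  refine le_antisymm ?_ (Submodule.span_le.2 ?_)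
  · intro y hy
    rw [Subalgebra.mem_toSubmodule, Algebra.adjoin_singleton_eq_range_aeval,
      AlgHom.mem_range] at hy
    obtain ⟨p, rfl⟩ := hy
    exact r.aeval_mem_span A hlead p
  · rintro _ ⟨i, rfl⟩
    exact pow_mem (Algebra.self_mem_adjoin_singleton _ _) _

end Span

theorem isUnit_lead_base : IsUnit ((r.P.leadingCoeff : BaseK)) := by
  refine isUnit_iff_ne_zero.2 ?_
  intro h
  have h' : algebraMap ℤ[X] BaseK (C r.P.leadingCoeff) = 0 := by simpa using h
  rw [map_eq_zero_iff _ (IsFractionRing.injective ℤ[X] BaseK), C_eq_zero,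
    leadingCoeff_eq_zero] at h'
  exact r.P_ne_zero h'

theorem span_pow_eq_top :
    ⊤ ≤ Submodule.span BaseK (Set.range fun i : Fin r.d => r.xr ^ (i : ℕ)) := by
  intro y _
  rw [← r.adjoin_toSubmodule_eq_span BaseK r.isUnit_lead_base, Subalgebra.mem_toSubmodule]
  have hfield : IsField (Algebra.adjoin BaseK {r.xr}) := by
    have : Algebra.IsIntegral BaseK (Algebra.adjoin BaseK {r.xr}) :=
      Algebra.IsIntegral.adjoin fun z hz => by
        rw [Set.mem_singleton_iff] at hz
        exact hz ▸ r.isIntegral_xr BaseK r.isUnit_lead_base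
    exact isField_of_isIntegral_of_isField' (Field.toIsField BaseK)
  obtain ⟨a, b, hb, hy⟩ := IsFractionRing.div_surjective (A := ℤ[X]) (r.toCover y)
  have hmem : ∀ p : ℤ[X], r.polyX p ∈ Algebra.adjoin BaseK {r.xr} := by
    intro p
    rw [polyX_eq_aeval, aeval_def, eval₂_eq_sum_range]
    refine Subalgebra.sum_mem _ fun i _ => Subalgebra.mul_mem _ ?_
      (pow_mem (Algebra.self_mem_adjoin_singleton _ _) _)
    rw [eq_intCast]
    exact intCast_mem _ _
  have hbne : (⟨r.polyX b, hmem b⟩ : Algebra.adjoin BaseK {r.xr}) ≠ 0 := by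
    intro h
    apply nonZeroDivisors.ne_zero hb
    exact r.polyX_injective (by simpa using congrArg Subtype.val h)
  obtain ⟨c, hc⟩ := hfield.mul_inv_cancel hbne
  have hy' : y = r.polyX a * (c : r.Lr) := by
    have h1 : r.polyX b * (c : r.Lr) = 1 := congrArg Subtype.val hc
    have h2 : (r.polyX b)⁻¹ = (c : r.Lr) := inv_eq_of_mul_eq_one_right h1
    rw [← h2, ← div_eq_mul_inv, ← r.toCover.symm_apply_apply y, ← hy, map_div₀]
    rfl
  rw [hy']
  exact mul_mem (hmem a) c.2

/-- The power basis `1, x, ..., x^(d-1)` of `ℚ(x)` over `ℚ(X)`. -/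
def powBasis : Module.Basis (Fin r.d) BaseK r.Lr :=
  Module.Basis.mk r.linearIndependent_pow r.span_pow_eq_top

theorem powBasis_apply (i : Fin r.d) : r.powBasis i = r.xr ^ (i : ℕ) :=
  Module.Basis.mk_apply _ _ i

instance : FiniteDimensional BaseK r.Lr := Module.Finite.of_basis r.powBasis

end Fermat.Agent.IgusaGenus.RatCover
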