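import Mathlib
import Fermat.Agent.IgusaGenus.Extend
import Fermat.Agent.IgusaGenus.RigidBasis

/-!
# The semilocal ring of a covering line

The semilocal ring of the covering line above a point `c` of the `X`-line in characteristic `ℓ`.
-/

set_option autoImplicit false

noncomputable section

open Polynomial

namespace Fermat.Agent.IgusaGenus

section KRing

variable {k : Type*} [Field k]

/-- The prime ideal of integer polynomials vanishing at `c : k`. -/
def kIdeal (c : k) : Ideal ℤ[X] := RingHom.ker (aeval c : ℤ[X] →ₐ[ℤ] k).toRingHom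

instance (c : k) : (kIdeal c).IsPrime := RingHom.ker_isPrime _

theorem kCompl_le_nonZeroDivisors (c : k) : (kIdeal c).primeCompl ≤ nonZeroDivisors ℤ[X] :=
  Ideal.primeCompl_le_nonZeroDivisors (kIdeal c)

/-- The local ring of `ℤ[X]` at the point `c` of residue characteristic `ℓ`. -/
abbrev KRing (c : k) := Localization.AtPrime (kIdeal c)

/-- Evaluation at `c`. -/
def evalK (c : k) : KRing c →+* k :=
  IsLocalization.lift (M := (kIdeal c).primeCompl) (S := KRing c)
    (g := (aeval c : ℤ[X] →ₐ[ℤ] k).toRingHom) fun g => isUnit_iff_ne_zero.2 g.2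

theorem evalK_algebraMap (c : k) (g : ℤ[X]) : evalK c (algebraMap ℤ[X] (KRing c) g) = aeval c g :=
  IsLocalization.lift_eq _ g

theorem isUnit_of_evalK_ne_zero (c : k) {z : KRing c} (h : evalK c z ≠ 0) : IsUnit z := by
  obtain ⟨a, s, rfl⟩ := IsLocalization.exists_mk'_eq (kIdeal c).primeCompl z
  rw [IsLocalization.AtPrime.isUnit_mk'_iff (KRing c) (kIdeal c) a s]
  intro ha
  apply h
  rw [evalK, IsLocalization.lift_mk'_spec, mul_zero]
  exact ha

instance instAlgebraKRingBase (c : k) : Algebra (KRing c) BaseK :=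
  (IsLocalization.lift (M := (kIdeal c).primeCompl) (g := algebraMap ℤ[X] BaseK) fun g =>
    isUnit_iff_ne_zero.2 ((map_ne_zero_iff _ (IsFractionRing.injective ℤ[X] BaseK)).2
      (nonZeroDivisors.ne_zero (kCompl_le_nonZeroDivisors c g.2)))).toAlgebra

instance (c : k) : IsScalarTower ℤ[X] (KRing c) BaseK :=
  IsScalarTower.of_algebraMap_eq fun g => (IsLocalization.lift_eq _ g).symm

instance (c : k) : IsFractionRing (KRing c) BaseK :=
  IsFractionRing.isFractionRing_of_isDomain_of_isLocalization (kIdeal c).primeCompl (KRing c) BaseK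

instance (c : k) : IsIntegrallyClosed (KRing c) :=
  isIntegrallyClosed_of_isLocalization (KRing c) (kIdeal c).primeCompl (kCompl_le_nonZeroDivisors c)

end KRing

namespace RatCover

variable (r : RatCover) {k : Type*} [Field k] (c : k)

/-- The points of the covering line over `c`. -/
def roots : Set k := {l | aeval l r.P = c * aeval l r.Q}

theorem mem_roots {l : k} : l ∈ r.roots c ↔ aeval l r.P = c * aeval l r.Q := Iff.rfl

/-- Conditions for the cover to be finite of degree `d` over a neighbourhood of `c`. -/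
structure GoodAt : Prop where
  lead : (r.P.leadingCoeff : k) ≠ 0
  cop : ∀ l ∈ r.roots c, aeval l r.Q ≠ 0

variable {r c}

theorem GoodAt.finite_roots (h : r.GoodAt c) : (r.roots c).Finite := by
  set H : k[X] := r.P.map (Int.castRingHom k) - C c * r.Q.map (Int.castRingHom k)
  have hne : H ≠ 0 := by
    intro h0
    apply h.lead
    have := congrArg (fun p => coeff p r.d) h0
    simp [H, RatCover.d, coeff_eq_zero_of_natDegree_lt r.hdeg] at this
    exact this
  refine (H.rootSet_finite k).subset fun l hl => ?_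
  rw [mem_rootSet]
  refine ⟨hne, ?_⟩
  rw [mem_roots] at hl
  have he : ∀ p : ℤ[X], aeval l (p.map (Int.castRingHom k)) = aeval l p := fun p => by
    rw [aeval_def, eval₂_map, aeval_def]
    congr 1
  simp only [H, map_sub, map_mul, aeval_C, he, hl]
  simp

theorem GoodAt.isUnit_lead (h : r.GoodAt c) : IsUnit ((r.P.leadingCoeff : KRing c)) := by
  refine isUnit_of_evalK_ne_zero c ?_
  rw [map_intCast]
  exact h.lead

theorem GoodAt.roots_nonempty [IsAlgClosed k] (h : r.GoodAt c) : (r.roots c).Nonempty := by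
  set H : k[X] := r.P.map (Int.castRingHom k) - C c * r.Q.map (Int.castRingHom k)
  have hcoeff : H.coeff r.d = (r.P.leadingCoeff : k) := by
    simp [H, RatCover.d, coeff_eq_zero_of_natDegree_lt r.hdeg]
  have hdeg : H.degree ≠ 0 := by
    intro h0
    have := natDegree_eq_of_degree_eq_some h0
    rw [coeff_eq_zero_of_natDegree_lt (by rw [this]; exact r.d_pos)] at hcoeff
    exact h.lead hcoeff.symm
  obtain ⟨l, hl⟩ := IsAlgClosed.exists_root H hdeg
  refine ⟨l, ?_⟩
  rw [mem_roots]
  have he : ∀ p : ℤ[X], (p.map (Int.castRingHom k)).eval l = aeval l p := fun p => by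
    rw [eval_map, aeval_def]
    congr 1
  simp only [IsRoot, H, eval_sub, eval_mul, eval_C, he] at hl
  exact sub_eq_zero.1 hl

variable (r c)

instance instAlgebraKRingLr : Algebra (KRing c) r.Lr :=
  ((algebraMap BaseK r.Lr).comp (algebraMap (KRing c) BaseK)).toAlgebra

instance : IsScalarTower (KRing c) BaseK r.Lr := IsScalarTower.of_algebraMap_eq' rfl

instance : IsScalarTower ℤ[X] (KRing c) r.Lr := IsScalarTower.of_algebraMap_eq fun g => by
  rw [IsScalarTower.algebraMap_apply (KRing c) BaseK r.Lr, ← IsScalarTower.algebraMap_apply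
    ℤ[X] (KRing c) BaseK, ← IsScalarTower.algebraMap_apply ℤ[X] BaseK r.Lr]

/-- The ring of the covering line over a neighbourhood of `c`. -/
abbrev cover : Subalgebra (KRing c) r.Lr := Algebra.adjoin (KRing c) {r.xr}

instance instCommRingCover : CommRing (r.cover c) := Subalgebra.toCommRing _

theorem polyX_mem_cover (g : ℤ[X]) : r.polyX g ∈ r.cover c := by
  rw [polyX_eq_aeval, aeval_def, eval₂_eq_sum_range]
  refine Subalgebra.sum_mem _ fun i _ => Subalgebra.mul_mem _ ?_
    (pow_mem (Algebra.self_mem_adjoin_singleton _ _) _)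
  rw [eq_intCast]
  exact intCast_mem _ _

/-- `a ↦ a(x)` into the cover ring. -/
def polyA : ℤ[X] →+* r.cover c := r.polyX.codRestrict (r.cover c) (r.polyX_mem_cover c)

@[simp] theorem coe_polyA (g : ℤ[X]) : (r.polyA c g : r.Lr) = r.polyX g := rfl

variable {r c}

theorem GoodAt.isIntegral (h : r.GoodAt c) : Algebra.IsIntegral (KRing c) (r.cover c) :=
  Algebra.IsIntegral.adjoin fun z hz => by
    rw [Set.mem_singleton_iff] at hz
    exact hz ▸ r.isIntegral_xr (KRing c) h.isUnit_lead

theorem GoodAt.fg (h : r.GoodAt c) : (Subalgebra.toSubmodule (r.cover c)).FG := by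
  rw [r.adjoin_toSubmodule_eq_span (KRing c) h.isUnit_lead]
  exact Submodule.fg_span (Set.finite_range _)

theorem GoodAt.isNoetherianRing (h : r.GoodAt c) : IsNoetherianRing (r.cover c) := by
  have : Module.Finite (KRing c) (r.cover c) :=
    Module.Finite.iff_fg.2 h.fg
  exact isNoetherianRing_iff.2 (isNoetherian_of_tower (KRing c) (isNoetherian_of_isNoetherianRing_of_finite (KRing c) (r.cover c)))

/-- A point of the cover ring over `c` sends `x` to a root, and `a(x)` to the value there. -/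
theorem point_spec {ψ : r.cover c →+* k} (hψ : ψ.comp (algebraMap (KRing c) (r.cover c)) = evalK c) :
    ψ (r.polyA c X) ∈ r.roots c ∧ ∀ g : ℤ[X], ψ (r.polyA c g) = aeval (ψ (r.polyA c X)) g := by
  have h1 : ∀ g : ℤ[X], ψ (r.polyA c g) = aeval (ψ (r.polyA c X)) g := by
    intro g
    have h : ψ.comp (r.polyA c) =
        (aeval (ψ (r.polyA c X)) : ℤ[X] →ₐ[ℤ] k).toRingHom := by
      refine Polynomial.ringHom_ext (fun n => ?_) (by simp)
      simp
    exact congrArg (fun f : ℤ[X] →+* k => f g) h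
  refine ⟨?_, h1⟩
  rw [mem_roots, ← h1, ← h1]
  have h2 : r.polyA c r.P =
      algebraMap (KRing c) (r.cover c) (algebraMap ℤ[X] (KRing c) X) * r.polyA c r.Q := by
    apply Subtype.ext
    rw [Subalgebra.coe_mul, coe_polyA, coe_polyA, polyX_P, mul_comm]
    congr 1
    exact IsScalarTower.algebraMap_apply ℤ[X] (KRing c) r.Lr X
  rw [h2, map_mul, show ψ (algebraMap (KRing c) (r.cover c) (algebraMap ℤ[X] (KRing c) X)) =
    evalK c (algebraMap ℤ[X] (KRing c) X) from congrArg (fun f : KRing c →+* k => f _) hψ,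
    evalK_algebraMap, aeval_X]

variable [IsAlgClosed k]

theorem GoodAt.isUnit_of_forall_roots (h : r.GoodAt c) {g : ℤ[X]}
    (hg : ∀ l ∈ r.roots c, aeval l g ≠ 0) : IsUnit (r.polyA c g) := by
  have := h.isIntegral
  refine isUnit_of_forall_hom (evalK c) (fun a => isUnit_of_evalK_ne_zero c) fun ψ hψ => ?_
  rw [(point_spec hψ).2 g]
  exact hg _ (point_spec hψ).1

variable (r c) in
/-- The denominators of the cover ring. -/
def coverCompl : Submonoid ℤ[X] where
  carrier := {g | ∀ l ∈ r.roots c, aeval l g ≠ 0}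
  one_mem' := fun l _ => by simp
  mul_mem' := fun {a b} ha hb l hl => by simp [ha l hl, hb l hl]

theorem GoodAt.ne_zero_of_mem (h : r.GoodAt c) {g : ℤ[X]} (hg : g ∈ r.coverCompl c) : g ≠ 0 := by
  obtain ⟨l, hl⟩ := h.roots_nonempty
  intro h0
  exact hg l hl (by simp [h0])

theorem GoodAt.exists_num_den (h : r.GoodAt c) (z : r.cover c) :
    ∃ a g : ℤ[X], g ∈ r.coverCompl c ∧ z * r.polyA c g = r.polyA c a := by
  obtain ⟨z, hz⟩ := z
  suffices key : ∃ a g : ℤ[X], g ∈ r.coverCompl c ∧ z * r.polyX g = r.polyX a by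
    obtain ⟨a, g, hg, he⟩ := key
    exact ⟨a, g, hg, Subtype.ext he⟩
  induction hz using Algebra.adjoin_induction with
  | mem y hy =>
    rw [Set.mem_singleton_iff] at hy
    exact ⟨X, 1, one_mem _, by rw [map_one, mul_one, hy]; rfl⟩
  | algebraMap t =>
    obtain ⟨a, s, rfl⟩ := IsLocalization.exists_mk'_eq (kIdeal c).primeCompl t
    set e := max a.natDegree (s : ℤ[X]).natDegree
    refine ⟨r.hom a e, r.hom s e, fun l hl => ?_, ?_⟩
    · rw [show aeval l (r.hom (s : ℤ[X]) e) = aeval l r.Q ^ e * aeval c (s : ℤ[X]) from ?_]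
      · exact mul_ne_zero (pow_ne_zero _ (h.cop l hl)) s.2
      rw [hom, map_sum, aeval_eq_sum_range' (Nat.lt_succ_of_le (le_max_right _ _) :
        (s : ℤ[X]).natDegree < e + 1), Finset.mul_sum]
      refine Finset.sum_congr rfl fun i hi => ?_
      rw [mem_roots] at hl
      rw [map_mul, map_mul, map_pow, map_pow, hl, aeval_C, eq_intCast, zsmul_eq_mul, mul_pow]
      have hie : i ≤ e := Nat.lt_succ_iff.1 (Finset.mem_range.1 hi)
      have hpe : aeval l r.Q ^ e = aeval l r.Q ^ (e - i) * aeval l r.Q ^ i := by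
        rw [← pow_add, Nat.sub_add_cancel hie]
      rw [hpe]
      ring
    · rw [r.algebraMap_hom_eq _ (le_max_left _ _), r.algebraMap_hom_eq _ (le_max_right _ _),
        IsScalarTower.algebraMap_apply ℤ[X] (KRing c) r.Lr (s : ℤ[X]),
        IsScalarTower.algebraMap_apply ℤ[X] (KRing c) r.Lr a, mul_left_comm, ← map_mul,
        IsLocalization.mk'_spec]
  | add y w _ _ ihy ihw =>
    obtain ⟨a, g, hg, hy⟩ := ihy
    obtain ⟨a', g', hg', hw⟩ := ihw
    exact ⟨a * g' + a' * g, g * g', mul_mem hg hg', by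
      rw [map_add, map_mul, map_mul, map_mul, ← hy, ← hw]; ring⟩
  | mul y w _ _ ihy ihw =>
    obtain ⟨a, g, hg, hy⟩ := ihy
    obtain ⟨a', g', hg', hw⟩ := ihw
    exact ⟨a * a', g * g', mul_mem hg hg', by rw [map_mul, map_mul, ← hy, ← hw]; ring⟩

/-- The cover ring is a localisation of `ℤ[x]`. -/
theorem GoodAt.isLocalization (h : r.GoodAt c) :
    letI := (r.polyA c).toAlgebra
    IsLocalization (r.coverCompl c) (r.cover c) := by
  let := (r.polyA c).toAlgebra
  refine (isLocalization_iff _ _).2 ⟨fun g => h.isUnit_of_forall_roots g.2, fun z => ?_, ?_⟩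
  · obtain ⟨a, g, hg, he⟩ := h.exists_num_den z
    exact ⟨(a, ⟨g, hg⟩), he⟩
  · intro a b hab
    exact ⟨1, by rw [r.polyX_injective (congrArg Subtype.val hab)]⟩

theorem GoodAt.isIntegrallyClosed (h : r.GoodAt c) : IsIntegrallyClosed (r.cover c) := by
  let := (r.polyA c).toAlgebra
  have := h.isLocalization
  exact isIntegrallyClosed_of_isLocalization (r.cover c) (r.coverCompl c)
    (fun g hg => mem_nonZeroDivisors_of_ne_zero (h.ne_zero_of_mem hg))

omit [IsAlgClosed k] in
variable (r) in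
theorem isFractionRing_polyX : @IsFractionRing ℤ[X] _ r.Lr _ r.polyX.toAlgebra := by
  let : Algebra ℤ[X] r.Lr := r.polyX.toAlgebra
  refine (isLocalization_iff _ _).2 ⟨fun g => ?_, fun z => ?_, fun {a b} hab => ?_⟩
  · exact isUnit_iff_ne_zero.2 ((map_ne_zero_iff _ r.polyX_injective).2 (nonZeroDivisors.ne_zero g.2))
  · obtain ⟨⟨a, s⟩, ha⟩ := IsLocalization.surj (nonZeroDivisors ℤ[X]) (r.toCover z)
    refine ⟨(a, s), r.toCover.injective ?_⟩
    rw [map_mul]
    exact ha
  · exact ⟨1, by rw [r.polyX_injective hab]⟩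

theorem GoodAt.isFractionRing (h : r.GoodAt c) : IsFractionRing (r.cover c) r.Lr := by
  let := (r.polyA c).toAlgebra
  let : Algebra ℤ[X] r.Lr := r.polyX.toAlgebra
  have := h.isLocalization
  have : IsScalarTower ℤ[X] (r.cover c) r.Lr := IsScalarTower.of_algebraMap_eq fun g => rfl
  have : IsFractionRing ℤ[X] r.Lr := r.isFractionRing_polyX
  exact IsFractionRing.isFractionRing_of_isDomain_of_isLocalization (r.coverCompl c) (r.cover c) r.Lr

variable {ℓ : ℕ} [CharP k ℓ]

theorem GoodAt.natCast_mem_jacobson (h : r.GoodAt c) :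
    (ℓ : r.cover c) ∈ (⊥ : Ideal (r.cover c)).jacobson := by
  have := h.isIntegral
  rw [Ideal.mem_jacobson_bot]
  intro y
  refine isUnit_of_forall_hom (evalK c) (fun a => isUnit_of_evalK_ne_zero c) fun ψ _ => ?_
  simp

theorem GoodAt.prime_natCast [Fact ℓ.Prime] (h : r.GoodAt c) : Prime (ℓ : r.cover c) := by
  let := (r.polyA c).toAlgebra
  have := h.isLocalization
  have hp : Prime (ℓ : ℤ[X]) := by
    rw [← map_natCast C]
    exact prime_C_iff.2 (Nat.prime_iff_prime_int.1 Fact.out)
  have hne : (ℓ : ℤ[X]) ≠ 0 := hp.ne_zero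
  have hI : (Ideal.span {(ℓ : ℤ[X])}).IsPrime := (Ideal.span_singleton_prime hne).2 hp
  have hd : Disjoint (r.coverCompl c : Set ℤ[X]) ↑(Ideal.span {(ℓ : ℤ[X])}) := by
    rw [Set.disjoint_left]
    intro g hg hgI
    obtain ⟨t, rfl⟩ := Ideal.mem_span_singleton.1 hgI
    obtain ⟨l, hl⟩ := h.roots_nonempty
    exact hg l hl (by simp)
  have h1 := IsLocalization.isPrime_of_isPrime_disjoint (r.coverCompl c) (r.cover c) _ hI hd
  rw [Ideal.map_span, Set.image_singleton, map_natCast] at h1
  refine (Ideal.span_singleton_prime ?_).1 h1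
  rw [← map_natCast (r.polyA c) ℓ]
  intro h0
  have h0' := congrArg Subtype.val h0
  exact hne (r.polyX_injective (by simpa using h0'))

theorem GoodAt.isPrincipalIdealRing_quotient [Fact ℓ.Prime] (h : r.GoodAt c) :
    IsPrincipalIdealRing (r.cover c ⧸ Ideal.span {(ℓ : r.cover c)}) := by
  set q := Ideal.Quotient.mk (Ideal.span {(ℓ : r.cover c)})
  let π : ℤ[X] →+* (r.cover c ⧸ Ideal.span {(ℓ : r.cover c)}) := q.comp (r.polyA c)
  let σ : ℤ[X] →+* (ZMod ℓ)[X] := Polynomial.mapRingHom (Int.castRingHom (ZMod ℓ))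
  have hσ : Function.Surjective σ := Polynomial.map_surjective _ ZMod.intCast_surjective
  have hker : ∀ p : ℤ[X], σ p = 0 → π p = 0 := by
    intro p hp
    have hp' : C (ℓ : ℤ) ∣ p := by
      rw [C_dvd_iff_dvd_coeff]
      intro i
      have := congrArg (fun u => coeff u i) hp
      simpa [σ, ZMod.intCast_zmod_eq_zero_iff_dvd] using this
    obtain ⟨t, rfl⟩ := hp'
    simp only [π, RingHom.comp_apply]
    refine Ideal.Quotient.eq_zero_iff_mem.2 (Ideal.mem_span_singleton.2 ⟨r.polyA c t, ?_⟩)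
    rw [map_mul, eq_intCast C (ℓ : ℤ), map_intCast, Int.cast_natCast]
  refine ⟨fun J => ⟨?_⟩⟩
  obtain ⟨g, hg⟩ := IsPrincipalIdealRing.principal ((J.comap π).map σ)
  obtain ⟨g0, rfl⟩ := hσ g
  have hmem : ∀ p, σ p ∈ (J.comap π).map σ → π p ∈ J := by
    intro p hp
    obtain ⟨u, hu, hup⟩ := (Ideal.mem_map_iff_of_surjective σ hσ).1 hp
    have h0 : π (p - u) = 0 := hker _ (by rw [map_sub, hup, sub_self])
    rw [map_sub, sub_eq_zero] at h0
    rw [h0]
    exact hu
  refine ⟨π g0, le_antisymm (fun z hz => ?_) ((Submodule.span_singleton_le_iff_mem _ _).2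
    (hmem g0 (hg ▸ Submodule.mem_span_singleton_self _)))⟩
  obtain ⟨z, rfl⟩ := Ideal.Quotient.mk_surjective z
  obtain ⟨a, g, hgS, he⟩ := h.exists_num_den z
  have hu : IsUnit (π g) := (h.isUnit_of_forall_roots hgS).map q
  have ha : π a ∈ J := by
    have : π a = q z * π g := by simp [π, q, ← he]
    rw [this]
    exact J.mul_mem_right _ hz
  have hσa : σ a ∈ (J.comap π).map σ := Ideal.mem_map_of_mem σ ha
  rw [hg, Ideal.submodule_span_eq, Ideal.mem_span_singleton] at hσa
  obtain ⟨t, ht⟩ := hσa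
  obtain ⟨t0, rfl⟩ := hσ t
  have h2 : π (a - g0 * t0) = 0 := hker _ (by rw [map_sub, map_mul, ht, sub_self])
  rw [map_sub, map_mul, sub_eq_zero] at h2
  have h3 : q z * π g = π g0 * π t0 := by rw [← h2]; simp [π, q, ← he]
  rw [Ideal.submodule_span_eq, Ideal.mem_span_singleton]
  exact ⟨π t0 * ↑hu.unit⁻¹, by rw [← mul_assoc, ← h3, mul_assoc, hu.mul_val_inv, mul_one]⟩

end RatCover

end Fermat.Agent.IgusaGenus
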