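import Mathlib

/-!
# Saturated finite modules are free

A saturated finite module over a domain, with a prime element in the Jacobson radical and principal
ideal quotient, is free.
-/

set_option autoImplicit false

noncomputable section

namespace Fermat.Agent.IgusaGenus

open Submodule

/-- A saturated finite module is free. -/
theorem free_of_saturated {A M : Type*} [CommRing A] [IsDomain A] [IsNoetherianRing A]
    [AddCommGroup M] [Module A M] [Module.Finite A M] [Module.IsTorsionFree A M]
    {ϖ : A} (hϖ : Prime ϖ) (hjac : ϖ ∈ (⊥ : Ideal A).jacobson)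
    (hpid : IsPrincipalIdealRing (A ⧸ Ideal.span {ϖ}))
    (hsat : ∀ (g : A) (x y : M), ¬ ϖ ∣ g → g • x = ϖ • y → ∃ z, x = ϖ • z) :
    Module.Free A M := by
  classical
  set I : Ideal A := Ideal.span {ϖ} with hI
  have : I.IsPrime := (Ideal.span_singleton_prime hϖ.ne_zero).2 hϖ
  have := hpid
  set Mb := M ⧸ (I • ⊤ : Submodule A M)
  have hmem : ∀ x : M, x ∈ (I • ⊤ : Submodule A M) ↔ ∃ y, x = ϖ • y := by
    intro x
    rw [hI, Submodule.ideal_span_singleton_smul, Submodule.mem_smul_pointwise_iff_exists]
    simp [eq_comm]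
  have htf : Module.IsTorsionFree (A ⧸ I) Mb := by
    rw [Module.isTorsionFree_iff_smul_eq_zero]
    intro r m h
    obtain ⟨g, rfl⟩ := Ideal.Quotient.mk_surjective r
    obtain ⟨x, rfl⟩ := Submodule.Quotient.mk_surjective _ m
    by_cases hg : ϖ ∣ g
    · left
      rw [Ideal.Quotient.eq_zero_iff_mem, hI, Ideal.mem_span_singleton]
      exact hg
    · right
      change Submodule.Quotient.mk (g • x) = (0 : Mb) at h
      rw [Submodule.Quotient.mk_eq_zero, hmem] at h ⊢
      obtain ⟨y, hy⟩ := h
      exact hsat g x y hg hy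
  have : Module.Free (A ⧸ I) Mb := Module.free_of_finite_type_torsion_free'
  let bb := Module.Free.chooseBasis (A ⧸ I) Mb
  let e : Module.Free.ChooseBasisIndex (A ⧸ I) Mb → M :=
    fun i => Function.surjInv (Submodule.Quotient.mk_surjective (I • ⊤ : Submodule A M)) (bb i)
  have he : ∀ i, Submodule.Quotient.mk (e i) = bb i := fun i =>
    Function.surjInv_eq (Submodule.Quotient.mk_surjective (I • ⊤ : Submodule A M)) (bb i)
  have hspan : ⊤ ≤ Submodule.span A (Set.range e) := by
    refine Submodule.le_of_le_smul_of_le_jacobson_bot (Module.finite_def.1 ‹_›)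
      (I := I) (by rw [hI, Ideal.span_singleton_le_iff_mem]; exact hjac) ?_
    intro x _
    obtain ⟨c, hc⟩ : ∃ c : Module.Free.ChooseBasisIndex (A ⧸ I) Mb → A,
        ∑ i, c i • bb i = (Submodule.Quotient.mk x : Mb) := by
      refine ⟨fun i => Function.surjInv Ideal.Quotient.mk_surjective
        (bb.repr (Submodule.Quotient.mk x) i), ?_⟩
      conv_rhs => rw [← bb.sum_repr (Submodule.Quotient.mk x)]
      refine Finset.sum_congr rfl fun i _ => ?_
      conv_rhs => rw [← Function.surjInv_eq Ideal.Quotient.mk_surjective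
        (bb.repr (Submodule.Quotient.mk x) i)]
      rfl
    have hd : x - ∑ i, c i • e i ∈ (I • ⊤ : Submodule A M) := by
      rw [← Submodule.Quotient.mk_eq_zero, Submodule.Quotient.mk_sub, ← hc, sub_eq_zero]
      rw [← Submodule.mkQ_apply, map_sum]
      simp [he]
    rw [show x = ∑ i, c i • e i + (x - ∑ i, c i • e i) by abel]
    exact Submodule.add_mem_sup
      (Submodule.sum_mem _ fun i _ => Submodule.smul_mem _ _ (Submodule.subset_span ⟨i, rfl⟩)) hd
  have hli : LinearIndependent A e := by
    rw [Fintype.linearIndependent_iff]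
    intro c hc
    have step : ∀ m : ℕ, ∃ c' : _ → A, (∀ i, c i = ϖ ^ m * c' i) ∧ ∑ i, c' i • e i = 0 := by
      intro m
      induction m with
      | zero => exact ⟨c, by simp, hc⟩
      | succ m ih =>
        obtain ⟨c', h1, h2⟩ := ih
        have h3 : ∀ i, ϖ ∣ c' i := by
          intro i
          have h4 : ∑ i, (Ideal.Quotient.mk I (c' i)) • bb i = 0 := by
            have := congrArg (Submodule.mkQ (I • ⊤ : Submodule A M)) h2
            simp only [map_sum, map_smul, map_zero, Submodule.mkQ_apply, he] at this
            exact this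
          have h5 := Fintype.linearIndependent_iff.1 bb.linearIndependent _ h4 i
          rwa [Ideal.Quotient.eq_zero_iff_mem, hI, Ideal.mem_span_singleton] at h5
        choose d hd using h3
        refine ⟨d, fun i => by rw [h1, hd]; ring, ?_⟩
        have : ϖ • ∑ i, d i • e i = 0 := by
          rw [Finset.smul_sum]
          refine Eq.trans (Finset.sum_congr rfl fun i _ => ?_) h2
          rw [smul_smul, hd]
        exact (smul_eq_zero.1 this).resolve_left hϖ.ne_zero
    intro i
    have hmemall : c i ∈ ⨅ m : ℕ, I ^ m := by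
      rw [Submodule.mem_iInf]
      intro m
      obtain ⟨c', h1, -⟩ := step m
      rw [h1, hI, Ideal.span_singleton_pow, Ideal.mem_span_singleton]
      exact Dvd.intro _ rfl
    rw [Ideal.iInf_pow_eq_bot_of_isDomain I (Ideal.IsPrime.ne_top ‹_›)] at hmemall
    simpa using hmemall
  exact Module.Free.of_basis (Module.Basis.mk hli hspan)

end Fermat.Agent.IgusaGenus
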