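import Mathlib

/-!
# Integrality of the trace and characteristic polynomial of an integral matrix
-/

set_option autoImplicit false

noncomputable section

open Polynomial Matrix

namespace Fermat.Agent.IgusaGenus

section Integral

variable {R K : Type*} [CommRing R] [Field K] [Algebra R K]
variable {n : Type*} [Fintype n] [DecidableEq n]

/-- Coefficients of the characteristic polynomial of an integral matrix are integral. -/
theorem isIntegral_charpoly_coeff {M : Matrix n n K} (hM : IsIntegral R M) (i : ℕ) :
    IsIntegral R (M.charpoly.coeff i) := by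
  classical
  obtain ⟨p, hp, hpM⟩ := hM
  set Kb := AlgebraicClosure K
  let φ : Matrix n n K →ₐ[R] Matrix n n Kb := (IsScalarTower.toAlgHom R K Kb).mapMatrix
  have hroot : ∀ z ∈ (φ M).charpoly.roots, IsIntegral R z := by
    intro z hz
    refine ⟨p, hp, ?_⟩
    have hs : z ∈ spectrum Kb (φ M) :=
      Matrix.mem_spectrum_of_isRoot_charpoly (isRoot_of_mem_roots hz)
    have h0 : Polynomial.aeval (φ M) (p.map (algebraMap R Kb)) = 0 := by
      rw [Polynomial.aeval_map_algebraMap, Polynomial.aeval_algHom_apply, Polynomial.aeval_def,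
        hpM, map_zero]
    have h1 := spectrum.subset_polynomial_aeval (φ M) (p.map (algebraMap R Kb)) ⟨z, hs, rfl⟩
    rw [h0] at h1
    by_contra hne
    have h2 : IsUnit (algebraMap Kb (Matrix n n Kb) ((p.map (algebraMap R Kb)).eval z)) :=
      (IsUnit.mk0 _ (by simpa [Polynomial.eval_map] using hne)).map _
    rw [spectrum.mem_iff, sub_zero] at h1
    exact h1 h2
  have hlift : (φ M).charpoly ∈ Polynomial.lifts (integralClosure R Kb).val.toRingHom := by
    have hprod := (IsAlgClosed.splits (φ M).charpoly).eq_prod_roots_of_monic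
      (Matrix.charpoly_monic _)
    have hmem : ∀ q ∈ (φ M).charpoly.roots.map (fun z => X - C z),
        q ∈ Polynomial.lifts (integralClosure R Kb).val.toRingHom := by
      intro q hq
      obtain ⟨z, hz, rfl⟩ := Multiset.mem_map.1 hq
      exact ⟨X - C ⟨z, hroot z hz⟩, by simp⟩
    rw [hprod]
    exact multiset_prod_mem _ hmem
  rw [Polynomial.lifts_iff_coeff_lifts] at hlift
  obtain ⟨y, hy⟩ := hlift i
  have hint : IsIntegral R ((φ M).charpoly.coeff i) := hy ▸ y.2
  have hcp : (φ M).charpoly = M.charpoly.map (algebraMap K Kb) :=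
    Matrix.charpoly_map M (algebraMap K Kb)
  rw [hcp, Polynomial.coeff_map] at hint
  exact (isIntegral_algHom_iff (IsScalarTower.toAlgHom R K Kb)
    (algebraMap K Kb).injective).1 hint

theorem isIntegral_trace_of_isIntegral {M : Matrix n n K} (hM : IsIntegral R M) :
    IsIntegral R M.trace := by
  rcases isEmpty_or_nonempty n with h | _
  · simpa [Matrix.trace] using (isIntegral_zero (R := R) (B := K))
  · rw [Matrix.trace_eq_neg_charpoly_coeff]
    exact (isIntegral_charpoly_coeff hM _).neg

end Integral

end Fermat.Agent.IgusaGenus
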