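import Mathlib
import Fermat.Agent.IgusaGenus.DetLemmas

/-!
# Trace forms of finite algebras

Trace forms of finite commutative algebras: integrality, nilpotents, point idempotents, and a
determinant of order one.
-/

set_option autoImplicit false

noncomputable section

open Polynomial Matrix

namespace Fermat.Agent.IgusaGenus

section Integral

variable {R L E : Type*} [CommRing R] [Field L] [CommRing E] [Algebra R L] [Algebra L E]
  [Algebra R E] [IsScalarTower R L E] {n : Type*} [Fintype n] [DecidableEq n]

/-- The trace of an integral element of a finite algebra over a field is integral. -/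
theorem isIntegral_algTrace (b : Module.Basis n L E) {x : E} (hx : IsIntegral R x) :
    IsIntegral R (Algebra.trace L E x) := by
  rw [Algebra.trace_eq_matrix_trace b]
  exact isIntegral_trace_of_isIntegral (hx.map ((Algebra.leftMulMatrix b).restrictScalars R))

/-- The discriminant times the coordinates of an integral element in an integral basis are
integral. -/
theorem isIntegral_discr_mul_repr (b : Module.Basis n L E) (hb : ∀ i, IsIntegral R (b i))
    {x : E} (hx : IsIntegral R x) (i : n) :
    IsIntegral R (Algebra.discr L b * b.repr x i) := by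
  have hv : Algebra.traceMatrix L b *ᵥ (b.repr x) = fun j => Algebra.trace L E (x * b j) := by
    ext j
    simp only [Matrix.mulVec, dotProduct, Algebra.traceMatrix_apply, Algebra.traceForm_apply]
    conv_rhs => rw [← b.sum_repr x, Finset.sum_mul, map_sum]
    refine Finset.sum_congr rfl fun l _ => ?_
    rw [smul_mul_assoc, map_smul, smul_eq_mul, mul_comm, mul_comm (b j) (b l)]
  have h := congrArg ((Algebra.traceMatrix L b).adjugate *ᵥ ·) hv
  rw [Matrix.mulVec_mulVec, Matrix.adjugate_mul, Matrix.smul_mulVec, Matrix.one_mulVec] at h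
  have h2 := congrFun h i
  simp only [Pi.smul_apply, smul_eq_mul] at h2
  rw [Algebra.discr_def, h2, Matrix.mulVec, dotProduct]
  refine IsIntegral.sum _ fun j _ => IsIntegral.mul ?_ (isIntegral_algTrace b (hx.mul (hb j)))
  rw [Matrix.adjugate_apply]
  refine IsIntegral.det fun p q => ?_
  rw [Matrix.updateRow_apply]
  split_ifs with hp
  · rw [Pi.single_apply]
    split_ifs
    · exact isIntegral_one
    · exact isIntegral_zero
  · rw [Algebra.traceMatrix_apply, Algebra.traceForm_apply]
    exact isIntegral_algTrace b ((hb p).mul (hb q))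

end Integral

section Nilpotent

variable {κ E : Type*} [Field κ] [CommRing E] [Algebra κ E] [Module.Finite κ E]

theorem algTrace_eq_zero_of_isNilpotent {x : E} (hx : IsNilpotent x) :
    Algebra.trace κ E x = 0 := by
  let b := Module.Free.chooseBasis κ E
  rw [Algebra.trace_eq_matrix_trace b]
  exact (Matrix.isNilpotent_trace_of_isNilpotent (hx.map (Algebra.leftMulMatrix b))).eq_zero

variable (κ) in
include κ in
/-- In a finite algebra, a non-nilpotent element has a multiple which is a non-zero idempotent. -/
theorem exists_mul_idempotent {x : E} (hx : ¬ IsNilpotent x) :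
    ∃ y, IsIdempotentElem (x * y) ∧ x * y ≠ 0 := by
  have : IsArtinianRing E := IsArtinianRing.of_finite κ E
  obtain ⟨m, hm⟩ := IsArtinian.range_smul_pow_stabilizes E x
  set M := m + 1
  have h2 := hm M (by omega)
  have h3 := hm (2 * M) (by omega)
  have hmem : x ^ M ∈ LinearMap.range (x ^ (2 * M) • (LinearMap.id : E →ₗ[E] E)) := by
    rw [← h3, h2]
    exact ⟨1, by simp⟩
  obtain ⟨z, hz⟩ := hmem
  simp only [LinearMap.smul_apply, LinearMap.id_apply, smul_eq_mul] at hz
  have hxy : x * (x ^ m * z) = x ^ M * z := by simp only [M, pow_succ]; ring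
  refine ⟨x ^ m * z, ?_, fun h => hx ⟨M, ?_⟩⟩
  · rw [hxy, IsIdempotentElem]
    calc x ^ M * z * (x ^ M * z) = (x ^ (2 * M) * z) * z := by ring
      _ = x ^ M * z := by rw [hz]
  · rw [hxy] at h
    calc x ^ M = x ^ (2 * M) * z := hz.symm
      _ = x ^ M * (x ^ M * z) := by ring
      _ = 0 := by rw [h, mul_zero]

/-- In characteristic zero a non-nilpotent element pairs non-trivially under the trace form. -/
theorem exists_algTrace_mul_ne_zero [CharZero κ] {x : E} (hx : ¬ IsNilpotent x) :
    ∃ y, Algebra.trace κ E (x * y) ≠ 0 := by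
  obtain ⟨y, hid, hne⟩ := exists_mul_idempotent κ hx
  refine ⟨y, ?_⟩
  set f : E →ₗ[κ] E := Algebra.lmul κ E (x * y)
  have hf : IsIdempotentElem f := hid.map (Algebra.lmul κ E)
  rw [Algebra.trace_apply]
  change LinearMap.trace κ E f ≠ 0
  obtain ⟨p, hp⟩ := (LinearMap.isProj_iff_isIdempotentElem f).2 hf
  rw [hp.trace, Nat.cast_ne_zero]
  intro h
  rw [Submodule.finrank_eq_zero] at h
  have hmem := hp.map_mem 1
  rw [h, Submodule.mem_bot] at hmem
  apply hne
  simpa [f] using hmem

theorem isReduced_of_discr_ne_zero {n : Type*} [Fintype n] [DecidableEq n]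
    (b : Module.Basis n κ E) (h : Algebra.discr κ b ≠ 0) : IsReduced E := by
  refine ⟨fun x hx => ?_⟩
  have hv : Algebra.traceMatrix κ b *ᵥ (b.repr x) = 0 := by
    ext j
    simp only [Matrix.mulVec, dotProduct, Algebra.traceMatrix_apply, Algebra.traceForm_apply,
      Pi.zero_apply]
    have h0 : Algebra.trace κ E (x * b j) = 0 :=
      algTrace_eq_zero_of_isNilpotent ((Commute.all _ _).isNilpotent_mul_right hx)
    rw [← b.sum_repr x, Finset.sum_mul, map_sum] at h0
    rw [← h0]
    refine Finset.sum_congr rfl fun l _ => ?_
    rw [smul_mul_assoc, map_smul, smul_eq_mul, mul_comm, mul_comm (b j) (b l)]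
  have := Matrix.eq_zero_of_mulVec_eq_zero (by rwa [← Algebra.discr_def]) hv
  exact b.repr.map_eq_zero_iff.1 (Finsupp.coe_eq_zero.1 this)

/-- In a reduced finite algebra over a field, each rational point has an idempotent. -/
theorem exists_point_idempotent [IsReduced E] (ψ : E →ₐ[κ] κ) :
    ∃ e : E, IsIdempotentElem e ∧ ψ e = 1 ∧ ∀ x, x * e = ψ x • e := by
  have : IsArtinianRing E := IsArtinianRing.of_finite κ E
  have hsurj : Function.Surjective ψ.toRingHom := fun a => ⟨algebraMap κ E a, by simp⟩
  have hmax : (RingHom.ker ψ.toRingHom).IsMaximal := RingHom.ker_isMaximal_of_surjective _ hsurj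
  classical
  have : Fintype (MaximalSpectrum E) := Fintype.ofFinite _
  let P : MaximalSpectrum E := ⟨RingHom.ker ψ.toRingHom, hmax⟩
  let iso := IsArtinianRing.equivPi E
  let e := iso.symm (Pi.single P 1)
  have he : IsIdempotentElem e := by
    rw [IsIdempotentElem, ← map_mul]
    simp [e, ← Pi.single_mul]
  have hcomp : ∀ (x : E) (Q : MaximalSpectrum E),
      iso x Q = Ideal.Quotient.mk Q.asIdeal x := fun x Q => rfl
  have hepsi : ψ e = 1 := by
    have h1 : Ideal.Quotient.mk P.asIdeal e = Ideal.Quotient.mk P.asIdeal 1 := by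
      rw [← hcomp, map_one]
      simp [e]
    rw [Ideal.Quotient.eq] at h1
    have : ψ (e - 1) = 0 := h1
    rwa [map_sub, map_one, sub_eq_zero] at this
  refine ⟨e, he, hepsi, fun x => ?_⟩
  apply iso.injective
  ext Q
  rw [hcomp, hcomp]
  by_cases hQ : Q = P
  · subst hQ
    rw [Ideal.Quotient.eq]
    change ψ (x * e - ψ x • e) = 0
    simp [hepsi]
  · have h0 : Ideal.Quotient.mk Q.asIdeal e = 0 := by
      rw [← hcomp]
      simp [e, hQ]
    rw [Algebra.smul_def, map_mul, map_mul, h0, mul_zero, mul_zero]

end Nilpotent

section DetOrderOne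

variable {k : Type*} [Field k] {n : Type*} [Fintype n] [DecidableEq n]

/-- If a polynomial matrix specialises to `diag (1, ..., 0, ..., 1)`, a scalar perturbation has
determinant of order exactly one. -/
theorem exists_det_order_one (M : Matrix n n k[X]) (lam : k) (i0 : n) (xi : k[X])
    (hxi : xi.eval lam ≠ 0) (hM : M.map (Polynomial.eval lam) = Matrix.diagonal (fun i => if i = i0 then 0 else 1)) :
    ∃ (a : k) (u : k[X]), u.eval lam ≠ 0 ∧
      (M + (C a * xi * (X - C lam)) • (1 : Matrix n n k[X])).det = (X - C lam) * u := by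
  have hcol : ∀ i, (X - C lam) ∣ M i i0 := by
    intro i
    rw [dvd_iff_isRoot, IsRoot]
    have := congrFun (congrFun hM i) i0
    simp only [Matrix.map_apply, Matrix.diagonal_apply] at this
    rw [this]
    split_ifs with h1 <;> rfl
  choose c hc using hcol
  classical
  let a : k := if (c i0).eval lam = 0 then 1 else 0
  let N : Matrix n n k[X] := M + (C a * xi * (X - C lam)) • (1 : Matrix n n k[X])
  let col : n → k[X] := fun i => c i + if i = i0 then C a * xi else 0
  have hN : N = N.updateCol i0 ((X - C lam) • col) := by
    ext i j : 2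
    rw [Matrix.updateCol_apply]
    split_ifs with hj
    · subst hj
      simp only [N, col, Matrix.add_apply, Matrix.smul_apply, Matrix.one_apply, smul_eq_mul,
        Pi.smul_apply, hc]
      split_ifs <;> ring_nf
    · rfl
  refine ⟨a, (N.updateCol i0 col).det, ?_, ?_⟩
  · rw [← Polynomial.coe_evalRingHom, RingHom.map_det, RingHom.mapMatrix_apply]
    have hne : (c i0).eval lam + a * xi.eval lam ≠ 0 := by
      by_cases h : (c i0).eval lam = 0 <;> simp [a, h, hxi]
    have htri : (N.updateCol i0 col).map (Polynomial.evalRingHom lam) =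
        (1 : Matrix n n k).updateCol i0 (fun i => (col i).eval lam) := by
      ext i j
      simp only [Matrix.map_apply, Matrix.updateCol_apply, Polynomial.coe_evalRingHom]
      split_ifs with hj
      · rfl
      · have hh := congrFun (congrFun hM i) j
        simp only [Matrix.map_apply, Matrix.diagonal_apply] at hh
        simp only [N, Matrix.add_apply, Matrix.smul_apply, Matrix.one_apply, smul_eq_mul]
        by_cases hij : i = j
        · subst hij
          simp [hh, hj]
        · simp [hh, hij]
    rw [htri]
    have hcr : (1 : Matrix n n k).updateCol i0 (fun i => (col i).eval lam)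
        = (1 : Matrix n n k).updateCol i0 ((1 : Matrix n n k) *ᵥ (fun i => (col i).eval lam)) := by
      rw [Matrix.one_mulVec]
    have hdet : ((1 : Matrix n n k).updateCol i0 (fun i => (col i).eval lam)).det
        = (col i0).eval lam := by
      rw [← Matrix.cramer_apply, Matrix.cramer_one]
      simp
    rw [hdet]
    simpa [col] using hne
  · change N.det = _
    conv_lhs => rw [hN]
    rw [Matrix.det_updateCol_smul]

end DetOrderOne

end Fermat.Agent.IgusaGenus
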