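import Mathlib
import Fermat.Agent.IgusaGenus.TraceForm

/-!
# Abhyankar's lemma in trace-form

A trace-form version of Abhyankar's lemma in residue characteristic zero: if all ramification
indices over `π` divide `m` (phrased by `hrad`), then adjoining an `m`-th root `s` of `π` up to a
unit gives a family with invertible Gram matrix.
-/

set_option autoImplicit false

noncomputable section

open Matrix TensorProduct

namespace Fermat.Agent.IgusaGenus

section

variable {O B κ : Type*} [CommRing O] [IsDomain O] [CommRing B] [IsDomain B] [IsIntegrallyClosed B]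
  [Algebra O B] [Module.Free O B] [Module.Finite O B] [Field κ] [CharZero κ]

/-- Level-`k` elements: `m`-th power divisible by `π ^ k`. -/
def levelSubmodule (m : ℕ) (π : O) (k : ℕ) (hm : m ≠ 0) : Submodule O B where
  carrier := {b | algebraMap O B π ^ k ∣ b ^ m}
  zero_mem' := by simp [zero_pow hm]
  add_mem' := by
    intro x y hx hy
    simp only [Set.mem_ofPred_eq] at hx hy ⊢
    rw [add_pow]
    refine Finset.dvd_sum fun i hi => Dvd.dvd.mul_right ?_ _
    refine (IsIntegrallyClosed.pow_dvd_pow_iff hm).1 ?_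
    have hi' : i ≤ m := Nat.lt_succ_iff.1 (Finset.mem_range.1 hi)
    calc (algebraMap O B π ^ k) ^ m
        = (algebraMap O B π ^ k) ^ i * (algebraMap O B π ^ k) ^ (m - i) := by
          rw [← pow_add, Nat.add_sub_cancel' hi']
      _ ∣ (x ^ m) ^ i * (y ^ m) ^ (m - i) := mul_dvd_mul (pow_dvd_pow_of_dvd hx i)
          (pow_dvd_pow_of_dvd hy _)
      _ = (x ^ i * y ^ (m - i)) ^ m := by ring
  smul_mem' := by
    intro a x hx
    simp only [Set.mem_ofPred_eq] at hx ⊢
    rw [Algebra.smul_def, mul_pow]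
    exact hx.mul_left _

omit [IsDomain O] [Module.Free O B] [Module.Finite O B] in
theorem mem_levelSubmodule {m : ℕ} {π : O} {k : ℕ} {hm : m ≠ 0} {b : B} :
    b ∈ levelSubmodule m π k hm ↔ algebraMap O B π ^ k ∣ b ^ m := Iff.rfl

/-- Products of levels. -/
theorem dvd_mul_of_levels {m : ℕ} (hm : m ≠ 0) {π : O} {k k' : ℕ} {b b' : B}
    (hb : b ∈ levelSubmodule m π k hm) (hb' : b' ∈ levelSubmodule m π k' hm) (hk : m ≤ k + k') :
    ∃ z, b * b' = algebraMap O B π * z ∧
      (π ≠ 0 → Function.Injective (algebraMap O B) →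
        algebraMap O B π ^ (k + k' - m) ∣ z ^ m) := by
  rw [mem_levelSubmodule] at hb hb'
  have h : algebraMap O B π ^ (k + k') ∣ (b * b') ^ m := by
    rw [mul_pow, pow_add]
    exact mul_dvd_mul hb hb'
  obtain ⟨z, hz⟩ := (IsIntegrallyClosed.pow_dvd_pow_iff hm).1 ((pow_dvd_pow _ hk).trans h)
  refine ⟨z, hz, fun hπ hinj => ?_⟩
  rw [hz, mul_pow] at h
  have he : algebraMap O B π ^ (k + k') =
      algebraMap O B π ^ m * algebraMap O B π ^ (k + k' - m) := by
    rw [← pow_add, Nat.add_sub_cancel' hk]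
  rw [he, mul_dvd_mul_iff_left (pow_ne_zero _ ((map_ne_zero_iff _ hinj).2 hπ))] at h
  exact h

/-- **Abhyankar, trace-form version.** -/
theorem exists_unit_gram {π : O} {m : ℕ} (hm : 1 ≤ m) (hπ : π ≠ 0)
    (q : O →+* κ) (hq : Function.Surjective q) (hker : ∀ x, q x = 0 ↔ π ∣ x)
    (hrad : ∀ (b : B) (k i : ℕ), k < m → 1 ≤ i →
      algebraMap O B π ^ (k * i + 1) ∣ b ^ (m * i) → algebraMap O B π ^ (k + 1) ∣ b ^ m)
    {O' κ' : Type*} [CommRing O'] [Field κ'] [Algebra O O'] (ev : O' →+* κ') (f : κ →+* κ')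
    (hev : ∀ x, ev (algebraMap O O' x) = f (q x)) {s u : O'} (hu : ev u ≠ 0) (hs : ev s = 0)
    (hpi : algebraMap O O' π = u * s ^ m) :
    ∃ (ι : Type) (_ : Fintype ι) (_ : DecidableEq ι) (b : ι → B) (k : ι → ℕ) (G : Matrix ι ι O'),
      Fintype.card ι = Module.finrank O B ∧
      (∀ i, k i < m ∧ algebraMap O B π ^ k i ∣ b i ^ m) ∧
      (∀ i j, G i j * s ^ (k i + k j) = algebraMap O O' (Algebra.trace O B (b i * b j))) ∧
      ev G.det ≠ 0 := by
  classical
  have hm0 : m ≠ 0 := by omega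
  let : Algebra O κ := q.toAlgebra
  have hqalg : ∀ x, algebraMap O κ x = q x := fun x => rfl
  let bO := Module.Free.chooseBasis O B
  let bb := Algebra.TensorProduct.basis κ bO
  let red : B →ₐ[O] κ ⊗[O] B := Algebra.TensorProduct.includeRight
  have hinjOB : Function.Injective (algebraMap O B) := by
    have : Nonempty (Module.Free.ChooseBasisIndex O B) := bO.index_nonempty
    intro x y hxy
    obtain ⟨i₀⟩ := (inferInstance : Nonempty (Module.Free.ChooseBasisIndex O B))
    have h1 : x • bO i₀ = y • bO i₀ := by rw [Algebra.smul_def, Algebra.smul_def, hxy]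
    simpa using congrArg (fun w => bO.repr w i₀) h1
  have hred0 : ∀ x : B, red x = 0 ↔ algebraMap O B π ∣ x := by
    intro x
    constructor
    · intro h
      have h1 : ∀ i, π ∣ bO.repr x i := by
        intro i
        have h2 := congrArg (fun w => bb.repr w i) h
        simp [red, bb, Algebra.TensorProduct.basis_repr_tmul, hqalg] at h2
        exact (hker _).1 h2
      choose c hc using h1
      refine ⟨∑ i, c i • bO i, ?_⟩
      conv_lhs => rw [← bO.sum_repr x]
      simp [Finset.mul_sum, hc, Algebra.smul_def, map_mul, mul_assoc]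
    · rintro ⟨c, rfl⟩
      rw [map_mul, AlgHom.commutes, Algebra.TensorProduct.algebraMap_apply, hqalg,
        (hker π).2 dvd_rfl, TensorProduct.zero_tmul, zero_mul]
  have hredsurj : Function.Surjective red := by
    intro w
    refine ⟨∑ i, Function.surjInv hq (bb.repr w i) • bO i, ?_⟩
    conv_rhs => rw [← bb.sum_repr w]
    simp only [map_sum, map_smul]
    refine Finset.sum_congr rfl fun i _ => ?_
    conv_rhs => rw [← Function.surjInv_eq hq (bb.repr w i)]
    rw [← hqalg, algebraMap_smul]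
    simp [bb, red]
  have htr : ∀ x : B, q (Algebra.trace O B x) = Algebra.trace κ (κ ⊗[O] B) (red x) := by
    intro x
    rw [Algebra.trace_apply, Algebra.trace_apply, ← hqalg, ← LinearMap.trace_baseChange,
      Algebra.baseChange_lmul]
    rfl
  have htr0 : ∀ x : B, algebraMap O B π ∣ x ^ m → q (Algebra.trace O B x) = 0 := by
    intro x hx
    rw [htr]
    exact algTrace_eq_zero_of_isNilpotent ⟨m, by rwa [← map_pow, hred0]⟩
  -- the filtration on the reduction
  let J : ℕ → Submodule O B := fun k => levelSubmodule m π k hm0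
  let V : ℕ → Submodule κ (κ ⊗[O] B) := fun k =>
    { carrier := red '' (J k : Set B)
      zero_mem' := ⟨0, (J k).zero_mem, map_zero _⟩
      add_mem' := by
        rintro _ _ ⟨x, hx, rfl⟩ ⟨y, hy, rfl⟩
        exact ⟨x + y, (J k).add_mem hx hy, map_add _ _ _⟩
      smul_mem' := by
        rintro a _ ⟨x, hx, rfl⟩
        obtain ⟨a, rfl⟩ := hq a
        exact ⟨a • x, (J k).smul_mem a hx, by rw [map_smul, ← hqalg, algebraMap_smul]⟩ }
  have hV : ∀ k (w : κ ⊗[O] B), w ∈ V k ↔ ∃ x ∈ J k, red x = w := fun k w => Iff.rfl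
  have hπJ : ∀ k, k ≤ m → ∀ c : B, algebraMap O B π * c ∈ J k := fun k hk c => by
    rw [mem_levelSubmodule, mul_pow]
    exact (pow_dvd_pow _ hk).mul_right _
  have hlift : ∀ k, k ≤ m → ∀ x : B, red x ∈ V k → x ∈ J k := by
    intro k hk x hx
    obtain ⟨y, hy, hyx⟩ := (hV k _).1 hx
    obtain ⟨c, hc⟩ := (hred0 (x - y)).1 (by rw [map_sub, hyx, sub_self])
    rw [eq_add_of_sub_eq hc]
    exact (J k).add_mem (hπJ k hk c) hy
  have hmono : ∀ k, V (k + 1) ≤ V k := by
    rintro k _ ⟨x, hx, rfl⟩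
    exact ⟨x, (pow_dvd_pow _ (Nat.le_succ k)).trans hx, rfl⟩
  have hV0 : V 0 = ⊤ := by
    refine eq_top_iff.2 fun w _ => ?_
    obtain ⟨x, rfl⟩ := hredsurj w
    exact ⟨x, by simp [J, mem_levelSubmodule], rfl⟩
  have hVm : V m = ⊥ := by
    refine eq_bot_iff.2 ?_
    rintro _ ⟨x, hx, rfl⟩
    rw [Submodule.mem_bot, hred0]
    exact (IsIntegrallyClosed.pow_dvd_pow_iff hm0).1 hx
  -- graded complements
  have hU : ∀ k, ∃ U : Submodule κ (κ ⊗[O] B), U ⊔ V (k + 1) = V k ∧ U ⊓ V (k + 1) = ⊥ := by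
    intro k
    obtain ⟨C, hC⟩ := (V (k + 1)).exists_isCompl
    refine ⟨C ⊓ V k, ?_, ?_⟩
    · rw [sup_comm, ← sup_inf_assoc_of_le _ (hmono k), hC.sup_eq_top, top_inf_eq]
    · rw [inf_assoc, inf_eq_right.2 (hmono k), inf_comm, hC.inf_eq_bot]
  choose U hUsup hUinf using hU
  have hcount : ∀ j, j ≤ m → Module.finrank κ (V 0) =
      (∑ k ∈ Finset.range j, Module.finrank κ (U k)) + Module.finrank κ (V j) := by
    intro j
    induction j with
    | zero => simp
    | succ j ih =>
      intro hj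
      have h := Submodule.finrank_sup_add_finrank_inf_eq (U j) (V (j + 1))
      rw [hUsup, hUinf, finrank_bot, add_zero] at h
      rw [ih (by omega), Finset.sum_range_succ, h]
      ring
  let ι := Σ k : Fin m, Fin (Module.finrank κ (U k))
  let w : ι → κ ⊗[O] B := fun i => (Module.finBasis κ (U i.1) i.2 : κ ⊗[O] B)
  have hwU : ∀ i : ι, w i ∈ U i.1 := fun i => SetLike.coe_mem _
  have hUV : ∀ k, U k ≤ V k := fun k => hUsup k ▸ le_sup_left
  let b : ι → B := fun i => Function.surjInv hredsurj (w i)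
  have hb : ∀ i, red (b i) = w i := fun i => Function.surjInv_eq hredsurj (w i)
  have hbJ : ∀ i : ι, b i ∈ J i.1 := fun i =>
    hlift _ i.1.2.le _ (by rw [hb]; exact hUV _ (hwU i))
  have hcard : Fintype.card ι = Module.finrank O B := by
    have h := hcount m le_rfl
    rw [hV0, hVm, finrank_bot, finrank_top, add_zero] at h
    rw [Module.finrank_eq_card_chooseBasisIndex, ← Module.finrank_eq_card_basis bb, h,
      ← Fin.sum_univ_eq_sum_range (fun k => Module.finrank κ (U k))]
    simp [ι, Fintype.card_sigma]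
  let kk : ι → ℕ := fun i => i.1
  have hkk : ∀ i, kk i < m := fun i => i.1.2
  have hone : ∀ i j : ι, kk i + kk j ≠ 0 → ∃ τ, Algebra.trace O B (b i * b j) = π * τ := by
    intro i j hne
    refine (hker _).1 (htr0 _ ?_)
    rw [mul_pow]
    rcases Nat.eq_zero_or_pos (kk i) with h | h
    · exact Dvd.dvd.mul_left ((dvd_pow_self _ (show kk j ≠ 0 by omega)).trans (hbJ j)) _
    · exact Dvd.dvd.mul_right ((dvd_pow_self _ (show kk i ≠ 0 by omega)).trans (hbJ i)) _
  have hG : ∀ i j : ι, ∃ (g : O') (g0 : κ),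
      g * s ^ (kk i + kk j) = algebraMap O O' (Algebra.trace O B (b i * b j)) ∧
      ev g = (if kk i = 0 then 1 else ev u) * f g0 ∧
      ((kk i = 0 ∧ kk j = 0 ∧ g0 = Algebra.trace κ (κ ⊗[O] B) (red (b i) * red (b j))) ∨
       (kk i + kk j = m ∧ kk i ≠ 0 ∧ ∃ z, b i * b j = algebraMap O B π * z ∧
          g0 = Algebra.trace κ (κ ⊗[O] B) (red z)) ∨
       (¬(kk i = 0 ∧ kk j = 0) ∧ kk i + kk j ≠ m ∧ g0 = 0)) := by
    intro i j
    by_cases h0 : kk i = 0 ∧ kk j = 0
    · refine ⟨algebraMap O O' (Algebra.trace O B (b i * b j)), q (Algebra.trace O B (b i * b j)),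
        by simp [h0.1, h0.2], by simp [hev, h0.1], Or.inl ⟨h0.1, h0.2, ?_⟩⟩
      rw [htr, map_mul]
    rcases lt_trichotomy (kk i + kk j) m with hlt | heq | hgt
    · obtain ⟨τ, hτ⟩ := hone i j (by omega)
      refine ⟨u * s ^ (m - (kk i + kk j)) * algebraMap O O' τ, 0, ?_, ?_,
        Or.inr (Or.inr ⟨h0, hlt.ne, rfl⟩)⟩
      · rw [hτ, map_mul, hpi]
        calc _ = u * (s ^ (m - (kk i + kk j)) * s ^ (kk i + kk j)) * algebraMap O O' τ := by ring
          _ = u * s ^ m * algebraMap O O' τ := by rw [← pow_add, Nat.sub_add_cancel hlt.le]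
      · have : m - (kk i + kk j) ≠ 0 := by omega
        simp [hs, this]
    · obtain ⟨z, hz, -⟩ := dvd_mul_of_levels hm0 (hbJ i) (hbJ j) (le_of_eq heq.symm)
      have hi : kk i ≠ 0 := by have := hkk j; omega
      refine ⟨u * algebraMap O O' (Algebra.trace O B z), q (Algebra.trace O B z), ?_, ?_,
        Or.inr (Or.inl ⟨heq, hi, z, hz, htr z⟩)⟩
      · rw [heq, hz, ← Algebra.smul_def, map_smul, smul_eq_mul, map_mul, hpi]
        ring
      · simp [hev, hi]
    · obtain ⟨z, hz, hz'⟩ := dvd_mul_of_levels hm0 (hbJ i) (hbJ j) hgt.le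
      have hzm : algebraMap O B π ∣ z ^ m :=
        (dvd_pow_self _ (show kk i + kk j - m ≠ 0 by omega)).trans (hz' hπ hinjOB)
      obtain ⟨τ, hτ⟩ := (hker _).1 (htr0 z hzm)
      refine ⟨u ^ 2 * s ^ (2 * m - (kk i + kk j)) * algebraMap O O' τ, 0, ?_, ?_,
        Or.inr (Or.inr ⟨h0, hgt.ne', rfl⟩)⟩
      · rw [hz, ← Algebra.smul_def, map_smul, smul_eq_mul, hτ, map_mul, map_mul, hpi]
        have := hkk i
        have := hkk j
        calc _ = u ^ 2 * (s ^ (2 * m - (kk i + kk j)) * s ^ (kk i + kk j)) * algebraMap O O' τ := by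
              ring
          _ = u ^ 2 * s ^ (2 * m) * algebraMap O O' τ := by
              rw [← pow_add, Nat.sub_add_cancel (by omega)]
          _ = _ := by ring
      · have := hkk i
        have := hkk j
        have : 2 * m - (kk i + kk j) ≠ 0 := by omega
        simp [hs, this]
  choose g g0 hg1 hg2 hg3 using hG
  refine ⟨ι, inferInstance, inferInstance, b, kk, Matrix.of g, hcard,
    fun i => ⟨hkk i, hbJ i⟩, hg1, ?_⟩
  -- the reduced Gram matrix is non-degenerate
  have hmap : (Matrix.of g).map ev =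
      Matrix.diagonal (fun i => if kk i = 0 then 1 else ev u) * (Matrix.of g0).map f := by
    ext i j
    simp [Matrix.diagonal_mul, hg2]
  rw [RingHom.map_det, RingHom.mapMatrix_apply, hmap, Matrix.det_mul, Matrix.det_diagonal]
  refine mul_ne_zero (Finset.prod_ne_zero_iff.2 fun i _ => ?_) ?_
  · split_ifs
    exacts [one_ne_zero, hu]
  rw [← RingHom.mapMatrix_apply, ← RingHom.map_det, map_ne_zero]
  intro hdet
  obtain ⟨a, ha0, ha⟩ := Matrix.exists_vecMul_eq_zero_iff.2 hdet
  obtain ⟨⟨k, l⟩, hkl⟩ := Function.ne_iff.1 ha0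
  -- the level-`k` part of the kernel vector
  let bk : B := ∑ l', Function.surjInv hq (a ⟨k, l'⟩) • b ⟨k, l'⟩
  have hredbk : red bk = ∑ l', a ⟨k, l'⟩ • w ⟨k, l'⟩ := by
    simp only [bk, map_sum, map_smul, hb]
    refine Finset.sum_congr rfl fun l' _ => ?_
    conv_rhs => rw [← Function.surjInv_eq hq (a ⟨k, l'⟩), ← hqalg, algebraMap_smul]
  have hbkJ : bk ∈ J k := Submodule.sum_mem _ fun l' _ => (J k).smul_mem _ (hbJ ⟨k, l'⟩)
  have hbknot : bk ∉ J (k + 1) := by
    intro h
    have h1 : red bk ∈ V (k + 1) := ⟨bk, h, rfl⟩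
    have h2 : red bk ∈ U k :=
      hredbk ▸ Submodule.sum_mem _ fun l' _ => (U k).smul_mem _ (hwU ⟨k, l'⟩)
    have h3 : red bk ∈ U k ⊓ V (k + 1) := ⟨h2, h1⟩
    rw [hUinf, Submodule.mem_bot, hredbk] at h3
    have h4 : ∑ l', a ⟨k, l'⟩ • Module.finBasis κ (U k) l' = 0 := by
      apply Subtype.ext
      simpa [w] using h3
    exact hkl (Fintype.linearIndependent_iff.1
      (Module.finBasis κ (U k)).linearIndependent _ h4 l)
  -- the non-degeneracy witness
  have hbkm := hbkJ
  rw [mem_levelSubmodule] at hbkm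
  obtain ⟨x, hx⟩ := hbkm
  have hxnil : ¬ IsNilpotent (red x) := by
    rintro ⟨i, hi⟩
    apply hbknot
    rw [mem_levelSubmodule]
    refine hrad bk k (i + 1) k.2 (by omega) ?_
    rw [pow_mul, hx, mul_pow, pow_succ, ← pow_mul]
    refine mul_dvd_mul_left _ ?_
    rw [pow_succ]
    exact Dvd.dvd.mul_right ((hred0 _).1 (by rw [map_pow, hi])) _
  obtain ⟨y0, hy0⟩ := exists_algTrace_mul_ne_zero (κ := κ) hxnil
  obtain ⟨y, rfl⟩ := hredsurj y0
  -- the dual level and a partner of `bk`
  let k' : ℕ := if (k : ℕ) = 0 then 0 else m - k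
  have hk'm : k' < m := by
    simp only [k']
    split_ifs <;> omega
  obtain ⟨bp, hbp, hval⟩ : ∃ bp ∈ J k',
      bk * bp * (if (k : ℕ) = 0 then algebraMap O B π else 1) = algebraMap O B π * (x * y) := by
    by_cases hk : (k : ℕ) = 0
    · refine ⟨bk ^ (m - 1) * y, by simp [J, k', hk, mem_levelSubmodule], ?_⟩
      rw [if_pos hk]
      have : bk ^ m = x := by rw [hx, hk, pow_zero, one_mul]
      rw [← this, ← Nat.sub_add_cancel hm, pow_succ]
      simp only [Nat.add_sub_cancel]
      ring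
    · have hdvd : algebraMap O B π ^ ((k : ℕ) - 1) ∣ bk ^ (m - 1) := by
        refine (IsIntegrallyClosed.pow_dvd_pow_iff hm0).1 ?_
        calc (algebraMap O B π ^ ((k : ℕ) - 1)) ^ m ∣ (algebraMap O B π ^ (k : ℕ)) ^ (m - 1) := by
              rw [← pow_mul, ← pow_mul]
              apply pow_dvd_pow
              obtain ⟨m', rfl⟩ := Nat.exists_eq_add_of_le hm
              obtain ⟨k'', hk''⟩ := Nat.exists_eq_add_of_le (Nat.one_le_iff_ne_zero.2 hk)
              rw [hk'']
              simp only [Nat.add_sub_cancel_left]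
              have : k'' ≤ m' := by have := k.2; omega
              nlinarith
          _ ∣ (bk ^ m) ^ (m - 1) := pow_dvd_pow_of_dvd ⟨x, hx⟩ _
          _ = (bk ^ (m - 1)) ^ m := by rw [← pow_mul, ← pow_mul, mul_comm]
      obtain ⟨d, hd⟩ := hdvd
      refine ⟨d * y, ?_, ?_⟩
      · rw [mem_levelSubmodule, mul_pow]
        refine Dvd.dvd.mul_right ?_ _
        have h1 : algebraMap O B π ^ (((k : ℕ) - 1) * m) * d ^ m =
            algebraMap O B π ^ ((k : ℕ) * (m - 1)) * x ^ (m - 1) := by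
          rw [pow_mul, ← mul_pow, ← hd, pow_mul, ← mul_pow, ← hx, ← pow_mul, ← pow_mul, mul_comm]
        have h2 : (k : ℕ) * (m - 1) = ((k : ℕ) - 1) * m + (m - (k : ℕ)) := by
          obtain ⟨m', rfl⟩ := Nat.exists_eq_add_of_le hm
          obtain ⟨k'', hk''⟩ := Nat.exists_eq_add_of_le (Nat.one_le_iff_ne_zero.2 hk)
          rw [hk'']
          simp only [Nat.add_sub_cancel_left]
          have : k'' ≤ m' := by have := k.2; omega
          obtain ⟨r, rfl⟩ := Nat.exists_eq_add_of_le this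
          rw [show 1 + (k'' + r) - (1 + k'') = r by omega]
          ring
        rw [h2, pow_add, mul_assoc, mul_right_inj'
          (pow_ne_zero _ ((map_ne_zero_iff _ hinjOB).2 hπ))] at h1
        simp only [k', if_neg hk]
        exact ⟨x ^ (m - 1), h1⟩
      · rw [if_neg hk, mul_one]
        have hpm : bk ^ m = bk ^ (m - 1) * bk := by rw [← pow_succ, Nat.sub_add_cancel hm]
        have hpk : algebraMap O B π ^ (k : ℕ) = algebraMap O B π ^ ((k : ℕ) - 1) * algebraMap O B π := by
          rw [← pow_succ, Nat.sub_add_cancel (Nat.one_le_iff_ne_zero.2 hk)]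
        have h3 : algebraMap O B π ^ ((k : ℕ) - 1) * (bk * d) =
            algebraMap O B π ^ ((k : ℕ) - 1) * (algebraMap O B π * x) :=
          calc _ = bk ^ (m - 1) * bk := by rw [hd]; ring
            _ = _ := by rw [← hpm, hx, hpk]; ring
        have h4 := mul_left_cancel₀ (pow_ne_zero _ ((map_ne_zero_iff _ hinjOB).2 hπ)) h3
        calc bk * (d * y) = bk * d * y := by ring
          _ = _ := by rw [h4]; ring
  -- pairing with level `k'`
  have hπB : algebraMap O B π ≠ 0 := (map_ne_zero_iff _ hinjOB).2 hπ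
  set e : B := if (k : ℕ) = 0 then algebraMap O B π else 1 with he
  have hfun : ∀ c : B, c ∈ J k' → ∃ z, bk * c * e = algebraMap O B π * z := by
    intro c hc
    by_cases hk : (k : ℕ) = 0
    · exact ⟨bk * c, by rw [he, if_pos hk, mul_comm]⟩
    · obtain ⟨z, hz, -⟩ := dvd_mul_of_levels hm0 hbkJ hc (by simp only [k', if_neg hk]; omega)
      exact ⟨z, by rw [he, if_neg hk, mul_one, hz]⟩
  let P : B → Prop := fun c => ∀ z, bk * c * e = algebraMap O B π * z →
    Algebra.trace κ (κ ⊗[O] B) (red z) = 0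
  have hPadd : ∀ c d, c ∈ J k' → P c → P d → P (c + d) := by
    intro c d hc h1 h2 z hz
    obtain ⟨z1, hz1⟩ := hfun c hc
    have hz2 : bk * d * e = algebraMap O B π * (z - z1) := by
      rw [mul_sub, ← hz, ← hz1]
      ring
    have h := h2 _ hz2
    rwa [map_sub, map_sub, h1 z1 hz1, sub_zero] at h
  have hPsmul : ∀ (a : O) c, c ∈ J k' → P c → P (a • c) := by
    intro a c hc h z hz
    obtain ⟨z1, hz1⟩ := hfun c hc
    have : z = a • z1 := by
      refine mul_left_cancel₀ hπB ?_
      rw [← hz, Algebra.smul_def, Algebra.smul_def, ← mul_assoc (algebraMap O B π),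
        mul_comm (algebraMap O B π), mul_assoc (algebraMap O B a), ← hz1]
      ring
    rw [this, map_smul, LinearMap.map_smul_of_tower, h z1 hz1, smul_zero]
  -- basis elements of level `k'`
  have hPbase : ∀ lj : Fin (Module.finrank κ (U k')), P (b ⟨⟨k', hk'm⟩, lj⟩) := by
    intro lj z hz
    set j : ι := ⟨⟨k', hk'm⟩, lj⟩ with hj
    have hkj : kk j = k' := rfl
    have hterm : ∀ l', ∃ z', b ⟨k, l'⟩ * b j * e = algebraMap O B π * z' ∧
        g0 ⟨k, l'⟩ j = Algebra.trace κ (κ ⊗[O] B) (red z') := by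
      intro l'
      rcases hg3 ⟨k, l'⟩ j with ⟨h1, -, h3⟩ | ⟨-, h2, z', hz', h3⟩ | ⟨h1, h2, -⟩
      · refine ⟨b ⟨k, l'⟩ * b j, by rw [he, if_pos h1, mul_comm], ?_⟩
        rw [h3]
        exact congrArg _ (map_mul red _ _).symm
      · exact ⟨z', by rw [he, if_neg h2, mul_one, hz'], h3⟩
      · exfalso
        simp only [kk, j, k'] at h1 h2
        have := k.2
        by_cases hk : (k : ℕ) = 0
        · simp [hk] at h1
        · simp only [if_neg hk] at h1 h2
          omega
    choose z' hz' hg' using hterm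
    have hother : ∀ i : ι, i.1 ≠ k → g0 i j = 0 := by
      intro i hi
      have hik : kk i ≠ k := fun h => hi (Fin.ext h)
      rcases hg3 i j with ⟨h1, h2, -⟩ | ⟨h1, h2, -⟩ | ⟨-, -, h3⟩
      · exfalso
        rw [hkj] at h2
        simp only [k'] at h2
        split_ifs at h2 <;> omega
      · exfalso
        rw [hkj] at h1
        simp only [k'] at h1
        have := hkk i
        split_ifs at h1 <;> omega
      · exact h3
    have hzeq : z = ∑ l', Function.surjInv hq (a ⟨k, l'⟩) • z' l' := by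
      refine mul_left_cancel₀ hπB ?_
      rw [← hz]
      simp only [bk, Finset.sum_mul, Finset.mul_sum, smul_mul_assoc, mul_smul_comm, hz']
    have hval0 := congrFun ha j
    simp only [Matrix.vecMul, dotProduct, Matrix.of_apply, Pi.zero_apply] at hval0
    rw [show (∑ i : ι, a i * g0 i j) = ∑ k2, ∑ l2, a ⟨k2, l2⟩ * g0 ⟨k2, l2⟩ j from
      Fintype.sum_sigma (fun i : ι => a i * g0 i j), Finset.sum_eq_single k (fun k2 _ hk2 => Finset.sum_eq_zero fun l2 _ => by
      rw [hother ⟨k2, l2⟩ hk2, mul_zero]) (by simp)] at hval0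
    rw [hzeq, map_sum, map_sum, ← hval0]
    refine Finset.sum_congr rfl fun l' _ => ?_
    rw [map_smul, LinearMap.map_smul_of_tower, hg' l', Algebra.smul_def, hqalg,
      Function.surjInv_eq hq]
  -- level `k' + 1`
  have hPhigh : ∀ c, c ∈ J (k' + 1) → P c := by
    intro c hc z hz
    rw [← htr]
    refine htr0 z ?_
    rw [mem_levelSubmodule] at hc
    have h1 := congrArg (· ^ m) hz
    simp only [mul_pow] at h1
    have h2 : algebraMap O B π ^ (m + 1) ∣ bk ^ m * c ^ m * e ^ m := by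
      by_cases hk : (k : ℕ) = 0
      · rw [he, if_pos hk, pow_succ']
        have hk0 : k' = 0 := by simp [k', hk]
        rw [hk0, zero_add, pow_one] at hc
        exact mul_dvd_mul (hc.mul_left _) dvd_rfl
      · rw [he, if_neg hk, one_pow, mul_one]
        have : m + 1 = k + (k' + 1) := by simp only [k', if_neg hk]; omega
        rw [this, pow_add]
        exact mul_dvd_mul hbkJ hc
    rw [h1, pow_succ, mul_dvd_mul_iff_left (pow_ne_zero _ hπB)] at h2
    exact h2
  -- conclusion
  have hP : P bp := by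
    have hw : red bp ∈ U k' ⊔ V (k' + 1) := hUsup k' ▸ ⟨bp, hbp, rfl⟩
    obtain ⟨u1, hu1, v1, hv1, huv⟩ := Submodule.mem_sup.1 hw
    set cf := (Module.finBasis κ (U k')).repr ⟨u1, hu1⟩ with hcf
    let c1 : B := ∑ lj, Function.surjInv hq (cf lj) • b ⟨⟨k', hk'm⟩, lj⟩
    have hc1J : c1 ∈ J k' :=
      Submodule.sum_mem _ fun lj _ => (J k').smul_mem _ (hbJ ⟨⟨k', hk'm⟩, lj⟩)
    have hc1 : red c1 = u1 := by
      have := congrArg Subtype.val ((Module.finBasis κ (U k')).sum_repr ⟨u1, hu1⟩)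
      simp only [AddSubmonoidClass.coe_finsetSum, SetLike.val_smul] at this
      rw [← this]
      simp only [c1, map_sum, map_smul, hb]
      refine Finset.sum_congr rfl fun lj _ => ?_
      conv_rhs => rw [← hcf, ← Function.surjInv_eq hq (cf lj), ← hqalg, algebraMap_smul]
    have hPc1 : P c1 := by
      suffices h : c1 ∈ J k' ∧ P c1 from h.2
      refine Finset.sum_induction _ (fun c => c ∈ J k' ∧ P c) ?_ ?_ ?_
      · rintro c d ⟨h1, h2⟩ ⟨h3, h4⟩
        exact ⟨(J k').add_mem h1 h3, hPadd c d h1 h2 h4⟩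
      · refine ⟨(J k').zero_mem, fun z hz => ?_⟩
        have : z = 0 := by simpa [hπB] using hz.symm
        simp [this]
      · intro lj _
        exact ⟨(J k').smul_mem _ (hbJ ⟨⟨k', hk'm⟩, lj⟩),
          hPsmul _ _ (hbJ ⟨⟨k', hk'm⟩, lj⟩) (hPbase lj)⟩
    have hv1' : bp - c1 ∈ J (k' + 1) :=
      hlift _ (by omega) _ (by rwa [map_sub, hc1, ← huv, add_sub_cancel_left])
    have := hPadd c1 (bp - c1) hc1J hPc1 (hPhigh _ hv1')
    rwa [add_sub_cancel] at this
  apply hy0
  rw [← map_mul]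
  exact hP _ hval

end

end Fermat.Agent.IgusaGenus
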