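import Mathlib
import Fermat.Agent.IgusaGenus.RigidBasis

/-!
# Localisations at algebraic points

Localisations of `ℤ[X]` at algebraic points.
-/

set_option autoImplicit false

noncomputable section

open Polynomial

namespace Fermat.Agent.IgusaGenus

/-- `ℚ̄`. -/
abbrev Qb := AlgebraicClosure ℚ

theorem isAlgebraic_Qb : Algebra.IsAlgebraic ℚ Qb :=
  ⟨fun c => by
    have h := (AlgebraicClosure.isAlgebraic ℚ).isAlgebraic c
    convert h using 1
    · rfl
    · exact Subsingleton.elim (α := Algebra ℚ Qb) _ _⟩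

/-- The prime ideal of polynomials vanishing at an algebraic number. -/
def pointIdeal (c : Qb) : Ideal ℤ[X] := RingHom.ker (aeval c : ℤ[X] →ₐ[ℤ] Qb).toRingHom

instance (c : Qb) : (pointIdeal c).IsPrime := RingHom.ker_isPrime _

theorem mem_pointIdeal {c : Qb} {g : ℤ[X]} : g ∈ pointIdeal c ↔ aeval c g = 0 := Iff.rfl

theorem aeval_map_rat (c : Qb) (g : ℤ[X]) :
    aeval c (g.map (Int.castRingHom ℚ)) = aeval c g := by
  rw [aeval_def, eval₂_map, aeval_def]
  congr 1

theorem exists_generator_pointIdeal (c : Qb) :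
    ∃ p : ℤ[X], Prime p ∧ pointIdeal c = Ideal.span {p} ∧ p.natDegree ≠ 0 := by
  have hne : pointIdeal c ≠ ⊥ := by
    intro h
    have halg : IsAlgebraic ℤ c :=
      (IsFractionRing.isAlgebraic_iff ℤ ℚ Qb).2 (isAlgebraic_Qb.isAlgebraic c)
    obtain ⟨g, hg, hgc⟩ := halg
    have hg' : g ∈ pointIdeal c := hgc
    rw [h, Ideal.mem_bot] at hg'
    exact hg hg'
  obtain ⟨p, hp, hprime⟩ := Ideal.IsPrime.exists_mem_prime_of_ne_bot inferInstance hne
  have hdeg : p.natDegree ≠ 0 := by
    intro h0
    rw [eq_C_of_natDegree_eq_zero h0] at hp hprime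
    rw [mem_pointIdeal, aeval_C, eq_intCast, Int.cast_eq_zero] at hp
    exact hprime.ne_zero (by rw [hp, map_zero])
  have hprim : p.IsPrimitive := hprime.irreducible.isPrimitive hdeg
  refine ⟨p, hprime, le_antisymm (fun g hg => ?_) ((Ideal.span_singleton_le_iff_mem _).2 hp), hdeg⟩
  rw [Ideal.mem_span_singleton]
  have hirr : Irreducible (p.map (Int.castRingHom ℚ)) :=
    (hprim.irreducible_iff_irreducible_map_fraction_map (K := ℚ)).1 hprime.irreducible
  have h1 : p.map (Int.castRingHom ℚ) ∣ g.map (Int.castRingHom ℚ) := by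
    rw [mem_pointIdeal, ← aeval_map_rat] at hp hg
    exact ((minpoly.irreducible (isAlgebraic_Qb.isAlgebraic c).isIntegral).associated_of_dvd hirr
      (minpoly.dvd ℚ c hp)).dvd'.trans (minpoly.dvd ℚ c hg)
  by_cases hg0 : g = 0
  · rw [hg0]
    exact dvd_zero p
  rw [← hprim.dvd_primPart_iff_dvd hg0,
    IsPrimitive.Int.dvd_iff_map_cast_dvd_map_cast p g.primPart hprim]
  have h2 : IsUnit ((C g.content).map (Int.castRingHom ℚ)) := by
    rw [map_C, isUnit_C, isUnit_iff_ne_zero]
    simpa [content_eq_zero_iff] using hg0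
  conv_rhs at h1 => rw [g.eq_C_content_mul_primPart, Polynomial.map_mul]
  exact (h2.dvd_mul_left).1 h1

/-- The denominators at an algebraic point. -/
abbrev pointCompl (c : Qb) : Submonoid ℤ[X] := (pointIdeal c).primeCompl

theorem mem_pointCompl {c : Qb} {g : ℤ[X]} : g ∈ pointCompl c ↔ aeval c g ≠ 0 := Iff.rfl

/-- The local ring of `ℤ[X]` at an algebraic point. -/
abbrev PointRing (c : Qb) := Localization.AtPrime (pointIdeal c)

/-- Evaluation on the local ring. -/
def evalPoint (c : Qb) : PointRing c →+* Qb :=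
  IsLocalization.lift (M := pointCompl c) (S := PointRing c) (g := (aeval c : ℤ[X] →ₐ[ℤ] Qb).toRingHom)
    fun g => isUnit_iff_ne_zero.2 g.2

theorem evalPoint_algebraMap (c : Qb) (g : ℤ[X]) :
    evalPoint c (algebraMap ℤ[X] (PointRing c) g) = aeval c g :=
  IsLocalization.lift_eq _ g

instance (c : Qb) : IsDiscreteValuationRing (PointRing c) := by
  obtain ⟨p, hp, hI, -⟩ := exists_generator_pointIdeal c
  have hmax : IsLocalRing.maximalIdeal (PointRing c) =
      Ideal.span {algebraMap ℤ[X] (PointRing c) p} := by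
    have hm := IsLocalization.AtPrime.map_eq_maximalIdeal (pointIdeal c) (PointRing c)
    refine hm.symm.trans ?_
    refine (congrArg (Ideal.map _) hI).trans ?_
    rw [Ideal.map_span, Set.image_singleton]
  have hfld : ¬ IsField (PointRing c) := by
    rw [IsLocalRing.isField_iff_maximalIdeal_eq, hmax, Ideal.span_singleton_eq_bot]
    exact (map_ne_zero_iff _ (IsLocalization.injective (PointRing c)
      (Ideal.primeCompl_le_nonZeroDivisors (pointIdeal c)))).2 hp.ne_zero
  have hiff : IsDiscreteValuationRing (PointRing c) ↔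
      (IsLocalRing.maximalIdeal (PointRing c)).IsPrincipal :=
    (IsDiscreteValuationRing.TFAE (PointRing c) hfld).out 0 4
  exact hiff.2 ⟨⟨_, hmax⟩⟩

theorem evalPoint_eq_zero_iff (c : Qb) (z : PointRing c) :
    evalPoint c z = 0 ↔ z ∈ IsLocalRing.maximalIdeal (PointRing c) := by
  obtain ⟨a, s, rfl⟩ := IsLocalization.exists_mk'_eq (pointCompl c) z
  rw [IsLocalization.AtPrime.mk'_mem_maximal_iff (PointRing c) (pointIdeal c) a s, evalPoint,
    IsLocalization.lift_mk'_spec, mul_zero]
  rfl

end Fermat.Agent.IgusaGenus
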