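import Mathlib
import Fermat.Agent.IgusaGenus.Abhyankar
import Fermat.Agent.IgusaGenus.PointRings

/-!
# Base change where the cover absorbs the ramification

Over a point of the covering line where the cover absorbs the ramification, the base change of a
function field admits an integral family with invertible discriminant.
-/

set_option autoImplicit false

noncomputable section

open Polynomial TensorProduct

namespace Fermat.Agent.IgusaGenus

theorem pointCompl_le_nonZeroDivisors (c : Qb) : pointCompl c ≤ nonZeroDivisors ℤ[X] :=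
  Ideal.primeCompl_le_nonZeroDivisors (pointIdeal c)

instance instAlgebraPointBase (c : Qb) : Algebra (PointRing c) BaseK :=
  (IsLocalization.lift (M := pointCompl c) (g := algebraMap ℤ[X] BaseK) fun g =>
    isUnit_iff_ne_zero.2 ((map_ne_zero_iff _ (IsFractionRing.injective ℤ[X] BaseK)).2
      (nonZeroDivisors.ne_zero (pointCompl_le_nonZeroDivisors c g.2)))).toAlgebra

instance (c : Qb) : IsScalarTower ℤ[X] (PointRing c) BaseK :=
  IsScalarTower.of_algebraMap_eq fun g => (IsLocalization.lift_eq _ g).symm

instance (c : Qb) : IsFractionRing (PointRing c) BaseK :=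
  IsFractionRing.isFractionRing_of_isDomain_of_isLocalization (pointCompl c) (PointRing c) BaseK

section

variable (F : Type*) [Field F] [Algebra ℤ[X] F]

/-- `f` is integral at the algebraic point `c` of the `X`-line. -/
def IntAt (c : Qb) (f : F) : Prop :=
  ∃ g : ℤ[X], aeval c g ≠ 0 ∧ IsIntegral ℤ[X] (g • f)

/-- The ramification indices over `c` all divide `e`. -/
def RamDvd (c : Qb) (e : ℕ) : Prop :=
  ∀ π : ℤ[X], pointIdeal c = Ideal.span {π} → ∀ m : ℕ, 1 ≤ m → e ∣ m →
    ∀ (b : F) (k i : ℕ), k < m → 1 ≤ i → IntAt F c b →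
      IntAt F c (b ^ (m * i) / algebraMap ℤ[X] F π ^ (k * i + 1)) →
      IntAt F c (b ^ m / algebraMap ℤ[X] F π ^ (k + 1))

end

namespace RatCover

variable (r : RatCover) (θ : Qb)

/-- The value of `j` at a point of the covering line. -/
def jVal : Qb := aeval θ r.P / aeval θ r.Q

variable {θ} (hθ : aeval θ r.Q ≠ 0)

/-- `j` in the local ring at `θ`. -/
def jPoint : PointRing θ := IsLocalization.mk' (PointRing θ) r.P (⟨r.Q, hθ⟩ : pointCompl θ)

/-- `a ↦ a(j)` in the local ring at `θ`. -/
def psi : ℤ[X] →+* PointRing θ := (aeval (r.jPoint hθ)).toRingHom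

theorem psi_X : r.psi hθ X = r.jPoint hθ := by simp [psi]

theorem evalPoint_psi (g : ℤ[X]) : evalPoint θ (r.psi hθ g) = aeval (r.jVal θ) g := by
  have h : (evalPoint θ).comp (r.psi hθ) = (aeval (r.jVal θ) : ℤ[X] →ₐ[ℤ] Qb).toRingHom := by
    refine Polynomial.ringHom_ext (fun n => ?_) ?_
    · simp [psi]
    · rw [RingHom.comp_apply, psi_X, jPoint, evalPoint, IsLocalization.lift_mk'_spec]
      simp only [AlgHom.toRingHom_eq_coe, RingHom.coe_coe, aeval_X, jVal]
      rw [mul_div_cancel₀ _ hθ]
  exact congrArg (fun f : ℤ[X] →+* Qb => f g) h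

/-- The local ring at `θ` inside the function field of the cover. -/
def pointToLr (θ : Qb) : PointRing θ →+* r.Lr :=
  IsLocalization.lift (M := pointCompl θ) (g := r.polyX) fun g =>
    isUnit_iff_ne_zero.2 ((map_ne_zero_iff _ r.polyX_injective).2
      (nonZeroDivisors.ne_zero (pointCompl_le_nonZeroDivisors θ g.2)))

theorem pointToLr_algebraMap (g : ℤ[X]) :
    r.pointToLr θ (algebraMap ℤ[X] (PointRing θ) g) = r.polyX g :=
  IsLocalization.lift_eq _ g

theorem pointToLr_injective : Function.Injective (r.pointToLr θ) :=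
  IsLocalization.lift_injective_iff _ |>.2 fun a b => by
    rw [(IsLocalization.injective (PointRing θ) (pointCompl_le_nonZeroDivisors θ)).eq_iff,
      r.polyX_injective.eq_iff]

theorem pointToLr_psi (g : ℤ[X]) : r.pointToLr θ (r.psi hθ g) = algebraMap ℤ[X] r.Lr g := by
  have h : (r.pointToLr θ).comp (r.psi hθ) = algebraMap ℤ[X] r.Lr := by
    refine Polynomial.ringHom_ext (fun n => ?_) ?_
    · simp [psi]
    · rw [RingHom.comp_apply, psi_X, jPoint, pointToLr, IsLocalization.lift_mk'_spec]
      exact r.polyX_P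
  exact congrArg (fun f : ℤ[X] →+* r.Lr => f g) h

variable {F : Type*} [Field F] [CharZero F] [Algebra BaseK F] [Algebra ℤ[X] F]
  [IsScalarTower ℤ[X] BaseK F] [FiniteDimensional BaseK F]

include hθ in
/-- At a point `θ` over which the ramification is absorbed, there is an integral family of size
`[F : ℚ(X)]` with invertible discriminant. -/
theorem exists_unit_discr {e : ℕ} (hram : RamDvd F (r.jVal θ) e)
    (he : ∀ (π : ℤ[X]) (ϖ : PointRing θ) (m : ℕ) (u : (PointRing θ)ˣ),
      pointIdeal (r.jVal θ) = Ideal.span {π} → Irreducible ϖ →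
      r.psi hθ π = (u : PointRing θ) * ϖ ^ m → e ∣ m) :
    ∃ (ι : Type) (_ : Fintype ι) (_ : DecidableEq ι) (y : ι → r.Lr ⊗[BaseK] F) (δ : PointRing θ),
      Fintype.card ι = Module.finrank BaseK F ∧
      (∀ i, ∃ g : ℤ[X], aeval θ g ≠ 0 ∧
        ((algebraMap r.Lr (r.Lr ⊗[BaseK] F)).comp r.polyX).IsIntegralElem (r.polyX g • y i)) ∧
      Algebra.discr r.Lr y = r.pointToLr θ δ ∧ evalPoint θ δ ≠ 0 := by
  classical
  set c := r.jVal θ with hc
  let : Algebra (PointRing c) F :=
    ((algebraMap BaseK F).comp (algebraMap (PointRing c) BaseK)).toAlgebra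
  have : IsScalarTower (PointRing c) BaseK F := IsScalarTower.of_algebraMap_eq' rfl
  have : IsScalarTower ℤ[X] (PointRing c) F := IsScalarTower.of_algebraMap_eq fun g => by
    rw [IsScalarTower.algebraMap_apply (PointRing c) BaseK F, ← IsScalarTower.algebraMap_apply
      ℤ[X] (PointRing c) BaseK, ← IsScalarTower.algebraMap_apply ℤ[X] BaseK F]
  have : CharZero BaseK := (algebraMap BaseK F).charZero
  have : Algebra.IsSeparable BaseK F := inferInstance
  set B := integralClosure (PointRing c) F
  have : Module.Finite (PointRing c) B := IsIntegralClosure.finite (PointRing c) BaseK F B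
  have : IsFractionRing B F :=
    integralClosure.isFractionRing_of_finite_extension BaseK F
  have : IsIntegrallyClosed B :=
    integralClosure.isIntegrallyClosedOfFiniteExtension BaseK
  have : Module.IsTorsionFree (PointRing c) F := by
    rw [Module.isTorsionFree_iff_algebraMap_injective, RingHom.algebraMap_toAlgebra]
    exact (algebraMap BaseK F).injective.comp (IsFractionRing.injective (PointRing c) BaseK)
  have : Module.Free (PointRing c) B := IsIntegralClosure.module_free (PointRing c) BaseK F B
  have : IsLocalization (Algebra.algebraMapSubmonoid B (nonZeroDivisors (PointRing c))) F :=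
    IsIntegralClosure.isLocalization (PointRing c) BaseK F B
  -- membership in `B`
  have hIntB : ∀ f : F, IntAt F c f ↔ IsIntegral (PointRing c) f := by
    intro f
    constructor
    · rintro ⟨g, hg, hgf⟩
      have hu : IsUnit (algebraMap ℤ[X] (PointRing c) g) :=
        IsLocalization.map_units (PointRing c) (⟨g, hg⟩ : pointCompl c)
      have h1 : IsIntegral (PointRing c) (g • f) := hgf.tower_top
      rw [← algebraMap_smul (PointRing c) g f] at h1
      have h2 := h1.smul (↑hu.unit⁻¹ : PointRing c)
      rwa [smul_smul, hu.val_inv_mul, one_smul] at h2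
    · intro hf
      obtain ⟨⟨g, hg⟩, hgf⟩ := hf.exists_multiple_integral_of_isLocalization (pointCompl c) f
      exact ⟨g, hg, hgf⟩
  obtain ⟨π, hπprime, hπI, -⟩ := exists_generator_pointIdeal c
  set π' := algebraMap ℤ[X] (PointRing c) π with hπ'
  have hπF : algebraMap ℤ[X] F π ≠ 0 := by
    rw [IsScalarTower.algebraMap_apply ℤ[X] BaseK F]
    exact (map_ne_zero_iff _ (algebraMap BaseK F).injective).2
      ((map_ne_zero_iff _ (IsFractionRing.injective ℤ[X] BaseK)).2 hπprime.ne_zero)
  have hπ'0 : π' ≠ 0 := (map_ne_zero_iff _ (IsLocalization.injective (PointRing c)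
    (pointCompl_le_nonZeroDivisors c))).2 hπprime.ne_zero
  have hmaxI : IsLocalRing.maximalIdeal (PointRing c) = Ideal.span {π'} := by
    refine (IsLocalization.AtPrime.map_eq_maximalIdeal (pointIdeal c) (PointRing c)).symm.trans ?_
    refine (congrArg (Ideal.map _) hπI).trans ?_
    rw [Ideal.map_span, Set.image_singleton]
  -- the map of local rings
  let α : PointRing c →+* PointRing θ := IsLocalization.lift (M := pointCompl c) (g := r.psi hθ)
    fun g => by
      rw [← IsLocalRing.notMem_maximalIdeal, ← evalPoint_eq_zero_iff, evalPoint_psi]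
      exact g.2
  have hα : ∀ g, α (algebraMap ℤ[X] (PointRing c) g) = r.psi hθ g := IsLocalization.lift_eq _
  have hαev : ∀ z, evalPoint θ (α z) = evalPoint c z := fun z => by
    have h : (evalPoint θ).comp α = evalPoint c := IsLocalization.ringHom_ext (pointCompl c) (by
      ext g <;> simp [hα, evalPoint_psi, evalPoint_algebraMap, hc])
    exact congrArg (fun f : PointRing c →+* Qb => f z) h
  obtain ⟨ϖ, hϖ⟩ := IsDiscreteValuationRing.exists_irreducible (PointRing θ)
  have hψπ : r.psi hθ π ≠ 0 := by
    intro h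
    have h' := congrArg (r.pointToLr θ) h
    rw [pointToLr_psi, map_zero, IsScalarTower.algebraMap_apply ℤ[X] BaseK r.Lr,
      map_eq_zero, map_eq_zero_iff _ (IsFractionRing.injective ℤ[X] BaseK)] at h'
    exact hπprime.ne_zero h'
  obtain ⟨m, u, hu⟩ := IsDiscreteValuationRing.eq_unit_mul_pow_irreducible hψπ hϖ
  have hev : evalPoint θ ϖ = 0 := by
    rw [evalPoint_eq_zero_iff, hϖ.maximalIdeal_eq]
    exact Ideal.mem_span_singleton_self _
  have huev : evalPoint θ (u : PointRing θ) ≠ 0 := by
    rw [Ne, evalPoint_eq_zero_iff, IsLocalRing.mem_maximalIdeal]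
    exact fun h => h u.isUnit
  have hm1 : 1 ≤ m := by
    rcases Nat.eq_zero_or_pos m with rfl | h
    · exfalso
      rw [pow_zero, mul_one] at hu
      apply huev
      rw [← hu, evalPoint_psi, ← hc]
      exact (mem_pointIdeal (c := c)).1 (hπI ▸ Ideal.mem_span_singleton_self π)
    · exact h
  have hm := he π ϖ m u hπI hϖ hu
  -- divisibility in `B`
  have hdvdB : ∀ (x : B) (j : ℕ),
      algebraMap (PointRing c) B π' ^ j ∣ x ↔
        IntAt F c ((x : F) / algebraMap ℤ[X] F π ^ j) := by
    intro x j
    have hcoe : (algebraMap (PointRing c) B π' : F) = algebraMap ℤ[X] F π :=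
      (IsScalarTower.algebraMap_apply ℤ[X] (PointRing c) F π).symm
    constructor
    · rintro ⟨y, rfl⟩
      rw [hIntB]
      rw [Subalgebra.coe_mul, Subalgebra.coe_pow, hcoe, mul_div_cancel_left₀ _ (pow_ne_zero j hπF)]
      exact y.2
    · intro h
      rw [hIntB] at h
      refine ⟨⟨_, h⟩, Subtype.ext ?_⟩
      rw [Subalgebra.coe_mul, Subalgebra.coe_pow, hcoe, mul_div_cancel₀ _ (pow_ne_zero j hπF)]
  have hrad : ∀ (b : B) (k i : ℕ), k < m → 1 ≤ i →
      algebraMap (PointRing c) B π' ^ (k * i + 1) ∣ b ^ (m * i) →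
      algebraMap (PointRing c) B π' ^ (k + 1) ∣ b ^ m := by
    intro b k i hk hi h
    rw [hdvdB, Subalgebra.coe_pow] at h ⊢
    exact hram π hπI m hm1 hm b k i hk hi ((hIntB _).2 b.2) h
  -- residue field
  let κ := IsLocalRing.ResidueField (PointRing c)
  let f : κ →+* Qb := Ideal.Quotient.lift _ (evalPoint c) fun z hz =>
    (evalPoint_eq_zero_iff c z).2 hz
  have : CharZero κ := ⟨fun a b hab => by
      have := congrArg f hab
      simpa using this⟩
  let : Algebra (PointRing c) (PointRing θ) := α.toAlgebra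
  obtain ⟨ι, _, _, b, k, G, hcard, hb, hG, hdet⟩ := exists_unit_gram (B := B) (κ := κ)
    (O' := PointRing θ) (κ' := Qb) hm1 hπ'0 (IsLocalRing.residue (PointRing c))
    IsLocalRing.residue_surjective
    (fun x => by rw [IsLocalRing.residue_eq_zero_iff, hmaxI, Ideal.mem_span_singleton]) hrad
    (evalPoint θ) f (fun x => by rw [RingHom.algebraMap_toAlgebra]; exact hαev x) huev hev
    (by rw [RingHom.algebraMap_toAlgebra, hπ', hα, hu])
  -- the family
  set ϖL := r.pointToLr θ ϖ with hϖL
  have hϖL0 : ϖL ≠ 0 := (map_ne_zero_iff _ r.pointToLr_injective).2 hϖ.ne_zero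
  let y : ι → r.Lr ⊗[BaseK] F := fun i => (ϖL ^ k i)⁻¹ ⊗ₜ[BaseK] ((b i : B) : F)
  have htwo : ∀ z : PointRing c,
      algebraMap BaseK r.Lr (algebraMap (PointRing c) BaseK z) = r.pointToLr θ (α z) := by
    intro z
    have h : (algebraMap BaseK r.Lr).comp (algebraMap (PointRing c) BaseK) =
        (r.pointToLr θ).comp α := IsLocalization.ringHom_ext (pointCompl c) (by
      ext g <;> simp [← IsScalarTower.algebraMap_apply, hα, pointToLr_psi])
    exact congrArg (fun f : PointRing c →+* r.Lr => f z) h
  let : Algebra (PointRing θ) r.Lr := (r.pointToLr θ).toAlgebra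
  have : IsScalarTower ℤ[X] (PointRing θ) (PointRing θ) := IsScalarTower.right
  -- integrality
  have hint : ∀ i, IsIntegral (PointRing θ) (y i) := by
    intro i
    obtain ⟨hki, d, hd⟩ := hb i
    refine IsIntegral.of_pow (Nat.pos_of_ne_zero (by omega) : 0 < m) ?_
    have hpow : y i ^ m = algebraMap (PointRing θ) (r.Lr ⊗[BaseK] F) ((u : PointRing θ) ^ k i) *
        Algebra.TensorProduct.includeRight (R := BaseK) (A := r.Lr) (d : F) := by
      have hbF : ((b i : B) : F) ^ m = algebraMap (PointRing c) F π' ^ k i * (d : F) := by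
        simpa using congrArg Subtype.val hd
      simp only [y, Algebra.TensorProduct.tmul_pow, hbF, Algebra.TensorProduct.includeRight_apply]
      rw [IsScalarTower.algebraMap_apply (PointRing c) BaseK F, ← map_pow (algebraMap BaseK F),
        ← Algebra.smul_def, ← TensorProduct.smul_tmul, ← Algebra.smul_def, TensorProduct.smul_tmul']
      congr 1
      rw [Algebra.smul_def, map_pow (algebraMap BaseK r.Lr), htwo,
        show α π' = r.psi hθ π from hα π, hu, map_mul, map_pow (r.pointToLr θ), ← hϖL,
        Algebra.smul_def, mul_one]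
      change (r.pointToLr θ (u : PointRing θ) * ϖL ^ m) ^ k i * (ϖL ^ k i)⁻¹ ^ m =
        r.pointToLr θ ((u : PointRing θ) ^ k i)
      rw [map_pow, mul_pow, ← pow_mul, inv_pow, ← pow_mul, mul_comm (k i) m, mul_assoc,
        mul_inv_cancel₀ (pow_ne_zero _ hϖL0), mul_one]
    rw [hpow]
    refine isIntegral_algebraMap.mul ?_
    obtain ⟨p, hp, hpd⟩ := d.2
    refine ⟨p.map α, hp.map α, ?_⟩
    rw [eval₂_map]
    have : (algebraMap (PointRing θ) (r.Lr ⊗[BaseK] F)).comp α =
        (Algebra.TensorProduct.includeRight (R := BaseK) (A := r.Lr) (B := F)).toRingHom.comp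
          (algebraMap (PointRing c) F) := by
      ext z
      simp only [RingHom.comp_apply, Algebra.TensorProduct.algebraMap_apply, AlgHom.toRingHom_eq_coe,
        RingHom.coe_coe, IsScalarTower.algebraMap_apply (PointRing c) BaseK F,
        Algebra.TensorProduct.includeRight_apply]
      rw [RingHom.algebraMap_toAlgebra, ← htwo, Algebra.algebraMap_eq_smul_one,
        TensorProduct.smul_tmul, ← Algebra.algebraMap_eq_smul_one]
    rw [this]
    exact (Polynomial.hom_eval₂ p _ _ _).symm.trans (by rw [hpd, map_zero])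
  refine ⟨ι, inferInstance, inferInstance, y, G.det, ?_, ?_, ?_, hdet⟩
  · rw [hcard]
    exact IsIntegralClosure.rank (PointRing c) BaseK F B
  · intro i
    let : Algebra ℤ[X] r.Lr := r.polyX.toAlgebra
    have : IsScalarTower ℤ[X] (PointRing θ) r.Lr :=
      IsScalarTower.of_algebraMap_eq fun g => (r.pointToLr_algebraMap g).symm
    obtain ⟨⟨g, hg⟩, hgy⟩ := (hint i).exists_multiple_integral_of_isLocalization (pointCompl θ) (y i)
    refine ⟨g, hg, ?_⟩
    have hgy' : IsIntegral ℤ[X] (r.polyX g • y i) := by
      rw [show r.polyX g • y i = g • y i from algebraMap_smul r.Lr g (y i)]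
      exact hgy
    exact hgy'
  · rw [RingHom.map_det, Algebra.discr_def]
    congr 1
    ext i j
    rw [RingHom.mapMatrix_apply, Matrix.map_apply, Algebra.traceMatrix_apply,
      Algebra.traceForm_apply]
    simp only [y, Algebra.TensorProduct.tmul_mul_tmul]
    have htr : Algebra.trace r.Lr (r.Lr ⊗[BaseK] F)
        (1 ⊗ₜ[BaseK] (((b i : B) : F) * ((b j : B) : F))) =
        r.pointToLr θ (α (Algebra.trace (PointRing c) B (b i * b j))) := by
      rw [Algebra.trace_apply, ← Algebra.baseChange_lmul, LinearMap.trace_baseChange,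
        ← htwo]
      congr 1
      rw [← Algebra.trace_apply]
      exact Algebra.trace_localization (R := PointRing c) (S := B) (Rₘ := BaseK) (Sₘ := F)
        (M := nonZeroDivisors (PointRing c)) (b i * b j)
    conv_lhs => rw [← mul_one ((ϖL ^ k i)⁻¹ * (ϖL ^ k j)⁻¹), ← smul_eq_mul,
      ← TensorProduct.smul_tmul', map_smul, htr]
    have := congrArg (r.pointToLr θ) (hG i j)
    rw [map_mul, map_pow, ← hϖL, RingHom.algebraMap_toAlgebra] at this
    rw [← this, smul_eq_mul, ← mul_inv, ← pow_add]
    field_simp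

end RatCover

end Fermat.Agent.IgusaGenus
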