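import Mathlib
import Fermat.Agent.IgusaGenus.SatFree
import Fermat.Agent.IgusaGenus.CoverRing
import Fermat.Agent.IgusaGenus.Unramified

/-!
# Unit discriminant over the cover ring

The integral closure of the cover ring in the base-changed function field has unit discriminant.
-/

set_option autoImplicit false

noncomputable section

open Polynomial TensorProduct

namespace Fermat.Agent.IgusaGenus.RatCover

/-- The cover absorbs the ramification of `F` at all points specialising into the fibre over `c`. -/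
def Absorbs (r : RatCover) (F : Type*) [Field F] [Algebra ℤ[X] F] {k : Type*} [Field k] (c : k) :
    Prop :=
  ∀ θ : Qb, (∃ l ∈ r.roots c, ∀ g : ℤ[X], aeval θ g = 0 → aeval l g = 0) →
    ∀ hθ : aeval θ r.Q ≠ 0, ∃ e : ℕ, RamDvd F (r.jVal θ) e ∧
      ∀ (π : ℤ[X]) (ϖ : PointRing θ) (m : ℕ) (u : (PointRing θ)ˣ),
        pointIdeal (r.jVal θ) = Ideal.span {π} → Irreducible ϖ →
        r.psi hθ π = (u : PointRing θ) * ϖ ^ m → e ∣ m

theorem natDegree_hom_map {k : Type*} [Field k] (r : RatCover)
    (hlead : (r.P.leadingCoeff : k) ≠ 0) (hQ : r.Q.map (Int.castRingHom k) ≠ 0) (a : ℤ[X]) {e : ℕ}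
    (he : a.natDegree ≤ e) (ha : a.map (Int.castRingHom k) ≠ 0) :
    (r.hom a e).map (Int.castRingHom k) ≠ 0 := by
  set σ := Int.castRingHom k
  set qd := (r.Q.map σ).natDegree with hqd
  have hP : r.P.map σ ≠ 0 := fun h => hlead (by
    have := congrArg (fun p => coeff p r.d) h
    simpa [σ, RatCover.d] using this)
  have hPd : (r.P.map σ).natDegree = r.d := natDegree_map_of_leadingCoeff_ne_zero σ hlead
  have hqd' : qd < r.d := lt_of_le_of_lt natDegree_map_le r.hdeg
  set i0 := (a.map σ).natDegree with hi0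
  have hi0e : i0 ≤ e := natDegree_map_le.trans he
  intro h0
  rw [hom, Polynomial.map_sum] at h0
  have hterm : ∀ i, (C (a.coeff i) * r.P ^ i * r.Q ^ (e - i)).map σ =
      C ((a.map σ).coeff i) * r.P.map σ ^ i * r.Q.map σ ^ (e - i) := fun i => by simp
  simp only [hterm] at h0
  have hne : C ((a.map σ).coeff i0) * r.P.map σ ^ i0 * r.Q.map σ ^ (e - i0) ≠ 0 :=
    mul_ne_zero (mul_ne_zero (by rw [C_ne_zero]; exact leadingCoeff_ne_zero.2 ha) (pow_ne_zero _ hP))
      (pow_ne_zero _ hQ)
  rw [← Finset.add_sum_erase _ _ (Finset.mem_range.2 (Nat.lt_succ_of_le hi0e))] at h0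
  have hdeg : (C ((a.map σ).coeff i0) * r.P.map σ ^ i0 * r.Q.map σ ^ (e - i0)).natDegree =
      i0 * r.d + (e - i0) * qd := by
    have hc0 : (a.map σ).coeff i0 ≠ 0 := leadingCoeff_ne_zero.2 ha
    rw [natDegree_mul (left_ne_zero_of_mul hne) (pow_ne_zero _ hQ), natDegree_C_mul hc0,
      natDegree_pow, natDegree_pow, hPd]
  have hlt : (∑ i ∈ (Finset.range (e + 1)).erase i0,
      C ((a.map σ).coeff i) * r.P.map σ ^ i * r.Q.map σ ^ (e - i)).degree <
      ((i0 * r.d + (e - i0) * qd : ℕ) : WithBot ℕ) := by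
    refine lt_of_le_of_lt (degree_sum_le _ _) ((Finset.sup_lt_iff (WithBot.bot_lt_coe _)).2 ?_)
    intro i hi
    rw [Finset.mem_erase] at hi
    by_cases hlt' : i0 < i
    · rw [coeff_eq_zero_of_natDegree_lt hlt', map_zero, zero_mul, zero_mul, degree_zero]
      exact WithBot.bot_lt_coe _
    · have hi' : i < i0 := lt_of_le_of_ne (not_lt.1 hlt') hi.1
      refine lt_of_le_of_lt degree_le_natDegree (WithBot.coe_lt_coe.2 ?_)
      refine lt_of_le_of_lt (natDegree_mul_le.trans (add_le_add
        ((natDegree_C_mul_le _ _).trans natDegree_pow_le) natDegree_pow_le)) ?_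
      rw [hPd, ← hqd]
      obtain ⟨t, ht⟩ := Nat.exists_eq_add_of_lt hi'
      have h1 : e - i = (e - i0) + (t + 1) := by omega
      rw [h1, ht, add_mul, add_mul]
      have : (t + 1) * qd < (t + 1) * r.d := Nat.mul_lt_mul_of_pos_left hqd' (by omega)
      linarith
  have := congrArg degree h0
  rw [degree_add_eq_left_of_degree_lt (by rwa [degree_eq_natDegree hne, hdeg]), degree_zero,
    degree_eq_bot] at this
  exact hne this

variable {r : RatCover} {k : Type*} [Field k] [IsAlgClosed k] {c : k} {ℓ : ℕ} [Fact ℓ.Prime]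
  [CharP k ℓ]
variable {F : Type*} [Field F] [CharZero F] [Algebra BaseK F] [Algebra ℤ[X] F]
  [IsScalarTower ℤ[X] BaseK F] [FiniteDimensional BaseK F]

theorem GoodAt.map_Q_ne_zero (h : r.GoodAt c) : r.Q.map (Int.castRingHom k) ≠ 0 := by
  intro h0
  obtain ⟨l, hl⟩ := h.roots_nonempty
  apply h.cop l hl
  have : aeval l r.Q = (r.Q.map (Int.castRingHom k)).eval l := by
    rw [eval_map, aeval_def]
    congr 1
  rw [this, h0, eval_zero]

omit [CharZero F] [FiniteDimensional BaseK F] [IsAlgClosed k] [Fact ℓ.Prime] [CharP k ℓ] in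
theorem isIntegral_one_tmul {x : F} (hx : IsIntegral ℤ[X] x) :
    IsIntegral (r.cover c) ((1 : r.Lr) ⊗ₜ[BaseK] x) := by
  obtain ⟨p, hp, hpx⟩ := hx
  let φ : ℤ[X] →+* r.cover c :=
    (algebraMap (KRing c) (r.cover c)).comp (algebraMap ℤ[X] (KRing c))
  refine ⟨p.map φ, hp.map φ, ?_⟩
  rw [eval₂_map]
  have : (algebraMap (r.cover c) (r.Lr ⊗[BaseK] F)).comp φ =
      (Algebra.TensorProduct.includeRight (R := BaseK) (A := r.Lr) (B := F)).toRingHom.comp
        (algebraMap ℤ[X] F) := by
    refine RingHom.ext fun g => ?_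
    simp only [RingHom.comp_apply, AlgHom.toRingHom_eq_coe,
      RingHom.coe_coe, Algebra.TensorProduct.includeRight_apply, φ]
    rw [IsScalarTower.algebraMap_apply (r.cover c) r.Lr (r.Lr ⊗[BaseK] F),
      Algebra.TensorProduct.algebraMap_apply]
    rw [show algebraMap (r.cover c) r.Lr
        (algebraMap (KRing c) (r.cover c) (algebraMap ℤ[X] (KRing c) g)) =
        algebraMap BaseK r.Lr (algebraMap ℤ[X] BaseK g) from
      (congrArg (algebraMap BaseK r.Lr) (IsScalarTower.algebraMap_apply ℤ[X] (KRing c) BaseK g).symm),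
      IsScalarTower.algebraMap_apply ℤ[X] BaseK F, Algebra.algebraMap_self_apply,
      Algebra.algebraMap_eq_smul_one (R := BaseK) (A := r.Lr),
      TensorProduct.smul_tmul, ← Algebra.algebraMap_eq_smul_one]
  rw [this]
  exact (Polynomial.hom_eval₂ p _ _ _).symm.trans (by rw [hpx, map_zero])

include ℓ in
/-- The integral closure of the cover ring in `Lr ⊗ F` is free with unit discriminant. -/
theorem GoodAt.exists_etale_basis (h : r.GoodAt c) (habs : r.Absorbs F c) {n : ℕ}
    (b : Module.Basis (Fin n) BaseK F) (hb : ∀ i, IsIntegral ℤ[X] (b i)) (δ : ℤ[X])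
    (hδ : algebraMap ℤ[X] BaseK δ = Algebra.discr BaseK b)
    (hδk : δ.map (Int.castRingHom k) ≠ 0) :
    ∃ e : Module.Basis (Fin n) r.Lr (r.Lr ⊗[BaseK] F),
      (∀ i, IsIntegral (r.cover c) (e i)) ∧
      (∀ x, IsIntegral (r.cover c) x → ∀ i, e.repr x i ∈ r.cover c) ∧
      ∃ D : r.cover c, (D : r.Lr) = Algebra.discr r.Lr e ∧
        ∀ ψ : r.cover c →+* k, ψ.comp (algebraMap (KRing c) (r.cover c)) = evalK c → ψ D ≠ 0 := by
  classical
  have := h.isIntegrallyClosed
  have := h.isFractionRing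
  have := h.isNoetherianRing
  let E := r.Lr ⊗[BaseK] F
  let bE : Module.Basis (Fin n) r.Lr E := Algebra.TensorProduct.basis r.Lr b
  have hbE : ∀ i, IsIntegral (r.cover c) (bE i) := fun i => by
    rw [Algebra.TensorProduct.basis_apply]
    exact isIntegral_one_tmul (hb i)
  have hmemA : ∀ z : r.Lr, IsIntegral (r.cover c) z → z ∈ r.cover c := fun z hz => by
    obtain ⟨y, hy⟩ := IsIntegrallyClosed.isIntegral_iff.1 hz
    exact hy ▸ y.2
  -- the discriminant of `1 ⊗ b`
  have hdiscb : Algebra.discr r.Lr bE = algebraMap ℤ[X] r.Lr δ := by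
    rw [IsScalarTower.algebraMap_apply ℤ[X] BaseK r.Lr, hδ, Algebra.discr_def, Algebra.discr_def,
      RingHom.map_det]
    congr 1
    ext i j
    rw [RingHom.mapMatrix_apply, Matrix.map_apply, Algebra.traceMatrix_apply,
      Algebra.traceMatrix_apply, Algebra.traceForm_apply, Algebra.traceForm_apply,
      Algebra.TensorProduct.basis_apply, Algebra.TensorProduct.basis_apply,
      Algebra.TensorProduct.tmul_mul_tmul, one_mul, Algebra.trace_apply, ← Algebra.baseChange_lmul,
      LinearMap.trace_baseChange]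
    rfl
  let δA : r.cover c := algebraMap (KRing c) (r.cover c) (algebraMap ℤ[X] (KRing c) δ)
  have hδA : (δA : r.Lr) = Algebra.discr r.Lr bE := by
    rw [hdiscb]
    exact (IsScalarTower.algebraMap_apply ℤ[X] (KRing c) r.Lr δ).symm
  set eδ := δ.natDegree
  have hhomk := natDegree_hom_map r h.lead h.map_Q_ne_zero δ le_rfl hδk
  have hδA0 : (δA : r.Lr) ≠ 0 := by
    rw [hδA, hdiscb, IsScalarTower.algebraMap_apply ℤ[X] BaseK r.Lr]
    exact (map_ne_zero_iff _ (algebraMap BaseK r.Lr).injective).2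
      ((map_ne_zero_iff _ (IsFractionRing.injective ℤ[X] BaseK)).2 fun h0 => hδk (by simp [h0]))
  -- the integral closure
  let Cl : Subalgebra (r.cover c) E := integralClosure (r.cover c) E
  have hspan : ∀ x ∈ Cl, (δA : r.Lr) • x ∈ Submodule.span (r.cover c) (Set.range bE) := by
    intro x hx
    rw [← bE.sum_repr x, Finset.smul_sum]
    refine Submodule.sum_mem _ fun i _ => ?_
    rw [smul_smul, hδA]
    have hi := hmemA _ (isIntegral_discr_mul_repr bE hbE hx i)
    exact Submodule.smul_mem (Submodule.span (r.cover c) (Set.range bE))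
      (⟨_, hi⟩ : r.cover c) (Submodule.subset_span ⟨i, rfl⟩)
  let Nf : Submodule (r.cover c) E :=
    Submodule.span (r.cover c) (Set.range fun i => (δA : r.Lr)⁻¹ • bE i)
  have hmemNf : ∀ x : E, (δA : r.Lr) • x ∈ Submodule.span (r.cover c) (Set.range bE) → x ∈ Nf := by
    intro x hx
    have hmap : Nf = (Submodule.span (r.cover c) (Set.range bE)).map
        (DistribSMul.toLinearMap (r.cover c) E ((δA : r.Lr)⁻¹)) := by
      rw [Submodule.map_span, ← Set.range_comp]
      rfl
    rw [hmap]
    refine ⟨_, hx, ?_⟩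
    simp [smul_smul, hδA0]
  have : IsNoetherian (r.cover c) Nf :=
    isNoetherian_of_fg_of_noetherian Nf (Submodule.fg_span (Set.finite_range _))
  have : Module.Finite (r.cover c) Cl := by
    have : IsNoetherian (r.cover c) (Subalgebra.toSubmodule Cl) :=
      isNoetherian_of_le (fun x hx => hmemNf x (hspan x hx) : Subalgebra.toSubmodule Cl ≤ Nf)
    exact inferInstanceAs (Module.Finite (r.cover c) (Subalgebra.toSubmodule Cl))
  have : Module.IsTorsionFree (r.cover c) E :=
    Module.IsTorsionFree.trans_faithfulSMul (r.cover c) r.Lr E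
  -- saturation
  have hℓ : Prime (ℓ : r.cover c) := h.prime_natCast
  have hℓL : ((ℓ : r.cover c) : r.Lr) ≠ 0 := fun h0 => hℓ.ne_zero (Subtype.ext h0)
  have hsat : ∀ (g : r.cover c) (x y : Cl), ¬ (ℓ : r.cover c) ∣ g → g • x = (ℓ : r.cover c) • y →
      ∃ z, x = (ℓ : r.cover c) • z := by
    intro g x y hg hxy
    let lL : r.Lr := ((ℓ : r.cover c) : r.Lr)
    let z : E := lL⁻¹ • (x : E)
    have h1 : (ℓ : r.cover c) • z = (x : E) := by
      change lL • (lL⁻¹ • (x : E)) = (x : E)
      rw [smul_smul, mul_inv_cancel₀ hℓL, one_smul]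
    have h2 : g • z = (y : E) := by
      have := congrArg Subtype.val hxy
      simp only [SetLike.val_smul] at this
      change (g : r.Lr) • (lL⁻¹ • (x : E)) = (y : E)
      rw [smul_comm, show (g : r.Lr) • (x : E) = lL • (y : E) from this, smul_smul,
        inv_mul_cancel₀ hℓL, one_smul]
    have hpow : ∀ i : ℕ, z ^ i ∈ Nf := by
      intro i
      refine hmemNf _ ?_
      rw [← bE.sum_repr (z ^ i), Finset.smul_sum]
      refine Submodule.sum_mem _ fun j _ => ?_
      rw [smul_smul, hδA]
      have h1' : ((ℓ : r.cover c) : r.Lr) • z = (x : E) := h1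
      have h2' : (g : r.Lr) • z = (y : E) := h2
      have ha := hmemA _ (isIntegral_discr_mul_repr bE hbE
        (show IsIntegral (r.cover c) (((ℓ : r.cover c) : r.Lr) ^ i • z ^ i) by
          rw [← _root_.smul_pow, h1']; exact x.2.pow i) j)
      have hb' := hmemA _ (isIntegral_discr_mul_repr bE hbE
        (show IsIntegral (r.cover c) ((g : r.Lr) ^ i • z ^ i) by
          rw [← _root_.smul_pow, h2']; exact y.2.pow i) j)
      rw [map_smul, Finsupp.smul_apply, smul_eq_mul] at ha hb'
      obtain ⟨w, hw⟩ : ∃ w : r.cover c, (w : r.Lr) = Algebra.discr r.Lr bE * bE.repr (z ^ i) j := by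
        have hdvd : (ℓ : r.cover c) ^ i ∣ (⟨_, ha⟩ : r.cover c) := by
          refine hℓ.pow_dvd_of_dvd_mul_left i (a := g ^ i) (fun hd => hg (hℓ.dvd_of_dvd_pow hd)) ?_
          refine ⟨⟨_, hb'⟩, Subtype.ext ?_⟩
          simp only [Subalgebra.coe_mul, Subalgebra.coe_pow]
          ring
        obtain ⟨w, hw⟩ := hdvd
        refine ⟨w, mul_left_cancel₀ (pow_ne_zero i hℓL) ?_⟩
        have h3 := congrArg Subtype.val hw
        simp only [Subalgebra.coe_mul, Subalgebra.coe_pow] at h3
        rw [← h3]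
        ring
      rw [← hw]
      exact Submodule.smul_mem (Submodule.span (r.cover c) (Set.range bE)) w
        (Submodule.subset_span ⟨j, rfl⟩)
    have hz : IsIntegral (r.cover c) z := by
      refine IsIntegral.of_mem_of_fg (Algebra.adjoin (r.cover c) {z}) ?_ _
        (Algebra.self_mem_adjoin_singleton _ _)
      have hle : Subalgebra.toSubmodule (Algebra.adjoin (r.cover c) {z}) ≤ Nf := by
        rw [Algebra.adjoin_eq_span, Submodule.span_le]
        intro w hw
        obtain ⟨i, rfl⟩ := Submonoid.mem_closure_singleton.1 hw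
        exact hpow i
      have := isNoetherian_of_le hle
      exact (Submodule.fg_top _).1 (IsNoetherian.noetherian _)
    exact ⟨⟨z, hz⟩, Subtype.ext h1.symm⟩
  have : Module.Free (r.cover c) Cl := free_of_saturated hℓ h.natCast_mem_jacobson
    h.isPrincipalIdealRing_quotient hsat
  -- a basis of `E`
  let bC := Module.Free.chooseBasis (r.cover c) Cl
  let v : Module.Free.ChooseBasisIndex (r.cover c) Cl → E := fun i => (bC i : E)
  have hliA : LinearIndependent (r.cover c) v :=
    bC.linearIndependent.map' (Subalgebra.toSubmodule Cl).subtype (Submodule.ker_subtype _)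
  have hli : LinearIndependent r.Lr v :=
    (LinearIndependent.iff_fractionRing (r.cover c) r.Lr).1 hliA
  have hCspan : ∀ x : Cl, (x : E) ∈ Submodule.span r.Lr (Set.range v) := by
    intro x
    rw [← bC.sum_repr x, AddSubmonoidClass.coe_finsetSum]
    refine Submodule.sum_mem _ fun i _ => ?_
    rw [SetLike.val_smul, ← algebraMap_smul r.Lr (bC.repr x i) ((bC i : E))]
    exact Submodule.smul_mem _ _ (Submodule.subset_span ⟨i, rfl⟩)
  have hsp : ⊤ ≤ Submodule.span r.Lr (Set.range v) := by
    rw [← bE.span_eq, Submodule.span_le]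
    rintro _ ⟨i, rfl⟩
    exact hCspan ⟨bE i, hbE i⟩
  let e0 := Module.Basis.mk hli hsp
  let σ := e0.indexEquiv bE
  let e := e0.reindex σ
  have he : ∀ i, e i = (bC (σ.symm i) : E) := fun i => by simp [e, e0, v]
  have hrepr : ∀ x, IsIntegral (r.cover c) x → ∀ i, e.repr x i ∈ r.cover c := by
    intro x hx i
    have hx2 : x = ∑ j, (bC.repr ⟨x, hx⟩ j : r.Lr) • e (σ j) := by
      conv_lhs => rw [show x = ((⟨x, hx⟩ : Cl) : E) from rfl, ← bC.sum_repr ⟨x, hx⟩,
        AddSubmonoidClass.coe_finsetSum]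
      refine Finset.sum_congr rfl fun j _ => ?_
      rw [SetLike.val_smul, he, Equiv.symm_apply_apply]
      exact (algebraMap_smul r.Lr (bC.repr ⟨x, hx⟩ j) ((bC j : E))).symm
    have hval : e.repr x i = (bC.repr ⟨x, hx⟩ (σ.symm i) : r.Lr) := by
      have h3 := congrArg (fun w => e.repr w i) hx2
      refine h3.trans ?_
      simp only [map_sum, Finsupp.coe_finsetSum, Finset.sum_apply, map_smul, Finsupp.smul_apply,
        Module.Basis.repr_self, smul_eq_mul]
      rw [Finset.sum_eq_single (σ.symm i)]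
      · simp
      · intro j _ hj
        rw [Finsupp.single_eq_of_ne (fun hh => hj (by rw [hh, Equiv.symm_apply_apply])), mul_zero]
      · simp
    rw [hval]
    exact SetLike.coe_mem _
  have heint : ∀ i, IsIntegral (r.cover c) (e i) := fun i => by
    rw [he]; exact (bC (σ.symm i)).2
  have hDmem : Algebra.discr r.Lr e ∈ r.cover c :=
    hmemA _ (Algebra.discr_def (A := r.Lr) e ▸ IsIntegral.det fun i j => by
      rw [Algebra.traceMatrix_apply, Algebra.traceForm_apply]
      exact isIntegral_algTrace e ((heint i).mul (heint j)))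
  let D : r.cover c := ⟨_, hDmem⟩
  refine ⟨e, heint, hrepr, D, rfl, fun ψ hψ hψD => ?_⟩
  obtain ⟨hl, hψv⟩ := point_spec hψ
  set l := ψ (r.polyA c X) with hldef
  obtain ⟨a, g, hg, hag⟩ := h.exists_num_den D
  have hal : aeval l a = 0 := by rw [← hψv, ← hag, map_mul, hψD, zero_mul]
  -- `ℓ` does not divide `D`
  have hℓD : ¬ (ℓ : r.cover c) ∣ D := by
    intro hdvd
    let M : Matrix (Fin n) (Fin n) (r.cover c) :=
      Matrix.of fun i j => ⟨e.repr (bE j) i, hrepr _ (hbE j) i⟩
    have hM : (bE : Fin n → E) = Matrix.vecMul (e : Fin n → E)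
        ((M.map (algebraMap (r.cover c) r.Lr)).map (algebraMap r.Lr E)) := by
      funext j
      conv_lhs => rw [← e.sum_repr (bE j)]
      simp only [Matrix.vecMul, dotProduct, Matrix.map_apply, M, Matrix.of_apply]
      refine Finset.sum_congr rfl fun i _ => ?_
      rw [Algebra.smul_def, mul_comm]
      rfl
    have hδD : δA = M.det ^ 2 * D := by
      apply Subtype.ext
      rw [hδA, hM, Algebra.discr_of_matrix_vecMul, Subalgebra.coe_mul, Subalgebra.coe_pow]
      congr 2
      rw [← RingHom.mapMatrix_apply, ← RingHom.map_det]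
      rfl
    have hd2 : (ℓ : r.cover c) ∣ δA := hδD ▸ hdvd.mul_left _
    obtain ⟨t, ht⟩ := hd2
    obtain ⟨ta, tg, htg, htag⟩ := h.exists_num_den t
    have h1 : r.polyA c (r.hom δ eδ * tg) = r.polyA c ((ℓ : ℤ[X]) * (r.Q ^ eδ * ta)) := by
      apply Subtype.ext
      have h2 : (δA : r.Lr) = algebraMap ℤ[X] r.Lr δ := by rw [hδA, hdiscb]
      have h3 := congrArg Subtype.val ht
      have h4 := congrArg Subtype.val htag
      simp only [Subalgebra.coe_mul, coe_polyA, h2] at h3 h4
      simp only [map_mul, map_pow, map_natCast, Subalgebra.coe_mul, Subalgebra.coe_pow, coe_polyA,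
        r.algebraMap_hom_eq δ (show δ.natDegree ≤ eδ from le_rfl), h3, ← h4]
      ring
    have h5 := congrArg (Polynomial.map (Int.castRingHom k))
      (r.polyX_injective (congrArg Subtype.val h1))
    simp only [Polynomial.map_mul, Polynomial.map_natCast, CharP.cast_eq_zero, zero_mul,
      mul_eq_zero] at h5
    rcases h5 with h5 | h5
    · exact hhomk h5
    · apply htg l hl
      rw [show aeval l tg = (tg.map (Int.castRingHom k)).eval l by
        rw [eval_map, aeval_def]; congr 1, h5, eval_zero]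
  have ha0 : a ≠ 0 := by
    rintro rfl
    rw [map_zero, mul_eq_zero] at hag
    rcases hag with hD0 | hg0
    · exact hℓD (hD0 ▸ dvd_zero _)
    · exact h.ne_zero_of_mem hg (r.polyX_injective (by simpa using congrArg Subtype.val hg0))
  -- the prime factor through the point
  obtain ⟨f, hf, hfl, hfa⟩ : ∃ f : ℤ[X], Prime f ∧ aeval l f = 0 ∧ f ∣ a := by
    obtain ⟨fs, hfs, u, hu⟩ := UniqueFactorizationMonoid.exists_prime_factors a ha0
    have h0 : aeval l (fs.prod * (u : ℤ[X])) = 0 := by rw [hu, hal]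
    have hu0 : IsUnit (aeval l (u : ℤ[X])) := u.isUnit.map _
    rw [map_mul, mul_eq_zero, or_iff_left hu0.ne_zero, map_multiset_prod,
      Multiset.prod_eq_zero_iff, Multiset.mem_map] at h0
    obtain ⟨f, hff, hfl⟩ := h0
    exact ⟨f, hfs f hff, hfl, (Multiset.dvd_prod hff).trans (Dvd.intro _ hu)⟩
  have hfdeg : f.natDegree ≠ 0 := by
    intro h0
    rw [eq_C_of_natDegree_eq_zero h0] at hfl hf hfa
    rw [aeval_C, eq_intCast, CharP.intCast_eq_zero_iff k ℓ] at hfl
    apply hℓD
    have h1 : (C (ℓ : ℤ)) ∣ a := (map_dvd C hfl).trans hfa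
    obtain ⟨t, rfl⟩ := h1
    refine ⟨r.polyA c t * ↑(h.isUnit_of_forall_roots hg).unit⁻¹, ?_⟩
    rw [map_mul, eq_intCast C (ℓ : ℤ), map_intCast, Int.cast_natCast] at hag
    rw [← mul_assoc, ← hag, mul_assoc, IsUnit.mul_val_inv, mul_one]
  -- a root
  obtain ⟨θ, hθ⟩ : ∃ θ : Qb, aeval θ f = 0 := by
    obtain ⟨θ, hθ⟩ := IsAlgClosed.exists_root (f.map (Int.castRingHom Qb)) (fun h0 => hfdeg (by
      have := natDegree_eq_of_degree_eq_some h0
      rwa [natDegree_map_eq_of_injective Int.cast_injective] at this))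
    refine ⟨θ, ?_⟩
    rw [IsRoot, eval_map] at hθ
    rw [aeval_def, RingHom.ext_int (algebraMap ℤ Qb) (Int.castRingHom Qb)]
    exact hθ
  obtain ⟨p, hp, hpI, -⟩ := exists_generator_pointIdeal θ
  have hpf : p ∣ f := by rw [← Ideal.mem_span_singleton, ← hpI]; exact hθ
  have hfp : Associated p f := hp.irreducible.associated_of_dvd hf.irreducible hpf
  have hspec : ∀ q : ℤ[X], aeval θ q = 0 → aeval l q = 0 := by
    intro q hq
    have : p ∣ q := by rw [← Ideal.mem_span_singleton, ← hpI]; exact hq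
    obtain ⟨t, rfl⟩ := hfp.dvd'.trans this
    rw [map_mul, hfl, zero_mul]
  have hθQ : aeval θ r.Q ≠ 0 := fun h0 => h.cop l hl (hspec _ h0)
  obtain ⟨em, hram, hem⟩ := habs θ ⟨l, hl, hspec⟩ hθQ
  obtain ⟨ι, _, _, y, δy, hcard, hy, hdisc, hδy⟩ := r.exists_unit_discr hθQ hram hem
  rw [Module.finrank_eq_card_basis b, Fintype.card_fin] at hcard
  let τ : ι ≃ Fin n := Fintype.equivFinOfCardEq hcard
  choose gy hgy hyint using hy
  let w : Fin n → E := fun i => r.polyX (gy (τ.symm i)) • y (τ.symm i)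
  have hwint : ∀ i, IsIntegral (r.cover c) (w i) := by
    intro i
    obtain ⟨q, hq, hqy⟩ := hyint (τ.symm i)
    refine ⟨q.map (r.polyA c), hq.map _, ?_⟩
    rw [eval₂_map]
    exact hqy
  let Mw : Matrix (Fin n) (Fin n) (r.cover c) :=
    Matrix.of fun i j => ⟨e.repr (w j) i, hrepr _ (hwint j) i⟩
  have hMw : (w : Fin n → E) = Matrix.vecMul (e : Fin n → E)
      ((Mw.map (algebraMap (r.cover c) r.Lr)).map (algebraMap r.Lr E)) := by
    funext j
    conv_lhs => rw [← e.sum_repr (w j)]
    simp only [Matrix.vecMul, dotProduct, Matrix.map_apply, Mw, Matrix.of_apply]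
    refine Finset.sum_congr rfl fun i _ => ?_
    rw [Algebra.smul_def, mul_comm]
    rfl
  have hw2 : Algebra.discr r.Lr w =
      (∏ i, r.polyX (gy i)) ^ 2 * r.pointToLr θ δy := by
    rw [← hdisc, show Algebra.discr r.Lr y = Algebra.discr r.Lr (y ∘ τ.symm) by
      rw [Algebra.discr_def, Algebra.discr_def, ← Matrix.det_submatrix_equiv_self τ.symm]
      rfl]
    have hwv : w = Matrix.vecMul (y ∘ τ.symm)
        ((Matrix.diagonal fun i => r.polyX (gy (τ.symm i))).map (algebraMap r.Lr E)) := by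
      funext j
      rw [Matrix.diagonal_map (map_zero _), Matrix.vecMul_diagonal]
      simp only [w, Function.comp_apply, Algebra.smul_def, mul_comm]
      rfl
    rw [hwv, Algebra.discr_of_matrix_vecMul, Matrix.det_diagonal]
    congr 2
    exact Fintype.prod_equiv τ.symm _ _ (fun i => rfl)
  have hw1 : Algebra.discr r.Lr w = ((Mw.det ^ 2 * D : r.cover c) : r.Lr) := by
    rw [hMw, Algebra.discr_of_matrix_vecMul, Subalgebra.coe_mul, Subalgebra.coe_pow,
      ← RingHom.mapMatrix_apply, ← RingHom.map_det]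
    rfl
  obtain ⟨⟨dn, dd⟩, hδd⟩ := IsLocalization.surj (pointCompl θ) δy
  obtain ⟨md, mg, hmg, hmdg⟩ := h.exists_num_den Mw.det
  -- clear denominators in `ℤ[x]`
  have key : md ^ 2 * a * (dd : ℤ[X]) = (∏ i, gy i) ^ 2 * dn * (mg ^ 2 * g) := by
    apply r.polyX_injective
    have h1 := congrArg Subtype.val hmdg
    have h2 := congrArg Subtype.val hag
    have h3 := congrArg (r.pointToLr θ) hδd
    simp only [Subalgebra.coe_mul, coe_polyA] at h1 h2
    simp only [map_mul, pointToLr_algebraMap] at h3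
    simp only [map_mul, map_pow, map_prod, ← h1, ← h2, ← h3]
    have h4 := hw1.symm.trans hw2
    simp only [Subalgebra.coe_mul, Subalgebra.coe_pow] at h4
    calc _ = ((Mw.det : r.Lr) ^ 2 * (D : r.Lr)) * (r.polyX mg ^ 2 * r.polyX g * r.polyX (dd : ℤ[X])) := by
          ring
      _ = _ := by rw [h4]; ring
  have key2 := congrArg (aeval θ) key
  have haθ : aeval θ a = 0 := by
    obtain ⟨t, rfl⟩ := hfa
    rw [map_mul, hθ, zero_mul]
  simp only [map_mul, map_pow, map_prod, haθ, mul_zero, zero_mul] at key2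
  refine absurd key2.symm (mul_ne_zero (mul_ne_zero (pow_ne_zero _ (Finset.prod_ne_zero_iff.2
    fun i _ => hgy i)) ?_) (mul_ne_zero (pow_ne_zero _ fun h0 => hmg l hl (hspec _ h0))
      fun h0 => hg l hl (hspec _ h0)))
  intro h0
  have := congrArg (evalPoint θ) hδd
  simp only [map_mul, evalPoint_algebraMap] at this
  rw [h0] at this
  rcases mul_eq_zero.1 this with h1 | h1
  · exact hδy h1
  · exact dd.2 h1

end Fermat.Agent.IgusaGenus.RatCover
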