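import Mathlib
import Fermat.Agent.IgusaGenus.Etale
import Fermat.Agent.Reduction.Interface

/-!
# The modular function field over the `X`-line

The rational modular function field as an algebra over the `X`-line, through a chosen function.
-/

set_option autoImplicit false

noncomputable section

open Polynomial ModularCurve

namespace Fermat.Agent.IgusaGenus

/-- The rational modular function field. -/
abbrev FQ (N : ℕ) := ↥(modularFunctionFieldFullC ℚ N)

/-- `X ↦ s`. -/
@[reducible] def algZX {F : Type*} [Field F] (s : F) : Algebra ℤ[X] F :=
  (aeval s : ℤ[X] →ₐ[ℤ] F).toRingHom.toAlgebra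

theorem algZX_algebraMap {F : Type*} [Field F] (s : F) (g : ℤ[X]) :
    @algebraMap ℤ[X] F _ _ (algZX s) g = aeval s g := rfl

/-- The cover absorbs the ramification of `X₀(N)` over the `s`-line at `c`. -/
def AbsorbsAt (N : ℕ) (r : RatCover) (s : FQ N) {k : Type*} [Field k] (c : k) : Prop :=
  @RatCover.Absorbs r (FQ N) _ (algZX s) k _ c

end Fermat.Agent.IgusaGenus
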