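import Mathlib
import Fermat.Agent.IgusaGenus.ChartAlg
import Fermat.Agent.FunctionFieldRR.PlaceExists

/-!
# A ramification bound over the `s`-line

A bound on ramification over an algebraic point of the `s`-line from the places over `ℚ̄`.
-/

set_option autoImplicit false
set_option linter.style.haveILetI false

noncomputable section

open Polynomial AlgebraicCurve

namespace Fermat.Agent.IgusaGenus

open FunctionFieldRR

theorem aeval_map_Qb {A : Type*} [CommRing A] [Algebra Qb A] (x : A) (g : ℤ[X]) :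
    aeval x (g.map (Int.castRingHom Qb)) = aeval x g := by
  rw [aeval_def, eval₂_map, aeval_def]
  congr 1
  exact RingHom.ext_int _ _

theorem eval_map_Qb (x : Qb) (g : ℤ[X]) : (g.map (Int.castRingHom Qb)).eval x = aeval x g := by
  rw [eval_map, aeval_def]
  congr 1

theorem pointIdeal_eq_of_aeval {c c' : Qb} {π : ℤ[X]} (hπ : pointIdeal c = Ideal.span {π})
    (h : aeval c' π = 0) : pointIdeal c' = pointIdeal c := by
  obtain ⟨p, hp, hpI, -⟩ := exists_generator_pointIdeal c'
  obtain ⟨q, hq, hqI, -⟩ := exists_generator_pointIdeal c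
  have hπq : Associated π q := Ideal.span_singleton_eq_span_singleton.1 (hπ.symm.trans hqI)
  have hpπ : p ∣ π := Ideal.mem_span_singleton.1 (hpI ▸ (show π ∈ pointIdeal c' from h))
  have hpq : Associated p q := hp.irreducible.associated_of_dvd hq.irreducible (hpπ.trans hπq.dvd)
  rw [hpI, hqI]
  exact Ideal.span_singleton_eq_span_singleton.2 hpq

theorem aeval_derivative_ne_zero {c : Qb} {π : ℤ[X]} (hπ : pointIdeal c = Ideal.span {π}) :
    aeval c (derivative π) ≠ 0 := by
  intro h
  obtain ⟨q, hq, hqI, hdeg⟩ := exists_generator_pointIdeal c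
  have hπq : Associated π q := Ideal.span_singleton_eq_span_singleton.1 (hπ.symm.trans hqI)
  have hdeg' : π.natDegree ≠ 0 := by
    rwa [natDegree_eq_of_degree_eq (degree_eq_degree_of_associated hπq)]
  have hdvd : π ∣ derivative π :=
    Ideal.mem_span_singleton.1 (hπ ▸ (show derivative π ∈ pointIdeal c from h))
  have h0 : derivative π ≠ 0 := fun h0 => hdeg' (derivative_eq_zero.1 h0)
  exact absurd (natDegree_le_of_dvd hdvd h0) (not_le.2 (natDegree_derivative_lt hdeg'))

section

variable {Fb : Type*} [Field Fb] [Algebra Qb Fb]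

theorem aeval_mem_valuationSubring (W : Place Qb Fb) {s : Fb} (hs : 0 ≤ W.ord s) (p : Qb[X]) :
    0 ≤ W.ord (aeval s p) :=
  (ord_nonneg_iff _ _).2 (aeval_mem W.toValuationSubring W.algebraMap_mem'
    ((ord_nonneg_iff _ _).1 hs) p)

theorem ord_aeval_eq_zero (W : Place Qb Fb) {s : Fb} {c : Qb}
    (h : 0 < W.ord (s - algebraMap Qb Fb c)) {p : Qb[X]} (hp : p.eval c ≠ 0) :
    W.ord (aeval s p) = 0 := by
  obtain ⟨g, hg⟩ := X_sub_C_dvd_sub_C_eval (a := c) (p := p)
  have hs : 0 ≤ W.ord s := by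
    rw [ord_nonneg_iff]
    have := add_mem ((ord_nonneg_iff _ _).1 h.le) (W.algebraMap_mem' c)
    rwa [sub_add_cancel] at this
  have he : aeval s p = algebraMap Qb Fb (p.eval c) + (s - algebraMap Qb Fb c) * aeval s g := by
    have := congrArg (aeval s) hg
    simp only [map_sub, map_mul, aeval_C, aeval_X] at this
    rw [← this]
    ring
  have hc0 : algebraMap Qb Fb (p.eval c) ≠ 0 := by simpa using hp
  rw [he]
  by_cases h0 : aeval s g = 0
  · rw [h0, mul_zero, add_zero, ord_algebraMap]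
  · rw [ord_add_eq_of_lt (P := W) hc0, ord_algebraMap]
    rw [ord_algebraMap, W.ord_mul (fun h0' => by rw [h0', W.ord_zero] at h; exact h.false) h0]
    have := aeval_mem_valuationSubring W hs g
    omega

variable [IsFunctionField Qb Fb]

theorem exists_center (W : Place Qb Fb) {s : Fb} (hs : Transcendental Qb s) {c : Qb} {π : ℤ[X]}
    (hπ : pointIdeal c = Ideal.span {π}) (h : 0 < W.ord (aeval s π)) :
    ∃ c' : Qb, pointIdeal c' = pointIdeal c ∧ 0 < W.ord (s - algebraMap Qb Fb c') ∧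
      W.ord (aeval s π) = W.ord (s - algebraMap Qb Fb c') := by
  set p := π.map (Int.castRingHom Qb)
  have hp : aeval s π = aeval s p := (aeval_map_Qb s π).symm
  have hs0 : s ≠ 0 := fun h0 => hs (h0 ▸ isAlgebraic_zero)
  have hmem : 0 ≤ W.ord s := by
    by_contra hneg
    have hinv : 0 < W.ord (s⁻¹ - algebraMap Qb Fb 0) := by
      rw [map_zero, sub_zero, W.ord_inv]; omega
    have hp0 : p ≠ 0 := fun h0 => by rw [hp, h0, map_zero, W.ord_zero] at h; exact h.false
    have hrev := ord_aeval_eq_zero W hinv (p := p.reverse) (by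
      rw [← coeff_zero_eq_eval_zero, coeff_zero_reverse]
      exact leadingCoeff_ne_zero.2 hp0)
    have hr0 : aeval s⁻¹ p.reverse ≠ 0 := fun h0 => (show Transcendental Qb s⁻¹ from
      fun ha => hs (by simpa using ha.inv)) ⟨p.reverse, by rwa [Ne, reverse_eq_zero], h0⟩
    let : Invertible s := invertibleOfNonzero hs0
    have he : aeval s⁻¹ p.reverse * s ^ p.natDegree = aeval s p := by
      rw [← invOf_eq_inv s]
      exact eval₂_reverse_mul_pow (algebraMap Qb Fb) s p
    rw [hp, ← he, W.ord_mul hr0 (pow_ne_zero _ hs0), hrev, zero_add, ord_pow] at h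
    have : (p.natDegree : ℤ) * W.ord s ≤ 0 :=
      mul_nonpos_of_nonneg_of_nonpos (Int.natCast_nonneg _) (by omega)
    omega
  obtain ⟨c', hc'⟩ := exists_residue W ((ord_nonneg_iff _ _).1 hmem)
  have hne : s - algebraMap Qb Fb c' ≠ 0 := fun h0 => hs (by
    rw [sub_eq_zero.1 h0]; exact isAlgebraic_algebraMap c')
  rw [VanishesTo, or_iff_right hne] at hc'
  have hroot : p.eval c' = 0 := by
    by_contra h0
    rw [hp, ord_aeval_eq_zero W (by omega) h0] at h
    exact h.false
  have hc : aeval c' π = 0 := by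
    rw [← eval_map_Qb]
    exact hroot
  have hI := pointIdeal_eq_of_aeval hπ hc
  refine ⟨c', hI, by omega, ?_⟩
  obtain ⟨g, hg⟩ := dvd_iff_isRoot.2 (show IsRoot p c' from hroot)
  have hgc : g.eval c' ≠ 0 := fun h0 => by
    refine aeval_derivative_ne_zero (hI.trans hπ) ?_
    have hd := congrArg (fun q : Qb[X] => (derivative q).eval c') hg
    simp only [derivative_mul, eval_add, eval_mul, eval_sub, eval_X, eval_C, sub_self, zero_mul,
      h0, add_zero, derivative_sub, derivative_X, derivative_C, sub_zero, one_mul] at hd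
    rw [← eval_map_Qb, ← derivative_map]
    exact hd
  have hg0 : aeval s g ≠ 0 := fun h0 => hs ⟨g, fun hg' => hgc (by rw [hg', eval_zero]), h0⟩
  rw [hp, hg, map_mul, map_sub, aeval_X, aeval_C, W.ord_mul hne hg0,
    ord_aeval_eq_zero W (by omega) hgc, add_zero]

variable {F : Type*} [Field F] (ι : F →+* Fb) (s : F) (hs : Transcendental Qb (ι s))

omit [Algebra Qb Fb] [IsFunctionField Qb Fb] in
theorem map_aeval_int (g : ℤ[X]) : ι (aeval s g) = aeval (ι s) g :=
  (aeval_algHom_apply ι.toIntAlgHom s g).symm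

include hs in
omit [IsFunctionField Qb Fb] in
theorem aeval_int_ne_zero {g : ℤ[X]} (hg : g ≠ 0) : aeval (ι s) g ≠ 0 := fun h => by
  rw [← aeval_map_Qb] at h
  exact hs ⟨_, by rwa [Ne, Polynomial.map_eq_zero_iff Int.cast_injective], h⟩

/-- Integrality at an algebraic point is read off at the places over it. -/
def IntPlaces (π : ℤ[X]) (f : F) : Prop :=
  ∀ W : Place Qb Fb, 0 < W.ord (aeval (ι s) π) → 0 ≤ W.ord (ι f)

include hs in
theorem intPlaces_of_intAt {c : Qb} {π : ℤ[X]} (hπ : pointIdeal c = Ideal.span {π}) {f : F}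
    (h : @IntAt F _ (algZX s) c f) : IntPlaces ι s π f := by
  letI := algZX s
  obtain ⟨g, hg, q, hq, hqf⟩ := h
  intro W hW
  rcases eq_or_ne (ι f) 0 with hf | hf
  · rw [hf, W.ord_zero]
  obtain ⟨c', hI, hc', -⟩ := exists_center W hs hπ hW
  have hsO : 0 ≤ W.ord (ι s) := by
    rw [ord_nonneg_iff]
    have := add_mem ((ord_nonneg_iff _ _).1 hc'.le) (W.algebraMap_mem' c')
    rwa [sub_add_cancel] at this
  let O := W.toValuationSubring
  have hZ : ∀ a : ℤ[X], aeval (ι s) a ∈ O := fun a => by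
    rw [← aeval_map_Qb]
    exact (ord_nonneg_iff _ _).1 (aeval_mem_valuationSubring W hsO _)
  let τ : ℤ[X] →+* O := (aeval (ι s) : ℤ[X] →ₐ[ℤ] Fb).toRingHom.codRestrict O.toSubring hZ
  have hint : IsIntegral O (ι (g • f)) := by
    refine ⟨q.map τ, hq.map τ, ?_⟩
    rw [eval₂_map]
    have hτ : (algebraMap O Fb).comp τ = ι.comp (algebraMap ℤ[X] F) :=
      RingHom.ext fun a => (map_aeval_int ι s a).symm
    rw [hτ, ← hom_eval₂, hqf, map_zero]
  obtain ⟨y, hy⟩ := IsIntegrallyClosed.isIntegral_iff.1 hint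
  have hgf : ι (g • f) = aeval (ι s) g * ι f := by
    rw [Algebra.smul_def, map_mul]
    exact congrArg (· * ι f) (map_aeval_int ι s g)
  have hg0 : W.ord (aeval (ι s) g) = 0 := by
    rw [← aeval_map_Qb]
    refine ord_aeval_eq_zero W hc' ?_
    rw [eval_map_Qb]
    exact fun h0 => hg (mem_pointIdeal.1 (hI ▸ (show g ∈ pointIdeal c' from h0)))
  have hgne : g ≠ 0 := fun h0 => hg (by rw [h0, map_zero])
  have := (ord_nonneg_iff W (ι (g • f))).2 (hy ▸ y.2)
  rw [hgf, W.ord_mul (aeval_int_ne_zero ι s hs hgne) hf, hg0, zero_add] at this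
  exact this

include hs in
theorem intAt_of_intPlaces {c : Qb} {π : ℤ[X]} (hπ : pointIdeal c = Ideal.span {π}) {f : F}
    (h : IntPlaces ι s π f) : @IntAt F _ (algZX s) c f := by
  letI := algZX s
  letI : Algebra ℤ[X] Fb := algZX (ι s)
  let τ : PointRing c →+* Fb := IsLocalization.lift (M := pointCompl c)
    (g := (aeval (ι s) : ℤ[X] →ₐ[ℤ] Fb).toRingHom) fun g =>
      isUnit_iff_ne_zero.2 (aeval_int_ne_zero ι s hs fun h0 => g.2 (by
        rw [h0]; exact (pointIdeal c).zero_mem))
  letI : Algebra (PointRing c) Fb := τ.toAlgebra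
  have hτ : ∀ a, τ (algebraMap ℤ[X] (PointRing c) a) = aeval (ι s) a := IsLocalization.lift_eq _
  haveI : IsScalarTower ℤ[X] (PointRing c) Fb :=
    IsScalarTower.of_algebraMap_eq fun a => (hτ a).symm
  by_cases hint : IsIntegral (PointRing c) (ι f)
  · obtain ⟨⟨g, hg⟩, hgf⟩ := hint.exists_multiple_integral_of_isLocalization (pointCompl c) (ι f)
    refine ⟨g, hg, ?_⟩
    let ιA : F →ₐ[ℤ[X]] Fb := { ι with commutes' := fun a => map_aeval_int ι s a }
    rw [← isIntegral_algHom_iff ιA (RingHom.injective ι)]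
    rw [map_smul]
    exact hgf
  exfalso
  obtain ⟨O, hO, hfO⟩ : ∃ O : ValuationSubring Fb, Set.range τ ⊆ O ∧ ι f ∉ O := by
    by_contra! hall
    apply hint
    have hmem : ι f ∈ (integralClosure (Subring.closure (Set.range τ)) Fb).toSubring := by
      rw [← iInf_valuationSubring_superset, Subring.mem_iInf]
      exact fun V => hall V.1 V.2
    obtain ⟨q, hq, hqf⟩ := hmem
    have hlift : q.map (algebraMap _ Fb) ∈ lifts τ := by
      rw [lifts_iff_coeff_lifts]
      intro n
      rw [coeff_map]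
      exact (Subring.closure_le (t := τ.range)).2 (fun x hx => hx) (q.coeff n).2
    obtain ⟨Q, hQ, -, hQm⟩ := lifts_and_degree_eq_and_monic hlift (hq.map _)
    refine ⟨Q, hQm, ?_⟩
    show eval₂ τ (ι f) Q = 0
    rw [eval₂_eq_eval_map, hQ, eval_map]
    exact hqf
  have hQ : ∀ q : ℚ, algebraMap Qb Fb (q : Qb) ∈ O := fun q => by
    have hu : IsUnit (algebraMap ℤ[X] (PointRing c) (C (q.den : ℤ))) :=
      IsLocalization.map_units (PointRing c) (⟨C (q.den : ℤ), by
        rw [mem_pointCompl, aeval_C]; simp⟩ : pointCompl c)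
    refine hO ⟨algebraMap ℤ[X] (PointRing c) (C q.num) * ↑hu.unit⁻¹, ?_⟩
    rw [map_mul, map_units_inv, IsUnit.unit_spec, hτ, hτ, aeval_C, aeval_C, ← div_eq_mul_inv,
      map_ratCast]
    simp [Rat.cast_def]
  have hK : ∀ a : Qb, algebraMap Qb Fb a ∈ O := fun a => by
    obtain ⟨q, hq, hqa⟩ := (isAlgebraic_Qb.isAlgebraic a).isIntegral
    have hlift : ∀ i, algebraMap Qb Fb (algebraMap ℚ Qb (q.coeff i)) ∈ O := fun i => by
      rw [eq_ratCast]; exact hQ _
    have hmap : q.map ((algebraMap Qb Fb).comp (algebraMap ℚ Qb)) ∈ lifts (algebraMap O Fb) := by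
      rw [lifts_iff_coeff_lifts]
      intro i
      rw [coeff_map]
      exact ⟨⟨_, hlift i⟩, rfl⟩
    obtain ⟨Q, hQ, -, hQm⟩ := lifts_and_degree_eq_and_monic hmap (hq.map _)
    obtain ⟨y, hy⟩ := IsIntegrallyClosed.isIntegral_iff.1
      (show IsIntegral O (algebraMap Qb Fb a) from ⟨Q, hQm, by
        rw [eval₂_eq_eval_map, hQ, eval_map, ← hom_eval₂, hqa, map_zero]⟩)
    exact hy ▸ y.2
  have hne : O ≠ ⊤ := fun h0 => hfO (h0 ▸ ValuationSubring.mem_top _)
  let W : Place Qb Fb := placeOfValuationSubring O hK hne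
  have hsO : 0 ≤ W.ord (ι s) := (ord_nonneg_iff W _).2 (hO ⟨algebraMap _ _ X, by
    rw [hτ, aeval_X]⟩)
  obtain ⟨c', hc'⟩ := exists_residue W ((ord_nonneg_iff _ _).1 hsO)
  have hne' : ι s - algebraMap Qb Fb c' ≠ 0 := fun h0 => hs (by
    rw [sub_eq_zero.1 h0]; exact isAlgebraic_algebraMap c')
  rw [VanishesTo, or_iff_right hne'] at hc'
  have hpos : 0 < W.ord (aeval (ι s) π) := by
    obtain ⟨p, hp, hpI, -⟩ := exists_generator_pointIdeal c'
    have hpc : aeval c' p = 0 := mem_pointIdeal.1 (hpI ▸ Ideal.mem_span_singleton_self p)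
    have hp0 : aeval (ι s) p ≠ 0 := aeval_int_ne_zero ι s hs hp.ne_zero
    have hord : 0 < W.ord (aeval (ι s) p) := by
      obtain ⟨g, hg⟩ := dvd_iff_isRoot.2 (show IsRoot (p.map (Int.castRingHom Qb)) c' by
        rw [IsRoot, eval_map_Qb, hpc])
      rw [← aeval_map_Qb, hg, map_mul, map_sub, aeval_X, aeval_C] at hp0 ⊢
      rw [W.ord_mul hne' (right_ne_zero_of_mul hp0)]
      have := aeval_mem_valuationSubring W hsO g
      omega
    by_cases hpπ : π ∣ p
    · obtain ⟨q, hq, hqI, -⟩ := exists_generator_pointIdeal c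
      have hπq : Associated π q := Ideal.span_singleton_eq_span_singleton.1 (hπ.symm.trans hqI)
      obtain ⟨u, hu⟩ := (hπq.symm.irreducible hq.irreducible).associated_of_dvd hp.irreducible hpπ
      rw [← hu, map_mul, W.ord_mul (left_ne_zero_of_mul (by rwa [← map_mul, hu]))
        (u.isUnit.map _).ne_zero] at hord
      obtain ⟨n, hn, hun⟩ := Polynomial.isUnit_iff.1 u.isUnit
      rw [← hun, aeval_C, eq_intCast, ← map_intCast (algebraMap Qb Fb), ord_algebraMap,
        add_zero] at hord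
      exact hord
    · exfalso
      have hmem : aeval c p ≠ 0 := fun h0 =>
        hpπ (Ideal.mem_span_singleton.1 (hπ ▸ (show p ∈ pointIdeal c from h0)))
      have hu : IsUnit (algebraMap ℤ[X] (PointRing c) p) :=
        IsLocalization.map_units (PointRing c) (⟨p, hmem⟩ : pointCompl c)
      have hinv : (aeval (ι s) p)⁻¹ ∈ O := hO ⟨↑hu.unit⁻¹, by
        rw [map_units_inv, IsUnit.unit_spec, hτ]⟩
      have := (ord_nonneg_iff W _).2 hinv
      rw [W.ord_inv] at this
      omega
  exact hfO ((ord_nonneg_iff W _).1 (h W hpos))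

include hs in
/-- The ramification bound of `RamDvd` from the ramification indices of the places. -/
theorem ramDvd_of_places {c : Qb} {e : ℕ}
    (hram : ∀ (W : Place Qb Fb) (c' : Qb), pointIdeal c' = pointIdeal c →
      0 < W.ord (ι s - algebraMap Qb Fb c') →
      W.ord (ι s - algebraMap Qb Fb c') ∣ (e : ℤ)) :
    @RamDvd F _ (algZX s) c e := by
  letI := algZX s
  intro π hπ m hm hem b k i hk hi hb hbi
  have hb' := intPlaces_of_intAt ι s hs hπ hb
  have hbi' := intPlaces_of_intAt ι s hs hπ hbi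
  refine intAt_of_intPlaces ι s hs hπ fun W hW => ?_
  have hcoe : ι (algebraMap ℤ[X] F π) = aeval (ι s) π := map_aeval_int ι s π
  rcases eq_or_ne (ι b) 0 with hb0 | hb0
  · rw [map_div₀, map_pow, hb0, zero_pow (by omega), zero_div, W.ord_zero]
  have hπ0 : aeval (ι s) π ≠ 0 := fun h0 => by rw [h0, W.ord_zero] at hW; exact hW.false
  obtain ⟨c', hI, hc', hM⟩ := exists_center W hs hπ hW
  have h2 := hbi' W hW
  rw [map_div₀, map_pow, map_pow, hcoe, ord_div W (pow_ne_zero _ hb0) (pow_ne_zero _ hπ0),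
    ord_pow, ord_pow] at h2
  rw [map_div₀, map_pow, map_pow, hcoe, ord_div W (pow_ne_zero _ hb0) (pow_ne_zero _ hπ0),
    ord_pow, ord_pow]
  obtain ⟨l, hl⟩ := (hram W c' hI hc').trans (Int.natCast_dvd_natCast.2 hem)
  rw [← hM] at hl
  set M := W.ord (aeval (ι s) π)
  set B := W.ord (ι b)
  push_cast at h2 ⊢
  rw [hl] at h2 ⊢
  have h3 : M * ((k : ℤ) * i + 1) ≤ M * (l * i * B) := by linarith
  have h4 : (k : ℤ) * i + 1 ≤ l * i * B := le_of_mul_le_mul_left h3 hW
  have h5 : (k : ℤ) < l * B := lt_of_mul_lt_mul_left (by linarith : (i : ℤ) * k < i * (l * B))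
    (Int.natCast_nonneg _)
  have h6 : M * ((k : ℤ) + 1) ≤ M * (l * B) := mul_le_mul_of_nonneg_left h5 hW.le
  linarith

end

end Fermat.Agent.IgusaGenus
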