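import Mathlib
import Fermat.Agent.IgusaGenus.RamCriterion
import Fermat.Agent.HeckeJ0.Model
import Fermat.Agent.X0Analytic.Ramification

/-!
# Covers absorbing the ramification of `X₀(N)`

Covers of the `j`-line absorbing the ramification of `X₀(N)`.
-/

set_option autoImplicit false
set_option linter.style.haveILetI false

noncomputable section

open Polynomial AlgebraicCurve ModularCurve

namespace Fermat.Agent.IgusaGenus

open Reduction (jC)
open FunctionFieldRR X0Analytic

section Curve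

variable {N : ℕ}

variable (N) in
/-- The extension of constants to `ℚ̄`. -/
def extendQb : FQ N →+* ↥(FLevel Qb N) :=
  ((coeffEmb Qb).comp (algebraMap (FQ N) (LaurentSeries ℚ))).codRestrict
    (FLevel Qb N).toSubfield.toSubring fun x => coeffEmb_mem_laurentBaseChange Qb x.2

theorem extendQb_jC : extendQb N (jC ℚ N) = jEl Qb N :=
  Subtype.ext (show coeffEmb Qb (jqModC ℚ) = jL Qb 1 by rw [jqModC_rat, jL_one])

variable [NeZero N]

theorem transcendental_jEl_Qb : Transcendental Qb (jEl Qb N) :=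
  transcendental_jEl HeckeJ0.qbarEmb

theorem eq_iff_of_pointIdeal_eq {c c' : Qb} (h : pointIdeal c' = pointIdeal c) (n : ℤ) :
    c' = n ↔ c = n := by
  have key : ∀ d : Qb, d = n ↔ (X - C n : ℤ[X]) ∈ pointIdeal d := fun d => by
    rw [mem_pointIdeal, map_sub, aeval_X, aeval_C, sub_eq_zero, eq_intCast]
  rw [key c', key c, h]

/-- The ramification over `j = c` divides `3`, `2`, `1` as `c` is `0`, `1728` or neither. -/
theorem ramDvd_jC {c : Qb} {e : ℕ} (h0 : c = 0 → e = 3) (h1 : c = 1728 → e = 2) :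
    @RamDvd (FQ N) _ (algZX (jC ℚ N)) c e := by
  have := HeckeJ0.isFunctionField_bar N
  refine ramDvd_of_places (Fb := ↥(FLevel Qb N)) (extendQb N) _
    (extendQb_jC (N := N) ▸ transcendental_jEl_Qb) fun W c' hI hpos => ?_
  rw [extendQb_jC] at hpos ⊢
  classical
  have h := ord_jEl_sub_dvd HeckeJ0.qbarEmb W c' hpos
  split_ifs at h with e0 e1
  · have := h0 (by simpa using (eq_iff_of_pointIdeal_eq hI 0).1 (by simpa using e0))
    rw [this]; exact h
  · have := h1 (by simpa using (eq_iff_of_pointIdeal_eq hI 1728).1 (by simpa using e1))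
    rw [this]; exact h
  · exact h.trans (one_dvd _)

/-- The ramification over `1 / j = c` divides `N` for `c = 0` and is trivial for `1728 c ≠ 1`,
`c ≠ 0`. -/
theorem ramDvd_jC_inv {c : Qb} {e : ℕ} (h0 : c = 0 → e = N) (h1 : 1728 * c ≠ 1) :
    @RamDvd (FQ N) _ (algZX (jC ℚ N)⁻¹) c e := by
  have := HeckeJ0.isFunctionField_bar N
  have hj := extendQb_jC (N := N)
  have hs : Transcendental Qb (extendQb N (jC ℚ N)⁻¹) := by
    rw [map_inv₀, hj]
    exact fun h => transcendental_jEl_Qb (N := N) (inv_inv (jEl Qb N) ▸ h.inv)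
  refine ramDvd_of_places (Fb := ↥(FLevel Qb N)) (extendQb N) _ hs fun W c' hI hpos => ?_
  rw [map_inv₀, hj] at hpos ⊢
  set j := jEl Qb N
  rcases eq_or_ne c' 0 with hc | hc
  · subst hc
    rw [map_zero, sub_zero, W.ord_inv] at hpos ⊢
    rw [h0 (by simpa using (eq_iff_of_pointIdeal_eq hI 0).1 (by simp)), Int.neg_dvd]
    exact ord_jEl_neg_dvd HeckeJ0.qbarEmb W (show W.ord j < 0 by omega)
  · have hj0 : j ≠ 0 := fun h => transcendental_jEl_Qb (N := N)
      (show IsAlgebraic Qb j by rw [h]; exact isAlgebraic_zero)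
    have hne : j⁻¹ - algebraMap Qb _ c' ≠ 0 := fun h => by rw [h, W.ord_zero] at hpos; exact hpos.false
    have hje : W.ord j⁻¹ = 0 := by
      have hc0 : algebraMap Qb ↥(FLevel Qb N) c' ≠ 0 := by simpa using hc
      have := ord_add_eq_of_lt (P := W) hc0 (g := j⁻¹ - algebraMap Qb _ c')
        (by rw [ord_algebraMap]; exact hpos)
      rwa [add_sub_cancel, ord_algebraMap] at this
    have hne' : j - algebraMap Qb _ c'⁻¹ ≠ 0 := fun h =>
      transcendental_jEl_Qb (N := N)
        (show IsAlgebraic Qb j by rw [sub_eq_zero.1 h]; exact isAlgebraic_algebraMap _)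
    have he : j⁻¹ - algebraMap Qb _ c' =
        -algebraMap Qb _ c' * ((j - algebraMap Qb _ c'⁻¹) * j⁻¹) := by
      rw [map_inv₀]
      have : algebraMap Qb ↥(FLevel Qb N) c' ≠ 0 := by simpa using hc
      field_simp
      ring
    have hord : W.ord (j⁻¹ - algebraMap Qb _ c') = W.ord (j - algebraMap Qb _ c'⁻¹) := by
      rw [he, W.ord_mul (by simpa using hc) (mul_ne_zero hne' (inv_ne_zero hj0)),
        W.ord_mul hne' (inv_ne_zero hj0), ord_neg, ord_algebraMap, hje, zero_add, add_zero]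
    rw [hord] at hpos ⊢
    have h1728 : c'⁻¹ ≠ 1728 := fun h => by
      refine h1 ?_
      have hz : aeval c' (C 1728 * X - 1 : ℤ[X]) = 0 := by
        simp only [map_sub, map_mul, map_one, map_ofNat, aeval_X]
        rw [← h, inv_mul_cancel₀ hc, sub_self]
      have := mem_pointIdeal.1 (hI ▸ (show (C 1728 * X - 1 : ℤ[X]) ∈ pointIdeal c' from hz))
      simpa [sub_eq_zero, map_ofNat] using this
    rw [ord_jEl_sub_eq_one HeckeJ0.qbarEmb W _ (inv_ne_zero hc) h1728 hpos]
    exact one_dvd _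

end Curve

section Covers

variable {r : RatCover}

/-- If `P - n Q` is a constant times an `e`-th power, the cover has multiplicity divisible by `e`
over `n`. -/
theorem RatCover.dvd_multiplicity {θ : Qb} (hθ : aeval θ r.Q ≠ 0) {n κ : ℤ} {e : ℕ} {T : ℤ[X]}
    (he : e ≠ 0) (hκ : κ ≠ 0) (hT : r.P - C n * r.Q = C κ * T ^ e) (hj : r.jVal θ = n)
    {π : ℤ[X]} {ϖ : PointRing θ} {m : ℕ} {u : (PointRing θ)ˣ}
    (hπ : pointIdeal (r.jVal θ) = Ideal.span {π}) (hϖ : Irreducible ϖ)
    (hu : r.psi hθ π = (u : PointRing θ) * ϖ ^ m) : e ∣ m := by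
  obtain ⟨q, hq, hqI, -⟩ := exists_generator_pointIdeal (r.jVal θ)
  have hπq : Associated π q := Ideal.span_singleton_eq_span_singleton.1 (hπ.symm.trans hqI)
  have hmem : (X - C n : ℤ[X]) ∈ pointIdeal (r.jVal θ) := by
    rw [mem_pointIdeal, map_sub, aeval_X, aeval_C, hj, eq_intCast, sub_self]
  obtain ⟨v, hv⟩ := (hπq.symm.irreducible hq.irreducible).associated_of_dvd (irreducible_X_sub_C n)
    (Ideal.mem_span_singleton.1 (hπ ▸ hmem))
  have hT0 : T ≠ 0 := fun h => by
    rw [h, zero_pow he, mul_zero, sub_eq_zero] at hT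
    have h1 := r.hdeg
    rw [hT] at h1
    exact absurd (natDegree_C_mul_le n r.Q) (not_le.2 h1)
  obtain ⟨i, u₂, hi⟩ := IsDiscreteValuationRing.eq_unit_mul_pow_irreducible
    ((map_ne_zero_iff _ (IsLocalization.injective (PointRing θ)
      (pointCompl_le_nonZeroDivisors θ))).2 hT0) hϖ
  have hQu : IsUnit (algebraMap ℤ[X] (PointRing θ) r.Q) :=
    IsLocalization.map_units (PointRing θ) (⟨r.Q, hθ⟩ : pointCompl θ)
  have hκu : IsUnit (algebraMap ℤ[X] (PointRing θ) (C κ)) :=
    IsLocalization.map_units (PointRing θ) (⟨C κ, by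
      rw [mem_pointCompl, aeval_C]; simpa using hκ⟩ : pointCompl θ)
  have hvu : IsUnit (r.psi hθ (v : ℤ[X])) := v.isUnit.map _
  have hmain : r.psi hθ (X - C n) * algebraMap ℤ[X] (PointRing θ) r.Q =
      algebraMap ℤ[X] (PointRing θ) (C κ) * algebraMap ℤ[X] (PointRing θ) T ^ e := by
    rw [← map_pow, ← map_mul, ← hT, map_sub, map_sub, map_mul, r.psi_X, sub_mul, RatCover.jPoint,
      IsLocalization.mk'_spec' (PointRing θ) r.P (⟨r.Q, hθ⟩ : pointCompl θ) |> fun h =>
        (mul_comm _ _).trans h]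
    congr 2
    simp [RatCover.psi]
  rw [← hv, map_mul, hu, hi] at hmain
  have hfin : ((u * hvu.unit * hQu.unit : (PointRing θ)ˣ) : PointRing θ) * ϖ ^ m =
      ((hκu.unit * u₂ ^ e : (PointRing θ)ˣ) : PointRing θ) * ϖ ^ (i * e) := by
    simp only [Units.val_mul, Units.val_pow_eq_pow_val, IsUnit.unit_spec]
    rw [pow_mul]
    linear_combination hmain
  exact Dvd.intro_left i (IsDiscreteValuationRing.unit_mul_pow_congr_pow hϖ hϖ _ _ _ _ hfin).symm

/-- The Legendre cover `j = 256 (X² - X + 1)³ / (X (X - 1))²`. -/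
theorem exists_legendre : ∃ r : RatCover, r.P = C 256 * (X ^ 2 - X + 1) ^ 3 ∧
    r.Q = (X * (X - 1)) ^ 2 := by
  have hP : (C 256 * (X ^ 2 - X + 1 : ℤ[X]) ^ 3).natDegree = 6 := by
    compute_degree!
  have hQ : ((X * (X - 1) : ℤ[X]) ^ 2).natDegree ≤ 4 := by
    compute_degree
  refine ⟨⟨_, _, by rw [hP]; omega, ?_⟩, rfl, rfl⟩
  simp only [Polynomial.map_mul, Polynomial.map_pow, Polynomial.map_add, Polynomial.map_sub,
    Polynomial.map_X, Polynomial.map_one, map_C]
  refine IsCoprime.mul_left ((isCoprime_one_left).of_isCoprime_of_dvd_left ?_) (IsCoprime.pow ?_)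
  · exact (isUnit_C.2 (by norm_num)).dvd
  · exact ⟨1, -1, by ring⟩

/-- The Hesse cover `j = 27 X³ (X³ + 8)³ / (X³ - 1)³`. -/
theorem exists_hesse : ∃ r : RatCover, r.P = C 27 * (X * (X ^ 3 + 8)) ^ 3 ∧
    r.Q = (X ^ 3 - 1) ^ 3 := by
  have hP : (C 27 * (X * (X ^ 3 + 8) : ℤ[X]) ^ 3).natDegree = 12 := by
    compute_degree!
  have hQ : ((X ^ 3 - 1 : ℤ[X]) ^ 3).natDegree ≤ 9 := by
    compute_degree
  refine ⟨⟨_, _, by rw [hP]; omega, ?_⟩, rfl, rfl⟩
  simp only [Polynomial.map_mul, Polynomial.map_pow, Polynomial.map_add, Polynomial.map_sub,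
    Polynomial.map_X, Polynomial.map_one, Polynomial.map_ofNat, map_C]
  refine IsCoprime.mul_left ((isCoprime_one_left).of_isCoprime_of_dvd_left ?_) (IsCoprime.pow ?_)
  · exact (isUnit_C.2 (by norm_num)).dvd
  · refine IsCoprime.mul_left ⟨X ^ 2, -1, by ring⟩ ⟨C (1 / 9), -C (1 / 9), ?_⟩
    rw [neg_mul, ← sub_eq_add_neg, ← mul_sub, show (X ^ 3 + 8 : ℚ[X]) - (X ^ 3 - 1) = C 9 by
      rw [map_ofNat]; ring, ← map_mul]
    norm_num

end Covers

variable {k : Type*} [Field k] {N : ℕ} [NeZero N]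

/-- A cover absorbing the ramification of `X₀(N)` over a finite point of the `j`-line. -/
theorem exists_cover_finite (c : k) :
    ∃ r : RatCover, r.GoodAt c ∧ AbsorbsAt N r (jC ℚ N) c := by
  classical
  suffices ∃ r : RatCover, r.GoodAt c ∧ ∃ (κ₀ κ₁ : ℤ) (T₀ T₁ : ℤ[X]), κ₀ ≠ 0 ∧ κ₁ ≠ 0 ∧
      r.P - C 0 * r.Q = C κ₀ * T₀ ^ 3 ∧ r.P - C 1728 * r.Q = C κ₁ * T₁ ^ 2 by
    obtain ⟨r, hr, κ₀, κ₁, T₀, T₁, hκ₀, hκ₁, hT₀, hT₁⟩ := this
    refine ⟨r, hr, fun θ _ hθ =>
      ⟨if r.jVal θ = 0 then 3 else if r.jVal θ = 1728 then 2 else 1,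
        ramDvd_jC (fun h => if_pos h) (fun h => by rw [if_neg (by rw [h]; norm_num), if_pos h]),
        fun π ϖ m u hπ hϖ hu => ?_⟩⟩
    split_ifs with h0 h1
    · exact RatCover.dvd_multiplicity hθ three_ne_zero hκ₀ hT₀ (by rw [h0, Int.cast_zero]) hπ hϖ hu
    · exact RatCover.dvd_multiplicity hθ two_ne_zero hκ₁ hT₁ (by rw [h1]; norm_num) hπ hϖ hu
    · exact one_dvd _
  by_cases h2 : (2 : k) = 0
  · obtain ⟨r, hP, hQ⟩ := exists_hesse
    refine ⟨r, ⟨?_, fun l hl hQl => ?_⟩, 27, 27, X * (X ^ 3 + 8), X ^ 6 - 20 * X ^ 3 - 8,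
      by norm_num, by norm_num, by rw [hP, map_zero, zero_mul, sub_zero], ?_⟩
    · have : r.P.leadingCoeff = 27 := by
        rw [hP, leadingCoeff_mul, leadingCoeff_C, leadingCoeff_pow, leadingCoeff_mul,
          leadingCoeff_X, one_mul, show (X ^ 3 + 8 : ℤ[X]) = X ^ 3 + C 8 by rw [map_ofNat],
          leadingCoeff_X_pow_add_C (by norm_num), one_pow, mul_one]
      rw [this]
      push_cast
      intro h
      exact one_ne_zero (α := k) (by linear_combination h - 13 * h2)
    · rw [RatCover.mem_roots, hQl, mul_zero, hP] at hl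
      rw [hQ] at hQl
      simp only [map_pow, map_mul, map_sub, map_add, map_ofNat, map_one, aeval_X] at hl hQl
      have hl3 : l ^ 3 = 1 := sub_eq_zero.1 ((pow_eq_zero_iff three_ne_zero).1 hQl)
      refine one_ne_zero (α := k) ?_
      rw [mul_pow, hl3, one_mul] at hl
      linear_combination hl - 9841 * h2
    · rw [hP, hQ]
      simp only [map_ofNat]
      ring
  · obtain ⟨r, hP, hQ⟩ := exists_legendre
    refine ⟨r, ⟨?_, fun l hl hQl => ?_⟩, 256, 64, X ^ 2 - X + 1,
      2 * X ^ 3 - 3 * X ^ 2 - 3 * X + 2,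
      by norm_num, by norm_num, by rw [hP, map_zero, zero_mul, sub_zero], ?_⟩
    · have : r.P.leadingCoeff = 256 := by
        rw [hP, leadingCoeff_mul, leadingCoeff_C, leadingCoeff_pow,
          show (X ^ 2 - X + 1 : ℤ[X]).leadingCoeff = 1 by
            apply Monic.leadingCoeff; monicity!, one_pow, mul_one]
      rw [this]
      push_cast
      rw [show (256 : k) = 2 ^ 8 by norm_num]
      exact pow_ne_zero _ h2
    · rw [RatCover.mem_roots, hQl, mul_zero, hP] at hl
      rw [hQ] at hQl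
      simp only [map_pow, map_mul, map_sub, map_add, map_ofNat, map_one, aeval_X] at hl hQl
      have h256 : (256 : k) ≠ 0 := by
        rw [show (256 : k) = 2 ^ 8 by norm_num]
        exact pow_ne_zero _ h2
      rcases mul_eq_zero.1 ((pow_eq_zero_iff two_ne_zero).1 hQl) with h | h
      · rw [h] at hl
        norm_num [h256] at hl
      · rw [sub_eq_zero.1 h] at hl
        norm_num [h256] at hl
    · rw [hP, hQ]
      simp only [map_ofNat]
      ring

/-- A cover absorbing the ramification of `X₀(N)` over the cusp, in the coordinate `1 / j`. -/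
theorem exists_cover_cusp : ∃ r : RatCover, r.GoodAt (0 : k) ∧
    AbsorbsAt N r (jC ℚ N)⁻¹ (0 : k) := by
  classical
  have hN : 0 < N := Nat.pos_of_ne_zero (NeZero.ne N)
  refine ⟨⟨X ^ N, 1, by simpa using hN, by rw [Polynomial.map_one]; exact isCoprime_one_right⟩,
    ⟨by simp, fun l _ => by simp⟩, fun θ hθl hθ => ?_⟩
  set r : RatCover := ⟨X ^ N, 1, _, _⟩
  have hj : r.jVal θ = θ ^ N := by simp [RatCover.jVal, r]
  obtain ⟨l, hl, hspec⟩ := hθl
  have hl0 : l = 0 := by
    simpa [RatCover.mem_roots, r, hN.ne'] using hl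
  refine ⟨if r.jVal θ = 0 then N else 1, ramDvd_jC_inv (fun h => if_pos h) (fun h => ?_),
    fun π ϖ m u hπ hϖ hu => ?_⟩
  · have := hspec (C 1728 * X ^ N - 1) (by
      rw [hj] at h
      simp [h, map_ofNat])
    simp [hl0, zero_pow hN.ne', map_ofNat] at this
  · split_ifs with h0
    · exact RatCover.dvd_multiplicity hθ hN.ne' one_ne_zero
        (show r.P - C 0 * r.Q = C 1 * X ^ N by simp [r]) (by rw [h0, Int.cast_zero]) hπ hϖ hu
    · exact one_dvd _

end Fermat.Agent.IgusaGenus
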