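import Mathlib
import Fermat.Agent.IgusaGenus.CoverRing

/-!
# The local ring of the `X`-line

The local ring of the `X`-line over `k`, and determinants of polynomials in the companion matrix.
-/

set_option autoImplicit false

noncomputable section

open Polynomial

namespace Fermat.Agent.IgusaGenus

section LRing

variable {k : Type*} [Field k]

/-- The prime ideal of `c` in `k[X]`. -/
def lIdeal (c : k) : Ideal k[X] := RingHom.ker (evalRingHom c)

instance (c : k) : (lIdeal c).IsPrime := RingHom.ker_isPrime _

/-- The local ring of `k[X]` at `c`. -/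
abbrev LRing (c : k) := Localization.AtPrime (lIdeal c)

/-- Evaluation at `c`. -/
def evalL (c : k) : LRing c →+* k :=
  IsLocalization.lift (M := (lIdeal c).primeCompl) (S := LRing c) (g := evalRingHom c)
    fun g => isUnit_iff_ne_zero.2 g.2

theorem evalL_algebraMap (c : k) (g : k[X]) : evalL c (algebraMap k[X] (LRing c) g) = g.eval c :=
  IsLocalization.lift_eq _ g

theorem isUnit_of_evalL_ne_zero (c : k) {z : LRing c} (h : evalL c z ≠ 0) : IsUnit z := by
  obtain ⟨a, s, rfl⟩ := IsLocalization.exists_mk'_eq (lIdeal c).primeCompl z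
  rw [IsLocalization.AtPrime.isUnit_mk'_iff (LRing c) (lIdeal c) a s]
  intro ha
  apply h
  rw [evalL, IsLocalization.lift_mk'_spec, mul_zero]
  exact ha

/-- The uniformiser. -/
def uL (c : k) : LRing c := algebraMap k[X] (LRing c) (X - C c)

/-- Reduction of integer polynomials, extended to the local rings. -/
def tau (c : k) : KRing c →+* LRing c :=
  IsLocalization.lift (M := (kIdeal c).primeCompl) (S := KRing c)
    (g := (algebraMap k[X] (LRing c)).comp (mapRingHom (Int.castRingHom k))) fun g =>
    IsLocalization.map_units (LRing c) (⟨(g : ℤ[X]).map (Int.castRingHom k), fun h => g.2 (by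
      have h' : ((g : ℤ[X]).map (Int.castRingHom k)).eval c = 0 := h
      rw [eval_map] at h'
      change aeval c (g : ℤ[X]) = 0
      rw [aeval_def, RingHom.ext_int (algebraMap ℤ k) (Int.castRingHom k)]
      exact h')⟩ : (lIdeal c).primeCompl)

theorem tau_algebraMap (c : k) (g : ℤ[X]) :
    tau c (algebraMap ℤ[X] (KRing c) g) = algebraMap k[X] (LRing c) (g.map (Int.castRingHom k)) :=
  IsLocalization.lift_eq _ g

theorem evalL_tau (c : k) (z : KRing c) : evalL c (tau c z) = evalK c z := by
  have h : (evalL c).comp (tau c) = evalK c := IsLocalization.ringHom_ext (kIdeal c).primeCompl (by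
    ext g <;> simp [tau_algebraMap, evalL_algebraMap, evalK_algebraMap])
  exact congrArg (fun f : KRing c →+* k => f z) h

end LRing

namespace RatCover

variable (r : RatCover) {k : Type*} [Field k] {c : k}

theorem coord_xr (h : r.GoodAt c) (j : Fin r.d) :
    ∃ a : Fin r.d → KRing c, r.xr * r.xr ^ (j : ℕ) = ∑ i, a i • r.xr ^ (i : ℕ) := by
  have hmem : r.xr * r.xr ^ (j : ℕ) ∈
      Submodule.span (KRing c) (Set.range fun i : Fin r.d => r.xr ^ (i : ℕ)) := by
    rw [← r.adjoin_toSubmodule_eq_span (KRing c) h.isUnit_lead, Subalgebra.mem_toSubmodule]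
    exact mul_mem (Algebra.self_mem_adjoin_singleton _ _)
      (pow_mem (Algebra.self_mem_adjoin_singleton _ _) _)
  obtain ⟨a, ha⟩ := (Submodule.mem_span_range_iff_exists_fun _).1 hmem
  exact ⟨a, ha.symm⟩

/-- The matrix of multiplication by `x` in the power basis, with entries in the local ring. -/
def companion (h : r.GoodAt c) : Matrix (Fin r.d) (Fin r.d) (KRing c) :=
  Matrix.of fun i j => (r.coord_xr h j).choose i

theorem companion_map (h : r.GoodAt c) :
    (r.companion h).map (algebraMap (KRing c) BaseK) = Algebra.leftMulMatrix r.powBasis r.xr := by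
  ext i j
  have hspec := (r.coord_xr h j).choose_spec
  change algebraMap (KRing c) BaseK ((r.coord_xr h j).choose i) = _
  generalize (r.coord_xr h j).choose = a at hspec ⊢
  rw [Algebra.leftMulMatrix_eq_repr_mul, powBasis_apply, hspec]
  simp only [map_sum, Finsupp.coe_finsetSum, Finset.sum_apply]
  rw [Finset.sum_eq_single i]
  · rw [← algebraMap_smul BaseK (a i), ← powBasis_apply, map_smul,
      Finsupp.smul_apply, Module.Basis.repr_self, Finsupp.single_eq_same, smul_eq_mul, mul_one]
  · intro l _ hl
    rw [← algebraMap_smul BaseK (a l), ← powBasis_apply, map_smul,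
      Finsupp.smul_apply, Module.Basis.repr_self, Finsupp.single_eq_of_ne hl.symm, smul_zero]
  · simp

theorem aeval_companion_map (h : r.GoodAt c) (g : ℤ[X]) :
    (aeval (r.companion h) g).map (algebraMap (KRing c) BaseK) =
      Algebra.leftMulMatrix r.powBasis (r.polyX g) := by
  have hg : r.polyX g = Polynomial.eval₂ (Int.castRingHom r.Lr) r.xr g := by
    rw [polyX_eq_aeval, aeval_def]
    congr 1
  have h2 : Algebra.leftMulMatrix r.powBasis (r.polyX g) =
      (Algebra.leftMulMatrix r.powBasis).toRingHom (Polynomial.eval₂ (Int.castRingHom r.Lr) r.xr g) := by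
    rw [← hg]; rfl
  rw [h2, Polynomial.hom_eval₂, ← RingHom.mapMatrix_apply, aeval_def, Polynomial.hom_eval₂]
  congr 1
  · exact RingHom.ext_int _ _
  · exact r.companion_map h

theorem charpoly_companion (h : r.GoodAt c) :
    (r.companion h).charpoly = r.monicEqn (KRing c) h.isUnit_lead := by
  apply Polynomial.map_injective _ (IsFractionRing.injective (KRing c) BaseK)
  rw [← Matrix.charpoly_map, companion_map]
  set χ := (Algebra.leftMulMatrix r.powBasis r.xr).charpoly with hχdef
  set H := (r.monicEqn (KRing c) h.isUnit_lead).map (algebraMap (KRing c) BaseK) with hH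
  have hχ0 : aeval r.xr χ = 0 := by
    apply Algebra.leftMulMatrix_injective r.powBasis
    rw [map_zero, ← Polynomial.aeval_algHom_apply, hχdef, Matrix.aeval_self_charpoly]
  have hH0 : aeval r.xr H = 0 := by
    rw [hH, aeval_map_algebraMap, r.aeval_monicEqn]
  have hχm : χ.Monic := Matrix.charpoly_monic _
  have hHm : H.Monic := (r.monicEqn_monic _ _).map _
  have hχd : χ.natDegree = r.d := by
    rw [hχdef, Matrix.charpoly_natDegree_eq_dim, Fintype.card_fin]
  have hHd : H.natDegree = r.d := by
    refine le_antisymm (natDegree_map_le.trans (r.natDegree_monicEqn_le _ _)) ?_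
    by_contra hlt
    rw [not_le] at hlt
    have h1 := aeval_eq_sum_range' (R := BaseK) hlt r.xr
    rw [hH0] at h1
    have h2 := Fintype.linearIndependent_iff.1 r.linearIndependent_pow (fun i => H.coeff i) (by
      rw [Fin.sum_univ_eq_sum_range (fun i => H.coeff i • r.xr ^ i) r.d, ← h1]) ⟨_, hlt⟩
    exact one_ne_zero (hHm.coeff_natDegree.symm.trans h2)
  by_contra hne
  have hlt : (χ - H).natDegree < r.d := by
    have hd := Polynomial.degree_sub_lt_left (p := χ) (q := H)
      (by rw [degree_eq_natDegree hχm.ne_zero, degree_eq_natDegree hHm.ne_zero, hχd, hHd])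
      hχm.ne_zero (by rw [hχm.leadingCoeff, hHm.leadingCoeff])
    rw [natDegree_lt_iff_degree_lt (sub_ne_zero.2 hne)]
    exact hd.trans_le (degree_le_natDegree.trans (by rw [hχd]))
  have h1 := aeval_eq_sum_range' (R := BaseK) hlt r.xr
  rw [map_sub, hχ0, hH0, sub_zero] at h1
  apply sub_ne_zero.2 hne
  ext i
  by_cases hi : i < r.d
  · exact Fintype.linearIndependent_iff.1 r.linearIndependent_pow (fun i => (χ - H).coeff i) (by
      rw [Fin.sum_univ_eq_sum_range (fun i => (χ - H).coeff i • r.xr ^ i) r.d, ← h1]) ⟨i, hi⟩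
  · rw [coeff_eq_zero_of_natDegree_lt (lt_of_lt_of_le hlt (not_lt.1 hi)), coeff_zero]

/-- The companion matrix over the local ring of `k[X]`. -/
def companionL (h : r.GoodAt c) : Matrix (Fin r.d) (Fin r.d) (LRing c) :=
  (r.companion h).map (tau c)

theorem eqn_map (h : r.GoodAt c) {B : Type*} [CommRing B] (f : KRing c →+* B) :
    (r.eqn (KRing c)).map f = r.P.map (Int.castRingHom B) -
      C (f (algebraMap ℤ[X] (KRing c) X)) * r.Q.map (Int.castRingHom B) := by
  rw [eqn, Polynomial.map_sub, Polynomial.map_mul, Polynomial.map_C, Polynomial.map_map,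
    Polynomial.map_map]
  congr 3 <;> exact RingHom.ext_int _ _

variable [IsAlgClosed k]

/-- A polynomial without zeros over `c` acts invertibly; one with a simple zero at exactly one
point over `c` has determinant of order one. -/
theorem det_aeval_companionL (h : r.GoodAt c) :
    (∀ g : k[X], (∀ l ∈ r.roots c, g.eval l ≠ 0) →
      evalL c (aeval (r.companionL h) g).det ≠ 0) ∧
    ∀ l0 ∈ r.roots c, ∃ w : LRing c, evalL c w ≠ 0 ∧
      (aeval (r.companionL h) (X - C l0 : k[X])).det = uL c * w := by
  set Λ := r.companionL h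
  have hcp : Λ.charpoly = (r.monicEqn (KRing c) h.isUnit_lead).map (tau c) := by
    rw [show Λ = (r.companion h).map (tau c) from rfl, Matrix.charpoly_map, charpoly_companion]
  constructor
  · intro g hg
    let Λc : Matrix (Fin r.d) (Fin r.d) k := (evalL c).mapMatrix Λ
    have hdet : evalL c (aeval Λ g).det = (aeval Λc g).det := by
      rw [RingHom.map_det]
      congr 1
      have hA : ∀ a : k, (evalL c).mapMatrix (algebraMap k (Matrix (Fin r.d) (Fin r.d) (LRing c)) a) =
          algebraMap k (Matrix (Fin r.d) (Fin r.d) k) a := by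
        intro a
        ext i j
        rw [RingHom.mapMatrix_apply, Matrix.map_apply, Matrix.algebraMap_matrix_apply,
          Matrix.algebraMap_matrix_apply]
        split_ifs
        · rw [IsScalarTower.algebraMap_apply k k[X] (LRing c), evalL_algebraMap,
            Polynomial.algebraMap_eq, eval_C]
          rfl
        · rw [map_zero]
      rw [aeval_def, Polynomial.hom_eval₂, aeval_def]
      congr 1
      exact RingHom.ext hA
    rw [hdet]
    intro h0
    have hs : (0 : k) ∈ spectrum k (aeval Λc g) := by
      rw [spectrum.zero_mem_iff, Matrix.isUnit_iff_isUnit_det, h0]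
      exact not_isUnit_zero
    have : Nonempty (Fin r.d) := ⟨⟨0, r.d_pos⟩⟩
    rw [spectrum.map_polynomial_aeval_of_nonempty Λc g (spectrum.nonempty_of_isAlgClosed_of_finiteDimensional k Λc)] at hs
    obtain ⟨l, hl, hgl⟩ := hs
    refine hg l ?_ hgl
    have hroot : IsRoot Λc.charpoly l := Matrix.mem_spectrum_iff_isRoot_charpoly.1 hl
    rw [show Λc = Λ.map (evalL c) from rfl, Matrix.charpoly_map, hcp, Polynomial.map_map,
      monicEqn, Polynomial.map_mul, eqn_map r h] at hroot
    rw [IsRoot, eval_mul, mul_eq_zero] at hroot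
    rcases hroot with h1 | h1
    · simp only [Polynomial.map_C, eval_C] at h1
      exact absurd h1 (IsUnit.ne_zero ((Units.isUnit _).map _))
    · rw [RingHom.comp_apply, evalL_tau, evalK_algebraMap, aeval_X] at h1
      simp only [eval_sub, eval_mul, eval_C, eval_map] at h1
      rw [mem_roots, aeval_def, aeval_def, RingHom.ext_int (algebraMap ℤ k) (Int.castRingHom k)]
      exact sub_eq_zero.1 h1
  · intro l0 hl0
    have hd : (aeval Λ (X - C l0 : k[X])).det =
        (-1) ^ r.d * Λ.charpoly.eval (algebraMap k (LRing c) l0) := by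
      rw [map_sub, aeval_X, aeval_C, Matrix.eval_charpoly,
        show Λ - algebraMap k (Matrix (Fin r.d) (Fin r.d) (LRing c)) l0 =
          -(Matrix.scalar (Fin r.d) (algebraMap k (LRing c) l0) - Λ) by
          rw [neg_sub]; rfl,
        Matrix.det_neg, Fintype.card_fin]
    rw [hd, hcp, monicEqn, Polynomial.map_mul, eqn_map r h, eval_mul, tau_algebraMap, map_X]
    simp only [Polynomial.map_C, eval_C, eval_sub, eval_mul, eval_map]
    have hev : ∀ p : ℤ[X], p.eval₂ (Int.castRingHom (LRing c)) (algebraMap k (LRing c) l0) =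
        algebraMap k (LRing c) (aeval l0 p) := by
      intro p
      rw [aeval_def, Polynomial.hom_eval₂]
      congr 1
      exact RingHom.ext_int _ _
    rw [hev, hev]
    rw [mem_roots] at hl0
    rw [hl0]
    refine ⟨(-1) ^ r.d * (tau c (↑h.isUnit_lead.unit⁻¹ : KRing c)) *
      (-(algebraMap k (LRing c) (aeval l0 r.Q))), ?_, ?_⟩
    · rw [map_mul, map_mul, map_pow, map_neg, map_one, map_neg, evalL_tau,
        IsScalarTower.algebraMap_apply k k[X] (LRing c), evalL_algebraMap, Polynomial.algebraMap_eq,
        eval_C]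
      exact mul_ne_zero (mul_ne_zero (pow_ne_zero _ (neg_ne_zero.2 one_ne_zero))
        (IsUnit.ne_zero ((Units.isUnit _).map _))) (neg_ne_zero.2 (h.cop l0 hl0))
    · rw [uL, map_sub, map_mul (algebraMap k (LRing c)),
        show algebraMap k[X] (LRing c) (C c) = algebraMap k (LRing c) c from
          (IsScalarTower.algebraMap_apply k k[X] (LRing c) c).symm]
      ring

end RatCover

end Fermat.Agent.IgusaGenus
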