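import Mathlib
import Fermat.Agent.IgusaGenus.TraceForm
import Fermat.Agent.IgusaGenus.CoverRing

/-!
# Scaled multiplication matrices

Matrices attached to the coefficients of a polynomial, common denominators, and scaled
multiplication matrices.
-/

set_option autoImplicit false

noncomputable section

open Matrix Polynomial

namespace Fermat.Agent.IgusaGenus

/-- `Σ T^m φ(p_m)`. -/
def coeffMatrix {σ A B n : Type*} [CommRing A] [CommRing B] [Fintype n] [DecidableEq n]
    (p : MvPolynomial σ A) (φ : A → Matrix n n B) : Matrix n n (MvPolynomial σ B) :=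
  ∑ m ∈ p.support, Matrix.scalar n (MvPolynomial.monomial m (1 : B)) *
    (φ (p.coeff m)).map MvPolynomial.C

theorem coeffMatrix_eval {σ A B B' n : Type*} [CommRing A] [CommRing B] [CommRing B'] [Fintype n]
    [DecidableEq n] (p : MvPolynomial σ A) (φ : A → Matrix n n B) (f : B →+* B') (z : σ → B') :
    (coeffMatrix p φ).map (MvPolynomial.eval₂Hom f z) =
      ∑ m ∈ p.support, (m.prod fun i e => z i ^ e) • (φ (p.coeff m)).map f := by
  simp only [coeffMatrix, ← RingHom.mapMatrix_apply, map_sum, map_mul]
  refine Finset.sum_congr rfl fun m _ => ?_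
  ext i j
  simp [Matrix.diagonal_mul, MvPolynomial.eval₂_monomial]

theorem coeffMatrix_eval_hom {σ A B B' n : Type*} [CommRing A] [CommRing B] [CommRing B']
    [Fintype n] [DecidableEq n] (p : MvPolynomial σ A) (φ : A → Matrix n n B) (f : B →+* B')
    (z : σ → B') {A' : Type*} [CommRing A'] (g : A →+* A') (Φ : A' →+* Matrix n n B')
    (zA : σ → A') (hz : ∀ i, Φ (zA i) = algebraMap B' (Matrix n n B') (z i)) (s : B')
    (hφ : ∀ a, (φ a).map f = s • Φ (g a)) :
    (coeffMatrix p φ).map (MvPolynomial.eval₂Hom f z) = s • Φ (MvPolynomial.eval₂ g zA p) := by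
  rw [coeffMatrix_eval, MvPolynomial.eval₂_eq, map_sum, Finset.smul_sum]
  refine Finset.sum_congr rfl fun m _ => ?_
  have hprod : ∀ t : Finset σ, Φ (∏ i ∈ t, zA i ^ m i) =
      algebraMap B' (Matrix n n B') (∏ i ∈ t, z i ^ m i) := by
    classical
    intro t
    induction t using Finset.induction with
    | empty => simp
    | insert i t hi ih => rw [Finset.prod_insert hi, Finset.prod_insert hi, map_mul, map_mul, ih,
        map_pow, map_pow, hz]
  rw [map_mul, hφ, hprod, smul_comm]
  congr 1
  rw [← Algebra.commutes, ← Algebra.smul_def]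
  rfl

/-- A finite family in the cover ring has a common denominator. -/
theorem RatCover.GoodAt.exists_common_den {r : RatCover} {k : Type*} [Field k] [IsAlgClosed k] {c : k}
    (h : r.GoodAt c) {ι : Type*} [Fintype ι] (a : ι → r.cover c) :
    ∃ (g : ℤ[X]) (num : ι → ℤ[X]), g ∈ r.coverCompl c ∧
      ∀ i, a i * r.polyA c g = r.polyA c (num i) := by
  classical
  choose nu de hde he using fun i => h.exists_num_den (a i)
  refine ⟨∏ i, de i, fun i => nu i * ∏ j ∈ Finset.univ.erase i, de j,
    Submonoid.prod_mem _ fun i _ => hde i, fun i => ?_⟩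
  rw [map_mul (r.polyA c) (nu i), ← he, mul_assoc, ← map_mul,
    Finset.mul_prod_erase _ _ (Finset.mem_univ i)]

section Scaled

variable {R K F : Type*} [CommRing R] [IsDomain R] [IsIntegrallyClosed R] [Field K] [Algebra R K]
  [IsFractionRing R K] [Field F] [Algebra K F] [Algebra R F] [IsScalarTower R K F]
  {n : Type*} [Fintype n] [DecidableEq n] (b : Module.Basis n K F)

theorem exists_scaledMatrix (hb : ∀ i, IsIntegral R (b i)) {δ : R}
    (hδ : algebraMap R K δ = Algebra.discr K b) (x : integralClosure R F) :
    ∃ A : Matrix n n R,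
      A.map (algebraMap R K) = algebraMap R K δ • Algebra.leftMulMatrix b (x : F) := by
  have h : ∀ i j, ∃ a : R, algebraMap R K a = algebraMap R K δ * b.repr ((x : F) * b j) i :=
    fun i j => IsIntegrallyClosed.isIntegral_iff.1
      (hδ ▸ isIntegral_discr_mul_repr b hb (x.2.mul (hb j)) i)
  choose A hA using h
  refine ⟨Matrix.of A, ?_⟩
  ext i j
  simp [hA, Algebra.leftMulMatrix_eq_repr_mul]

/-- The multiplication matrix scaled by the discriminant. -/
def scaledMatrix (hb : ∀ i, IsIntegral R (b i)) {δ : R}
    (hδ : algebraMap R K δ = Algebra.discr K b) (x : integralClosure R F) : Matrix n n R :=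
  (exists_scaledMatrix b hb hδ x).choose

theorem scaledMatrix_map (hb : ∀ i, IsIntegral R (b i)) {δ : R}
    (hδ : algebraMap R K δ = Algebra.discr K b) (x : integralClosure R F) :
    (scaledMatrix b hb hδ x).map (algebraMap R K) =
      algebraMap R K δ • Algebra.leftMulMatrix b (x : F) :=
  (exists_scaledMatrix b hb hδ x).choose_spec

/-- Multiplication by `x` in terms of the scaled matrix, in the integral closure. -/
theorem scaledMatrix_spec (hb : ∀ i, IsIntegral R (b i)) {δ : R}
    (hδ : algebraMap R K δ = Algebra.discr K b) (x : integralClosure R F) (j : n) :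
    algebraMap R (integralClosure R F) δ * x * ⟨b j, hb j⟩ =
      ∑ i, algebraMap R (integralClosure R F) (scaledMatrix b hb hδ x i j) * ⟨b i, hb i⟩ := by
  apply Subtype.ext
  rw [Subalgebra.coe_mul, Subalgebra.coe_mul, AddSubmonoidClass.coe_finsetSum]
  simp only [Subalgebra.coe_mul, Subalgebra.coe_algebraMap]
  rw [mul_assoc, IsScalarTower.algebraMap_apply R K F, ← Algebra.smul_def]
  conv_lhs => rw [← b.sum_repr ((x : F) * b j), Finset.smul_sum]
  refine Finset.sum_congr rfl fun i _ => ?_
  rw [IsScalarTower.algebraMap_apply R K F, ← Algebra.smul_def, smul_smul]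
  congr 1
  have := congrFun (congrFun (scaledMatrix_map b hb hδ x) i) j
  simpa [Algebra.leftMulMatrix_eq_repr_mul] using this.symm

end Scaled

end Fermat.Agent.IgusaGenus
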