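import Mathlib
import Fermat.Agent.IgusaGenus.ScaledMatrix
import Fermat.Agent.IgusaGenus.KLine

/-!
# Discriminants under reduction

Multiplication matrices, traces and the discriminant under reduction modulo `ℓ`.
-/

set_option autoImplicit false

noncomputable section

open Polynomial Matrix

namespace Fermat.Agent.IgusaGenus

theorem exists_pow_mul_of_map_ne_zero {k : Type*} [Field k] {ℓ : ℕ} [Fact ℓ.Prime] [CharP k ℓ]
    {g : ℤ[X]} (hg : g ≠ 0) :
    ∃ (v : ℕ) (D : ℤ[X]), g = C (ℓ : ℤ) ^ v * D ∧ D.map (Int.castRingHom k) ≠ 0 := by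
  have hp : Prime (C (ℓ : ℤ) : ℤ[X]) :=
    Polynomial.prime_C_iff.2 (Nat.prime_iff_prime_int.1 (Fact.out : ℓ.Prime))
  obtain ⟨v, D, hD, rfl⟩ := WfDvdMonoid.max_power_factor hg hp.irreducible
  refine ⟨v, D, rfl, fun h => hD ?_⟩
  rw [C_dvd_iff_dvd_coeff]
  intro i
  have hi := congrArg (fun p => p.coeff i) h
  rw [coeff_map, coeff_zero] at hi
  exact (CharP.intCast_eq_zero_iff k ℓ _).1 hi

variable {k : Type*} [Field k] {ℓ : ℕ} [Fact ℓ.Prime] [CharP k ℓ]
variable {F : Type*} [Field F] [CharZero F] [Algebra BaseK F] [Algebra ℤ[X] F]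
  [IsScalarTower ℤ[X] BaseK F] [FiniteDimensional BaseK F]
variable {K1 Fk : Type*} [Field K1] [Field Fk] [Algebra K1 Fk]
variable {n : ℕ} (b : Module.Basis (Fin n) BaseK F) (hb : ∀ i, IsIntegral ℤ[X] (b i))
  (red : integralClosure ℤ[X] F →+* Fk) (κ : k[X] →+* K1)
  (hred : ∀ g : ℤ[X], red (algebraMap ℤ[X] (integralClosure ℤ[X] F) g) =
    algebraMap K1 Fk (κ (g.map (Int.castRingHom k))))
  (e : Module.Basis (Fin n) K1 Fk) (he : ∀ i, e i = red ⟨b i, hb i⟩)

include hb in
omit [CharZero F] in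
theorem exists_discr_intPoly : ∃ δ : ℤ[X], algebraMap ℤ[X] BaseK δ = Algebra.discr BaseK b :=
  IsIntegrallyClosed.isIntegral_iff.1 (Algebra.discr_isIntegral BaseK hb)

include hred he in
omit [CharZero F] [FiniteDimensional BaseK F] [Fact ℓ.Prime] [CharP k ℓ]
  [IsScalarTower ℤ[X] BaseK F] in
/-- An integral multiplication relation reduces to the multiplication matrix. -/
theorem leftMulMatrix_red {D : ℤ[X]} {S : Matrix (Fin n) (Fin n) ℤ[X]}
    {y : integralClosure ℤ[X] F}
    (h : ∀ j, algebraMap ℤ[X] (integralClosure ℤ[X] F) D * y * ⟨b j, hb j⟩ =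
      ∑ i, algebraMap ℤ[X] (integralClosure ℤ[X] F) (S i j) * ⟨b i, hb i⟩) :
    κ (D.map (Int.castRingHom k)) • Algebra.leftMulMatrix e (red y) =
      S.map fun p => κ (p.map (Int.castRingHom k)) := by
  ext i j
  have h1 := congrArg red (h j)
  rw [map_mul, map_mul, hred, map_sum] at h1
  simp only [map_mul, hred, ← he] at h1
  rw [Matrix.smul_apply, Matrix.map_apply, Algebra.leftMulMatrix_eq_repr_mul,
    ← Finsupp.smul_apply, ← map_smul, Algebra.smul_def, ← mul_assoc, h1]
  rw [show ∑ x, algebraMap K1 Fk (κ ((S x j).map (Int.castRingHom k))) * e x =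
      ∑ x, κ ((S x j).map (Int.castRingHom k)) • e x from
    Finset.sum_congr rfl fun x _ => (Algebra.smul_def _ _).symm]
  rw [e.repr_sum_self]

variable (hκ : Function.Injective κ)

include hred he hκ ℓ in
omit [FiniteDimensional BaseK F] in
/-- Remove powers of `ℓ` from an integral multiplication relation. -/
theorem exists_matrix_red {y : integralClosure ℤ[X] F} (D : ℤ[X]) :
    ∀ (v : ℕ) (S : Matrix (Fin n) (Fin n) ℤ[X]),
    (∀ j, algebraMap ℤ[X] (integralClosure ℤ[X] F) (C (ℓ : ℤ) ^ v * D) * y * ⟨b j, hb j⟩ =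
      ∑ i, algebraMap ℤ[X] (integralClosure ℤ[X] F) (S i j) * ⟨b i, hb i⟩) →
    ∃ S' : Matrix (Fin n) (Fin n) ℤ[X],
      ∀ j, algebraMap ℤ[X] (integralClosure ℤ[X] F) D * y * ⟨b j, hb j⟩ =
        ∑ i, algebraMap ℤ[X] (integralClosure ℤ[X] F) (S' i j) * ⟨b i, hb i⟩ := by
  intro v
  induction v with
  | zero => exact fun S h => ⟨S, by simpa using h⟩
  | succ v ih =>
    intro S h
    have h0 := leftMulMatrix_red (k := k) b hb red κ hred e he h
    have hz : ((C (ℓ : ℤ) ^ (v + 1) * D).map (Int.castRingHom k)) = 0 := by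
      simp [Polynomial.map_mul, Polynomial.map_pow]
    rw [hz, map_zero, zero_smul] at h0
    have hdvd : ∀ i j, C (ℓ : ℤ) ∣ S i j := by
      intro i j
      have h1 : (S i j).map (Int.castRingHom k) = 0 :=
        hκ (by rw [map_zero]; exact (congrFun (congrFun h0 i) j).symm)
      rw [C_dvd_iff_dvd_coeff]
      intro l
      have hl := congrArg (fun p => p.coeff l) h1
      rw [coeff_map, coeff_zero] at hl
      exact (CharP.intCast_eq_zero_iff k ℓ _).1 hl
    choose S1 hS1 using hdvd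
    refine ih (Matrix.of S1) fun j => ?_
    have hl0 : algebraMap ℤ[X] (integralClosure ℤ[X] F) (C (ℓ : ℤ)) ≠ 0 := fun hh => by
      have := congrArg Subtype.val hh
      rw [Subalgebra.coe_algebraMap] at this
      simp only [map_natCast, ZeroMemClass.coe_zero] at this
      exact (Fact.out : ℓ.Prime).ne_zero (Nat.cast_eq_zero.1 this)
    apply mul_left_cancel₀ hl0
    rw [← mul_assoc, ← mul_assoc, ← map_mul, ← mul_assoc (C (ℓ : ℤ)), ← pow_succ', Finset.mul_sum]
    rw [h j]
    exact Finset.sum_congr rfl fun i _ => by rw [← mul_assoc, ← map_mul, Matrix.of_apply, ← hS1]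

omit [CharZero F] [FiniteDimensional BaseK F] [Fact ℓ.Prime] [CharP k ℓ] in
theorem map_algebraMap_of_rel {D : ℤ[X]} {S : Matrix (Fin n) (Fin n) ℤ[X]}
    {y : integralClosure ℤ[X] F}
    (h : ∀ j, algebraMap ℤ[X] (integralClosure ℤ[X] F) D * y * ⟨b j, hb j⟩ =
      ∑ i, algebraMap ℤ[X] (integralClosure ℤ[X] F) (S i j) * ⟨b i, hb i⟩) :
    algebraMap ℤ[X] BaseK D • Algebra.leftMulMatrix b (y : F) =
      S.map (algebraMap ℤ[X] BaseK) := by
  ext i j
  have h1 := congrArg Subtype.val (h j)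
  rw [Subalgebra.coe_mul, Subalgebra.coe_mul, AddSubmonoidClass.coe_finsetSum] at h1
  simp only [MulMemClass.coe_mul, Subalgebra.coe_algebraMap] at h1
  simp only [IsScalarTower.algebraMap_apply ℤ[X] BaseK F, ← Algebra.smul_def] at h1
  rw [smul_mul_assoc] at h1
  rw [Matrix.smul_apply, Matrix.map_apply, Algebra.leftMulMatrix_eq_repr_mul,
    ← Finsupp.smul_apply, ← map_smul, h1, b.repr_sum_self]

include hred he hκ ℓ in
/-- Traces commute with reduction. -/
theorem trace_red {δ : ℤ[X]} (hδ : algebraMap ℤ[X] BaseK δ = Algebra.discr BaseK b) (hδ0 : δ ≠ 0)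
    {y : integralClosure ℤ[X] F} {t : ℤ[X]}
    (ht : algebraMap ℤ[X] BaseK t = Algebra.trace BaseK F (y : F)) :
    Algebra.trace K1 Fk (red y) = κ (t.map (Int.castRingHom k)) := by
  obtain ⟨v, D, hvD, hD⟩ := exists_pow_mul_of_map_ne_zero (k := k) (ℓ := ℓ) hδ0
  obtain ⟨S, hS⟩ := exists_matrix_red (k := k) b hb red κ hred e he hκ (ℓ := ℓ) D v
    (scaledMatrix b hb hδ y) (fun j => by rw [← hvD]; exact scaledMatrix_spec b hb hδ y j)
  have h1 := congrArg Matrix.trace (leftMulMatrix_red (k := k) b hb red κ hred e he hS)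
  have h2 := congrArg Matrix.trace (map_algebraMap_of_rel b hb hS)
  rw [Matrix.trace_smul, ← Algebra.trace_eq_matrix_trace, ← ht, smul_eq_mul,
    ← AddMonoidHom.map_trace, ← map_mul] at h2
  rw [Matrix.trace_smul, ← Algebra.trace_eq_matrix_trace, smul_eq_mul] at h1
  have h3 : D * t = S.trace := IsFractionRing.injective ℤ[X] BaseK h2
  have hD' : κ (D.map (Int.castRingHom k)) ≠ 0 := (map_ne_zero_iff κ hκ).2 hD
  apply mul_left_cancel₀ hD'
  rw [h1, ← map_mul, ← Polynomial.map_mul, h3]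
  exact (AddMonoidHom.map_trace (κ.comp (mapRingHom (Int.castRingHom k))).toAddMonoidHom S).symm

include hred he hκ ℓ in
/-- The discriminant reduces to the discriminant. -/
theorem discr_red {δ : ℤ[X]} (hδ : algebraMap ℤ[X] BaseK δ = Algebra.discr BaseK b) :
    Algebra.discr K1 e = κ (δ.map (Int.castRingHom k)) := by
  have := Algebra.IsSeparable.of_integral BaseK F
  have hδ0 : δ ≠ 0 := fun h => Algebra.discr_not_zero_of_basis BaseK b (by rw [← hδ, h, map_zero])
  have ht : ∀ i j, ∃ t : ℤ[X],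
      algebraMap ℤ[X] BaseK t = Algebra.trace BaseK F (b i * b j) := fun i j =>
    IsIntegrallyClosed.isIntegral_iff.1 (Algebra.isIntegral_trace ((hb i).mul (hb j)))
  choose t ht using ht
  have hdet : δ = (Matrix.of t).det := IsFractionRing.injective ℤ[X] BaseK (by
    rw [hδ, Algebra.discr_def, RingHom.map_det]
    congr 1
    ext i j
    simp [ht, Algebra.traceMatrix_apply, Algebra.traceForm_apply])
  rw [hdet, ← Polynomial.coe_mapRingHom, RingHom.map_det, RingHom.map_det, Algebra.discr_def]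
  congr 1
  ext i j
  rw [Algebra.traceMatrix_apply, Algebra.traceForm_apply, he, he, ← map_mul,
    trace_red (k := k) b hb red κ hred e he hκ (ℓ := ℓ) hδ hδ0
      (y := ⟨b i, hb i⟩ * ⟨b j, hb j⟩) (t := t i j) (by rw [ht]; rfl)]
  simp

end Fermat.Agent.IgusaGenus
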