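import Mathlib
import Fermat.Agent.IgusaGenus.TraceForm

/-!
# The fibre of a free algebra with unit discriminant

The fibre of a free algebra with unit discriminant at a point: a combination of basis vectors
vanishing exactly at one point, in diagonal form.
-/

set_option autoImplicit false

noncomputable section

open Matrix TensorProduct

namespace Fermat.Agent.IgusaGenus

/-- At a point of a free algebra with unit discriminant over the point below, some combination of
basis vectors acts as `diag (0, 1, …, 1)` in a suitable basis, and vanishes at the point. -/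
theorem exists_vanishing_combination {A C k : Type*} [CommRing A] [CommRing C] [Algebra A C]
    [Field k] {n : Type*} [Fintype n] [DecidableEq n] (e : Module.Basis n A C) (φ : A →+* k)
    (ψ : C →+* k) (hψ : ψ.comp (algebraMap A C) = φ) (hd : φ (Algebra.discr A e) ≠ 0) :
    ∃ (f : n → k) (Q Q' : Matrix n n k) (i0 : n), Q' * Q = 1 ∧
      ∑ i, f i * ψ (e i) = 0 ∧
      Q' * (∑ i, f i • (Algebra.leftMulMatrix e (e i)).map φ) * Q =
        Matrix.diagonal fun i => if i = i0 then 0 else 1 := by
  classical
  let : Algebra A k := φ.toAlgebra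
  have : Module.Free A C := Module.Free.of_basis e
  have : Module.Finite A C := Module.Finite.of_basis e
  let E0 := k ⊗[A] C
  let bk : Module.Basis n k E0 := Algebra.TensorProduct.basis k e
  have : Module.Finite k E0 := Module.Finite.of_basis bk
  let ψA : C →ₐ[A] k := { ψ with commutes' := fun a => congrArg (fun g : A →+* k => g a) hψ }
  let ψ0 : E0 →ₐ[k] k := Algebra.TensorProduct.lift (Algebra.ofId k k) ψA fun _ _ => Commute.all _ _
  have hbk : ∀ i, bk i = (1 : k) ⊗ₜ[A] e i := fun i => Algebra.TensorProduct.basis_apply e i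
  have hψ0 : ∀ i, ψ0 (bk i) = ψ (e i) := fun i => by
    rw [hbk]
    simp only [ψ0]
    rw [Algebra.TensorProduct.lift_tmul, map_one, one_mul]
    rfl
  have hlm : ∀ i, Algebra.leftMulMatrix bk (bk i) = (Algebra.leftMulMatrix e (e i)).map φ := by
    intro i
    ext p q
    rw [Matrix.map_apply, Algebra.leftMulMatrix_eq_repr_mul, Algebra.leftMulMatrix_eq_repr_mul]
    rw [hbk, hbk, Algebra.TensorProduct.tmul_mul_tmul, mul_one]
    simp only [bk]
    rw [Algebra.TensorProduct.basis_repr_tmul]
    simp [RingHom.algebraMap_toAlgebra]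
  have hdisc : Algebra.discr k bk ≠ 0 := by
    suffices h : Algebra.discr k bk = φ (Algebra.discr A e) by rwa [h]
    rw [Algebra.discr_def, Algebra.discr_def, RingHom.map_det]
    congr 1
    ext p q
    rw [RingHom.mapMatrix_apply, Matrix.map_apply, Algebra.traceMatrix_apply,
      Algebra.traceMatrix_apply, Algebra.traceForm_apply, Algebra.traceForm_apply]
    rw [hbk, hbk, Algebra.TensorProduct.tmul_mul_tmul, mul_one]
    rw [Algebra.trace_apply, ← Algebra.baseChange_lmul, LinearMap.trace_baseChange]
    rfl
  have := isReduced_of_discr_ne_zero bk hdisc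
  obtain ⟨ep, hidem, hψe, hxe⟩ := exists_point_idempotent ψ0
  let f : n → k := fun i => bk.repr (1 - ep) i
  have hsum : ∑ i, f i • bk i = 1 - ep := bk.sum_repr _
  have hF : ∑ i, f i • (Algebra.leftMulMatrix e (e i)).map φ = Algebra.leftMulMatrix bk (1 - ep) := by
    rw [← hsum, map_sum]
    simp only [map_smul, hlm]
  -- the adapted basis
  have hep0 : ep ≠ 0 := fun h => one_ne_zero (α := k) (by rw [← hψe, h, map_zero])
  let W : Submodule k E0 := LinearMap.ker ψ0.toLinearMap
  have hcompl : IsCompl (k ∙ ep) W := by
    constructor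
    · rw [Submodule.disjoint_def]
      intro x hx hxW
      obtain ⟨a, rfl⟩ := Submodule.mem_span_singleton.1 hx
      have : ψ0 (a • ep) = 0 := hxW
      rw [map_smul, hψe, smul_eq_mul, mul_one] at this
      rw [this, zero_smul]
    · refine codisjoint_iff.2 (eq_top_iff.2 fun x _ => Submodule.mem_sup.2
        ⟨ψ0 x • ep, Submodule.smul_mem _ _ (Submodule.mem_span_singleton_self ep), x - ψ0 x • ep, ?_,
          add_sub_cancel _ _⟩)
      change ψ0 (x - ψ0 x • ep) = 0
      rw [map_sub, map_smul, hψe, smul_eq_mul, mul_one, sub_self]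
  let bW := Module.finBasis k W
  let bc : Module.Basis (Fin 1 ⊕ Fin (Module.finrank k W)) k E0 :=
    ((Module.Basis.singleton (Fin 1) k).map (LinearEquiv.toSpanNonzeroSingleton k E0 ep hep0) |>.prod
      bW).map (Submodule.prodEquivOfIsCompl _ W hcompl)
  let σ := bc.indexEquiv bk
  let b' := bc.reindex σ
  let i0 := σ (Sum.inl 0)
  refine ⟨f, bk.toMatrix b', b'.toMatrix bk, i0, Module.Basis.toMatrix_mul_toMatrix_flip b' bk, ?_, ?_⟩
  · have := congrArg ψ0 hsum
    simpa [hψe, hψ0] using this
  rw [hF]
  have hconj : b'.toMatrix bk * Algebra.leftMulMatrix bk (1 - ep) * bk.toMatrix b' =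
      Algebra.leftMulMatrix b' (1 - ep) := by
    simp only [Algebra.leftMulMatrix_apply]
    exact basis_toMatrix_mul_linearMap_toMatrix_mul_basis_toMatrix b' bk b' bk _
  rw [hconj]
  have hact : ∀ s, (1 - ep) * bc s = if s = Sum.inl 0 then 0 else bc s := by
    rintro (a | w)
    · have ha : a = 0 := Subsingleton.elim _ _
      subst ha
      have h1 : bc (Sum.inl 0) = ep := by
        simp [bc, LinearEquiv.toSpanNonzeroSingleton_apply]
      rw [if_pos rfl, h1, sub_mul, one_mul, hidem.eq, sub_self]
    · have h1 : bc (Sum.inr w) = (bW w : E0) := by simp [bc]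
      have h2 : ψ0 (bW w : E0) = 0 := (bW w).2
      rw [if_neg (by simp), h1, sub_mul, one_mul, mul_comm, hxe, h2, zero_smul, sub_zero]
  ext p q
  rw [Algebra.leftMulMatrix_eq_repr_mul, Matrix.diagonal_apply]
  have hq : b' q = bc (σ.symm q) := by simp [b']
  rw [hq, hact]
  by_cases hq0 : σ.symm q = Sum.inl 0
  · have : q = i0 := by simp [i0, ← hq0]
    subst this
    rw [if_pos hq0]
    simp +contextual
  · have : q ≠ i0 := fun h => hq0 (by simp [h, i0])
    rw [if_neg hq0, ← hq, Module.Basis.repr_self]
    by_cases hpq : p = q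
    · subst hpq
      simp [this]
    · simp [hpq]

end Fermat.Agent.IgusaGenus
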