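import Mathlib
import Fermat.Agent.IgusaGenus.DetLemmas
import Fermat.Agent.IgusaGenus.Extend

/-!
# Norms of generic combinations

The norm of a generic linear combination of integral elements: integral coefficients, and vanishing
at the points where the combination vanishes.
-/

set_option autoImplicit false

noncomputable section

open Matrix

namespace Fermat.Agent.IgusaGenus

attribute [local instance] MvPolynomial.algebraMvPolynomial

variable {σ : Type*} [Fintype σ] {n : Type*} [Fintype n] [DecidableEq n]

/-- `Σ T_a M_a`. -/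
def genMatrix {A : Type*} [CommRing A] (M : σ → Matrix n n A) : Matrix n n (MvPolynomial σ A) :=
  ∑ a, Matrix.scalar n (MvPolynomial.X a) * (M a).map MvPolynomial.C

theorem genMatrix_map {A B : Type*} [CommRing A] [CommRing B] (f : A →+* B)
    (M : σ → Matrix n n A) :
    (genMatrix M).map (MvPolynomial.map f) = genMatrix fun a => (M a).map f := by
  simp only [genMatrix, ← RingHom.mapMatrix_apply, map_sum, map_mul]
  refine Finset.sum_congr rfl fun a _ => ?_
  congr 1
  · ext i j
    simp [Matrix.diagonal_apply, apply_ite (MvPolynomial.map f)]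
  · ext i j
    simp

theorem genMatrix_eval {A : Type*} [CommRing A] (M : σ → Matrix n n A) (z : σ → A) :
    (genMatrix M).map (MvPolynomial.eval z) = ∑ a, z a • M a := by
  simp only [genMatrix, ← RingHom.mapMatrix_apply, map_sum, map_mul]
  refine Finset.sum_congr rfl fun a _ => ?_
  ext i j
  simp [Matrix.diagonal_mul]

theorem det_genMatrix_eval {A : Type*} [CommRing A] (M : σ → Matrix n n A) (z : σ → A) :
    MvPolynomial.eval z (genMatrix M).det = (∑ a, z a • M a).det := by
  rw [RingHom.map_det, RingHom.mapMatrix_apply, genMatrix_eval]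

section

variable {R Ω : Type*} [CommRing R] [Field Ω] [Algebra R Ω]

theorem isIntegral_charpoly_genMatrix (M : σ → Matrix n n Ω) (hM : ∀ a, IsIntegral R (M a))
    (hcomm : ∀ a b, M a * M b = M b * M a) (i : ℕ) (m : σ →₀ ℕ) :
    IsIntegral R (((genMatrix M).charpoly.coeff i).coeff m) := by
  classical
  let P := MvPolynomial σ Ω
  let FΩ := FractionRing P
  have hX : ∀ a, IsIntegral (MvPolynomial σ R) (Matrix.scalar n (MvPolynomial.X a : P)) := by
    intro a
    have h : (Matrix.scalar n (MvPolynomial.X a : P)) =
        algebraMap (MvPolynomial σ R) (Matrix n n P) (MvPolynomial.X a) := by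
      rw [IsScalarTower.algebraMap_apply (MvPolynomial σ R) P (Matrix n n P)]
      simp [Matrix.algebraMap_eq_diagonal, Pi.algebraMap_def]
      exact fun _ => (MvPolynomial.map_X _ _).symm
    rw [h]
    exact isIntegral_algebraMap
  have hC : ∀ a, IsIntegral (MvPolynomial σ R) ((M a).map (MvPolynomial.C : Ω →+* P)) := by
    intro a
    obtain ⟨p, hp, hpa⟩ := hM a
    refine ⟨p.map MvPolynomial.C, hp.map _, ?_⟩
    rw [Polynomial.eval₂_map]
    have hcomp : (algebraMap (MvPolynomial σ R) (Matrix n n P)).comp MvPolynomial.C =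
        ((MvPolynomial.C : Ω →+* P).mapMatrix).comp (algebraMap R (Matrix n n Ω)) := by
      refine RingHom.ext fun t => ?_
      rw [RingHom.comp_apply, RingHom.comp_apply,
        IsScalarTower.algebraMap_apply (MvPolynomial σ R) P (Matrix n n P), RingHom.mapMatrix_apply]
      simp [Matrix.algebraMap_eq_diagonal, Pi.algebraMap_def, Matrix.diagonal_map]
      exact fun _ => MvPolynomial.map_C _ _
    rw [hcomp, ← RingHom.mapMatrix_apply, ← Polynomial.hom_eval₂, hpa, map_zero]
  have hG : IsIntegral (MvPolynomial σ R) (genMatrix M) := by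
    refine isIntegral_sum_mul_of_commute _ _ _ hX hC ?_
    rintro a ha b hb
    rcases ha with ⟨a, rfl⟩ | ⟨a, rfl⟩
    · exact (Matrix.scalar_commute _ (Commute.all _) b).eq
    · rcases hb with ⟨b, rfl⟩ | ⟨b, rfl⟩
      · exact ((Matrix.scalar_commute _ (Commute.all _) _).eq).symm
      · simp only [← RingHom.mapMatrix_apply, ← map_mul, hcomm]
  have h1 := isIntegral_charpoly_coeff (R := MvPolynomial σ R) (K := FΩ)
    (hG.map ((IsScalarTower.toAlgHom (MvPolynomial σ R) P FΩ).mapMatrix)) i
  rw [AlgHom.mapMatrix_apply] at h1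
  have h2 : ((genMatrix M).map (IsScalarTower.toAlgHom (MvPolynomial σ R) P FΩ)).charpoly =
      (genMatrix M).charpoly.map (algebraMap P FΩ) :=
    Matrix.charpoly_map (genMatrix M) (algebraMap P FΩ)
  rw [h2, Polynomial.coeff_map] at h1
  have h3 := (isIntegral_algebraMap_iff (IsFractionRing.injective P FΩ)).1 h1
  exact MvPolynomial.isIntegral_iff_isIntegral_coeff.1 h3 m

/-- If `v` is a common left eigenvector with integral eigenvalues `μ`, the determinant of the
generic combination vanishes at every point at which the generic eigenvalue vanishes. -/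
theorem eval_det_genMatrix_eq_zero {k : Type*} [Field k] (M : σ → Matrix n n Ω)
    (hM : ∀ a, IsIntegral R (M a)) (hcomm : ∀ a b, M a * M b = M b * M a)
    {v : n → Ω} (hv : v ≠ 0) (μ : σ → integralClosure R Ω)
    (hμ : ∀ a, v ᵥ* M a = (μ a : Ω) • v) (ψ : integralClosure R Ω →+* k) (z : σ → k)
    (hz : ∑ a, z a * ψ (μ a) = 0) (t : MvPolynomial σ (integralClosure R Ω))
    (ht : MvPolynomial.map (integralClosure R Ω).val.toRingHom t = (genMatrix M).det) :
    MvPolynomial.eval₂ ψ z t = 0 := by
  classical
  let P := MvPolynomial σ Ω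
  let ι : MvPolynomial σ (integralClosure R Ω) →+* P :=
    MvPolynomial.map (integralClosure R Ω).val.toRingHom
  have hι : Function.Injective ι := MvPolynomial.map_injective _ Subtype.val_injective
  let lam : P := ∑ a, MvPolynomial.X a * MvPolynomial.C (μ a : Ω)
  have hroot : (genMatrix M).charpoly.eval lam = 0 := by
    rw [Matrix.eval_charpoly]
    apply Matrix.exists_vecMul_eq_zero_iff.1
    refine ⟨fun i => MvPolynomial.C (v i), fun h => hv (funext fun i => ?_), ?_⟩
    · simpa using congrFun h i
    · ext1 j
      have hj : ∀ a, ((fun i => (MvPolynomial.C (v i) : P)) ᵥ*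
          (Matrix.scalar n (MvPolynomial.X a) * (M a).map MvPolynomial.C)) j =
          MvPolynomial.X a * MvPolynomial.C (μ a : Ω) * MvPolynomial.C (v j) := by
        intro a
        rw [← Matrix.vecMul_vecMul]
        have h1 := congrArg (MvPolynomial.C (σ := σ)) (congrFun (hμ a) j)
        simp only [Pi.smul_apply, smul_eq_mul, map_mul, Matrix.vecMul, dotProduct, map_sum] at h1
        rw [mul_assoc, ← h1, Finset.mul_sum]
        simp [Matrix.vecMul, dotProduct, mul_comm, mul_left_comm, Matrix.scalar_apply,
          Matrix.diagonal_apply]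
      simp only [Matrix.vecMul_sub, Pi.sub_apply, Pi.zero_apply, genMatrix]
      rw [sub_eq_zero]
      have h2 : ((fun i => (MvPolynomial.C (v i) : P)) ᵥ* Matrix.scalar n lam) j =
          lam * MvPolynomial.C (v j) := by
        simp [Matrix.scalar_apply, Matrix.vecMul_diagonal, mul_comm]
      rw [h2, Matrix.vecMul_sum, Finset.sum_apply, Finset.sum_congr rfl fun a _ => hj a,
        Finset.sum_mul]
  obtain ⟨χ, hχ⟩ : (genMatrix M).charpoly ∈ Polynomial.lifts ι := by
    rw [Polynomial.lifts_iff_coeff_lifts]
    intro i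
    refine ⟨∑ m ∈ ((genMatrix M).charpoly.coeff i).support,
      MvPolynomial.monomial m ⟨_, isIntegral_charpoly_genMatrix M hM hcomm i m⟩, ?_⟩
    rw [map_sum]
    conv_rhs => rw [← ((genMatrix M).charpoly.coeff i).support_sum_monomial_coeff]
    exact Finset.sum_congr rfl fun m _ => MvPolynomial.map_monomial _ _ _
  let lam' : MvPolynomial σ (integralClosure R Ω) := ∑ a, MvPolynomial.X a * MvPolynomial.C (μ a)
  have hlam : ι lam' = lam := by
    simp only [lam', lam, map_sum, map_mul]
    exact Finset.sum_congr rfl fun a _ =>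
      congrArg₂ (· * ·) (MvPolynomial.map_X _ _) (MvPolynomial.map_C _ _)
  have h0 : χ.eval lam' = 0 := by
    apply hι
    rw [map_zero, ← hroot, ← hχ, Polynomial.coe_mapRingHom, Polynomial.eval_map, ← hlam,
      Polynomial.eval₂_at_apply]
  have htχ : t = (-1) ^ Fintype.card n * χ.coeff 0 := by
    apply hι
    rw [map_mul, map_pow, map_neg, map_one]
    change ι t = _
    rw [ht, Matrix.det_eq_sign_charpoly_coeff, ← hχ, Polynomial.coe_mapRingHom,
      Polynomial.coeff_map]
  let ev : MvPolynomial σ (integralClosure R Ω) →+* k := MvPolynomial.eval₂Hom ψ z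
  have hev : ev lam' = 0 := by
    rw [← hz]
    simp [ev, lam']
  have h4 : ev (χ.coeff 0) = 0 := by
    have h5 := congrArg ev h0
    rw [map_zero, ← Polynomial.eval₂_at_apply, hev, Polynomial.eval₂_at_zero] at h5
    exact h5
  change ev t = 0
  rw [htχ, map_mul, h4, mul_zero]

end

end Fermat.Agent.IgusaGenus
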