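import Mathlib
import Fermat.Agent.IgusaGenus.PolyDet
import Fermat.Agent.IgusaGenus.Fibre
import Fermat.Agent.IgusaGenus.ScaledMatrix

/-!
# Combinations with a simple zero at one point

Choice of a combination of lattice vectors whose norm to the covering line has a simple zero at one
point over `c` and no other zero over `c`.
-/

set_option autoImplicit false

noncomputable section

open Polynomial Matrix

namespace Fermat.Agent.IgusaGenus.RatCover

variable {r : RatCover} {k : Type*} [Field k] [IsAlgClosed k] {c : k}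

/-- A combination of lattice vectors with a simple zero at one point over `c` and no other. -/
theorem exists_point_combination (h : r.GoodAt c) {Cl : Type*} [CommRing Cl]
    [Algebra (r.cover c) Cl] {n : ℕ} (e : Module.Basis (Fin n) (r.cover c) Cl)
    (ψA : r.cover c →+* k) (hψA : ψA.comp (algebraMap (KRing c) (r.cover c)) = evalK c)
    (ψC : Cl →+* k) (hψC : ψC.comp (algebraMap (r.cover c) Cl) = ψA)
    (hD : ∀ ψ : r.cover c →+* k, ψ.comp (algebraMap (KRing c) (r.cover c)) = evalK c →
      ψ (Algebra.discr (r.cover c) e) ≠ 0) :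
    ∃ (g : ℤ[X]) (P : Fin n → Matrix (Fin n) (Fin n) ℤ[X]) (f : Fin n → k[X]) (w : k[X]),
      g ∈ r.coverCompl c ∧
      (∀ i, (P i).map (r.polyA c) = r.polyA c g • Algebra.leftMulMatrix e (e i)) ∧
      ∑ i, (f i).eval (ψA (r.polyA c X)) * ψC (e i) = 0 ∧
      (∀ l ∈ r.roots c, w.eval l ≠ 0) ∧
      (∑ i, f i • (P i).map (mapRingHom (Int.castRingHom k))).det =
        (X - C (ψA (r.polyA c X))) * w := by
  classical
  obtain ⟨hl0, hψ0⟩ := point_spec hψA
  set l0 := ψA (r.polyA c X) with hl0def
  set Z := h.finite_roots.toFinset with hZ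
  have hmemZ : ∀ l, l ∈ Z ↔ l ∈ r.roots c := fun l => h.finite_roots.mem_toFinset
  -- denominators
  let u : Fin n → r.cover c := fun i => e.repr 1 i
  obtain ⟨g, num, hg, hnum⟩ := h.exists_common_den
    (Sum.elim (fun a : Fin n × Fin n × Fin n => Algebra.leftMulMatrix e (e a.1) a.2.1 a.2.2) u)
  let P : Fin n → Matrix (Fin n) (Fin n) ℤ[X] :=
    fun i => Matrix.of fun p q => num (Sum.inl (i, p, q))
  have hP : ∀ i, (P i).map (r.polyA c) = r.polyA c g • Algebra.leftMulMatrix e (e i) := by
    intro i
    ext1 p q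
    have := hnum (Sum.inl (i, p, q))
    simp only [Sum.elim_inl] at this
    rw [Matrix.map_apply, Matrix.smul_apply, smul_eq_mul, mul_comm, this]
    rfl
  let ut : Fin n → ℤ[X] := fun i => num (Sum.inr i)
  have hone : ∑ i, ut i • P i = (g * g) • (1 : Matrix (Fin n) (Fin n) ℤ[X]) := by
    apply Matrix.map_injective (f := r.polyA c)
      (fun a b hab => r.polyX_injective (congrArg Subtype.val hab))
    change (r.polyA c).mapMatrix (∑ i, ut i • P i) = (r.polyA c).mapMatrix ((g * g) • 1)
    rw [map_sum]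
    have h1 : ∑ i, u i • Algebra.leftMulMatrix e (e i) =
        (1 : Matrix (Fin n) (Fin n) (r.cover c)) := by
      conv_rhs => rw [← map_one (Algebra.leftMulMatrix e), ← e.sum_repr 1, map_sum]
      exact Finset.sum_congr rfl fun i _ => (map_smul (Algebra.leftMulMatrix e) _ _).symm
    have h2 : (r.polyA c).mapMatrix ((g * g) • (1 : Matrix (Fin n) (Fin n) ℤ[X])) =
        r.polyA c (g * g) • (1 : Matrix (Fin n) (Fin n) (r.cover c)) := by
      ext1 p q
      simp [Matrix.one_apply, apply_ite (r.polyA c)]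
    rw [h2, ← h1, Finset.smul_sum]
    refine Finset.sum_congr rfl fun i _ => ?_
    have h3 : (r.polyA c).mapMatrix (ut i • P i) = r.polyA c (ut i) • (P i).map (r.polyA c) := by
      ext1 p q
      simp
    have h4 := hnum (Sum.inr i)
    simp only [Sum.elim_inr] at h4
    rw [h3, hP, smul_smul, smul_smul, map_mul]
    congr 1
    rw [show r.polyA c (ut i) = u i * r.polyA c g from h4.symm]
    ring
  -- reduction
  let σk : ℤ[X] →+* k[X] := mapRingHom (Int.castRingHom k)
  let Pk : Fin n → Matrix (Fin n) (Fin n) k[X] := fun i => (P i).map σk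
  have haev : ∀ (l : k) (p : ℤ[X]), (σk p).eval l = aeval l p := by
    intro l p
    rw [coe_mapRingHom, eval_map, aeval_def]
    congr 1
  have hgl : ∀ l ∈ r.roots c, (σk g).eval l ≠ 0 := fun l hl => by rw [haev]; exact hg l hl
  have honek : ∑ i, σk (ut i) • Pk i = (σk g * σk g) • (1 : Matrix (Fin n) (Fin n) k[X]) := by
    have := congrArg σk.mapMatrix hone
    rw [map_sum] at this
    have h2 : σk.mapMatrix ((g * g) • (1 : Matrix (Fin n) (Fin n) ℤ[X])) =
        (σk g * σk g) • (1 : Matrix (Fin n) (Fin n) k[X]) := by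
      ext1 p q
      simp [Matrix.one_apply, apply_ite σk]
    rw [h2] at this
    rw [← this]
    refine Finset.sum_congr rfl fun i _ => ?_
    ext1 p q
    simp [Pk]
  -- the fibre at the point
  obtain ⟨f0, Q, Q', i0, hQ, hf0, hdiag⟩ := exists_vanishing_combination e ψA ψC hψC (hD ψA hψA)
  have hPk0 : ∀ i, (Pk i).map (Polynomial.eval l0) =
      (σk g).eval l0 • (Algebra.leftMulMatrix e (e i)).map ψA := by
    intro i
    ext1 p q
    have := congrArg ψA (congrFun (congrFun (hP i) p) q)
    simp only [Matrix.map_apply, Matrix.smul_apply, smul_eq_mul, map_mul, hψ0] at this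
    simp only [Pk, Matrix.map_apply, Matrix.smul_apply, smul_eq_mul, haev]
    exact this
  -- interpolation
  let val : Fin n → k → k := fun i l => if l = l0 then f0 i else (σk (ut i)).eval l
  let f1 : Fin n → k[X] := fun i => Lagrange.interpolate Z id (val i)
  have hf1 : ∀ i, ∀ l ∈ r.roots c, (f1 i).eval l = val i l := fun i l hl =>
    Lagrange.eval_interpolate_at_node _ (Set.injOn_id _) ((hmemZ l).2 hl)
  let others : k[X] := ∏ l ∈ Z.erase l0, (X - C l)
  have hothers : others.eval l0 ≠ 0 := by
    rw [eval_prod, Finset.prod_ne_zero_iff]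
    intro l hl
    rw [eval_sub, eval_X, eval_C, sub_ne_zero]
    exact (Finset.ne_of_mem_erase hl).symm
  have hoth1 : ∀ l ∈ r.roots c, l ≠ l0 → others.eval l = 0 := by
    intro l hl hne
    rw [eval_prod]
    exact Finset.prod_eq_zero (Finset.mem_erase.2 ⟨hne, (hmemZ l).2 hl⟩) (by simp)
  set s : k := ((σk g).eval l0)⁻¹ with hs
  have hs0 : s ≠ 0 := inv_ne_zero (hgl l0 hl0)
  let M0 : Matrix (Fin n) (Fin n) k[X] := C s • (Q'.map C * (∑ i, f1 i • Pk i) * Q.map C)
  have hM0 : M0.map (Polynomial.eval l0) =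
      Matrix.diagonal (fun i => if i = i0 then 0 else 1) := by
    rw [← hdiag, ← Polynomial.coe_evalRingHom, ← RingHom.mapMatrix_apply]
    have hCeval : ∀ N : Matrix (Fin n) (Fin n) k,
        (evalRingHom l0).mapMatrix (N.map C) = N := by
      intro N
      ext1 p q
      simp
    have hsum : (evalRingHom l0).mapMatrix (∑ i, f1 i • Pk i) =
        (σk g).eval l0 • ∑ i, f0 i • (Algebra.leftMulMatrix e (e i)).map ψA := by
      rw [map_sum, Finset.smul_sum]
      refine Finset.sum_congr rfl fun i _ => ?_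
      rw [smul_comm, ← hPk0]
      ext1 p q
      simp [hf1 i l0 hl0, val]
    have hsmul : ∀ N : Matrix (Fin n) (Fin n) k[X],
        (evalRingHom l0).mapMatrix (C s • N) = s • (evalRingHom l0).mapMatrix N := by
      intro N
      ext1 p q
      simp
    simp only [M0]
    rw [hsmul, map_mul, map_mul, hCeval, hCeval, hsum, Matrix.mul_smul, Matrix.smul_mul, smul_smul,
      hs, inv_mul_cancel₀ (hgl l0 hl0), one_smul]
  let ξ : k[X] := C s * others * (σk g * σk g)
  have hξ : ξ.eval l0 ≠ 0 := by
    simp only [ξ, eval_mul, eval_C]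
    exact mul_ne_zero (mul_ne_zero hs0 hothers) (mul_ne_zero (hgl l0 hl0) (hgl l0 hl0))
  obtain ⟨a, u0, hu0, hdet⟩ := exists_det_order_one M0 l0 i0 ξ hξ hM0
  let f : Fin n → k[X] := fun i => f1 i + C a * others * (X - C l0) * σk (ut i)
  have hSf : ∑ i, f i • Pk i = (∑ i, f1 i • Pk i) +
      (C a * others * (X - C l0) * (σk g * σk g)) • (1 : Matrix (Fin n) (Fin n) k[X]) := by
    simp only [f, add_smul, Finset.sum_add_distrib]
    rw [mul_smul (C a * others * (X - C l0)), ← honek, Finset.smul_sum]
    simp only [mul_smul]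
  have hQC : Q'.map C * Q.map C = (1 : Matrix (Fin n) (Fin n) k[X]) := by
    rw [← Matrix.map_mul, hQ, Matrix.map_one C C_0 C_1]
  have hdet2 : (C s) ^ n * (∑ i, f i • Pk i).det = (X - C l0) * u0 := by
    rw [← hdet]
    have h5 : M0 + (C a * ξ * (X - C l0)) • (1 : Matrix (Fin n) (Fin n) k[X]) =
        C s • (Q'.map C * (∑ i, f i • Pk i) * Q.map C) := by
      rw [hSf, Matrix.mul_add, Matrix.add_mul, Matrix.mul_smul, Matrix.smul_mul, Matrix.mul_one,
        hQC, smul_add, smul_smul]
      congr 2
      simp only [ξ]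
      ring
    rw [h5, Matrix.det_smul, Fintype.card_fin]
    congr 1
    rw [Matrix.det_mul, Matrix.det_mul]
    have h6 : (Q'.map C).det * (Q.map C).det = (1 : k[X]) := by rw [← Matrix.det_mul, hQC, det_one]
    linear_combination (-(∑ i, f i • Pk i).det) * h6
  have hCs : IsUnit ((C s) ^ n : k[X]) := (isUnit_C.2 (isUnit_iff_ne_zero.2 hs0)).pow n
  have hdet3 : (∑ i, f i • Pk i).det = (X - C l0) * ((↑hCs.unit⁻¹ : k[X]) * u0) := by
    rw [mul_left_comm, ← hdet2, ← mul_assoc, IsUnit.val_inv_mul, one_mul]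
  refine ⟨g, P, f, (↑hCs.unit⁻¹ : k[X]) * u0, hg, hP, ?_, ?_, hdet3⟩
  · rw [← hf0]
    refine Finset.sum_congr rfl fun i _ => ?_
    congr 1
    simp [f, hf1 i l0 hl0, val]
  · intro l hl
    by_cases hll : l = l0
    · subst hll
      rw [eval_mul]
      exact mul_ne_zero (((Units.isUnit _).map (evalRingHom l0)).ne_zero) hu0
    · intro h0
      have h7 := congrArg (evalRingHom l) hdet3
      rw [map_mul, RingHom.map_det, RingHom.map_mul] at h7
      simp only [coe_evalRingHom, eval_mul, mul_eq_zero] at h0 h7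
      have h8 : (evalRingHom l).mapMatrix (∑ i, f i • Pk i) =
          (((σk g).eval l) * ((σk g).eval l)) • (1 : Matrix (Fin n) (Fin n) k) := by
        have h9 := congrArg (evalRingHom l).mapMatrix honek
        rw [map_sum] at h9 ⊢
        have h10 : (evalRingHom l).mapMatrix ((σk g * σk g) • (1 : Matrix (Fin n) (Fin n) k[X])) =
            (((σk g).eval l) * ((σk g).eval l)) • (1 : Matrix (Fin n) (Fin n) k) := by
          ext1 p q
          simp [Matrix.one_apply, apply_ite (Polynomial.eval l)]
        rw [← h10, ← h9]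
        refine Finset.sum_congr rfl fun i _ => ?_
        ext1 p q
        simp [f, hf1 i l hl, val, hll, hoth1 l hl hll]
      rw [h8, Matrix.det_smul, det_one, mul_one] at h7
      refine pow_ne_zero _ (mul_ne_zero (hgl l hl) (hgl l hl)) (h7.trans ?_)
      rcases h0 with h0 | h0 <;> simp [h0]

end Fermat.Agent.IgusaGenus.RatCover
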