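import Mathlib
import Fermat.Agent.IgusaGenus.Etale
import Fermat.Agent.IgusaGenus.KLine
import Fermat.Agent.IgusaGenus.PointData

/-!
# Uniformisers of the normal model

For every point over `c` of the normal model, an element of the model whose norm to the `X`-line
reduces to a uniformiser at `c`, vanishing at that point.
-/

set_option autoImplicit false

noncomputable section

open Polynomial Matrix TensorProduct

namespace Fermat.Agent.IgusaGenus.RatCover

variable {r : RatCover} {k : Type*} [Field k] [IsAlgClosed k] {c : k} {ℓ : ℕ} [Fact ℓ.Prime]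
  [CharP k ℓ]
variable {F : Type*} [Field F] [CharZero F] [Algebra BaseK F] [Algebra ℤ[X] F]
  [IsScalarTower ℤ[X] BaseK F] [FiniteDimensional BaseK F]
  [Algebra (KRing c) F] [IsScalarTower (KRing c) BaseK F] [IsScalarTower ℤ[X] (KRing c) F]

omit [IsAlgClosed k] [Fact ℓ.Prime] [CharP k ℓ] [CharZero F] [Algebra ℤ[X] F]
  [IsScalarTower ℤ[X] BaseK F] [IsScalarTower ℤ[X] (KRing c) F] in

theorem eval₂Hom_det {R S σ n : Type*} [CommRing R] [CommRing S] [Fintype n] [DecidableEq n]
    (f : R →+* S) (x : σ → S) (M : Matrix n n (MvPolynomial σ R)) :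
    MvPolynomial.eval₂Hom f x M.det = ((MvPolynomial.eval₂Hom f x).mapMatrix M).det :=
  RingHom.map_det _ _

theorem coeffMatrix_det_eval {σ A B B' A' n : Type*} [CommRing A] [CommRing B] [CommRing B']
    [CommRing A'] [Algebra B' A'] [Fintype n] [DecidableEq n] (p : MvPolynomial σ A)
    (φ : A → Matrix n n B) (f : B →+* B') (bA : Module.Basis n B' A') (zz : σ → ℤ) (g : A →+* A')
    (s : B') (hφ : ∀ a, (φ a).map f = s • Algebra.leftMulMatrix bA (g a)) :
    f (MvPolynomial.eval (fun a => (zz a : B)) (coeffMatrix p φ).det) =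
      s ^ Fintype.card n * Algebra.norm B' (MvPolynomial.eval₂ g (fun a => (zz a : A')) p) := by
  have hev : ∀ q : MvPolynomial σ B, f (MvPolynomial.eval (fun a => (zz a : B)) q) =
      MvPolynomial.eval₂Hom f (fun a => (zz a : B')) q := by
    intro q
    rw [MvPolynomial.eval, MvPolynomial.map_eval₂Hom]
    simp
  rw [hev, eval₂Hom_det, RingHom.mapMatrix_apply,
    coeffMatrix_eval_hom p φ f (fun a => (zz a : B')) g (Algebra.leftMulMatrix bA).toRingHom
      (fun a => (zz a : A')) (fun a => by simp) s hφ,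
    Matrix.det_smul, Algebra.norm_eq_matrix_det bA]
  rfl

theorem coeffMatrix_det_eval₂ {σ A B B' A' n : Type*} [CommRing A] [CommRing B] [CommRing B']
    [CommRing A'] [Fintype n] [DecidableEq n] (p : MvPolynomial σ A) (φ : A → Matrix n n B)
    (f : B →+* B') (z : σ → B') (g : A →+* A') (Φ : A' →+* Matrix n n B') (zA : σ → A')
    (hz : ∀ i, Φ (zA i) = algebraMap B' (Matrix n n B') (z i)) (hφ : ∀ a, (φ a).map f = Φ (g a)) :
    MvPolynomial.eval₂Hom f z (coeffMatrix p φ).det = (Φ (MvPolynomial.eval₂ g zA p)).det := by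
  rw [eval₂Hom_det, RingHom.mapMatrix_apply,
    coeffMatrix_eval_hom p φ f z g Φ zA hz 1 (fun a => by rw [one_smul]; exact hφ a), one_smul]

/-- Comparison of two generic determinants through norms at integer points. -/
theorem coeffMatrix_det_key {σ R K L F A A' n d : Type*} [CommRing R] [IsDomain R] [CharZero R]
    [Field K] [Algebra R K] [IsFractionRing R K] [CommRing L] [Algebra K L] [CommRing F]
    [Algebra K F] [CommRing A] [CommRing A'] [Fintype n] [DecidableEq n] [Fintype d] [DecidableEq d]
    (bF : Module.Basis n K F) (bL : Module.Basis d K L) (t : MvPolynomial σ A) (gA : A →+* F)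
    (φA : A → Matrix n n R) (δ : R)
    (hA : ∀ a, (φA a).map (algebraMap R K) =
      algebraMap R K δ • Algebra.leftMulMatrix bF (gA a))
    (G : MvPolynomial σ A') (gL : A' →+* L) (φL : A' → Matrix d d R)
    (hL : ∀ a, (φL a).map (algebraMap R K) = Algebra.leftMulMatrix bL (gL a)) (N : R) (m : ℕ)
    (hnorm : ∀ zz : σ → ℤ,
      Algebra.norm K (MvPolynomial.eval₂ gA (fun a => (zz a : F)) t) * algebraMap R K N ^ m =
        Algebra.norm K (MvPolynomial.eval₂ gL (fun a => (zz a : L)) G)) :
    (coeffMatrix t φA).det * MvPolynomial.C (N ^ m) =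
      MvPolynomial.C (δ ^ Fintype.card n) * (coeffMatrix G φL).det := by
  refine MvPolynomial.funext_set (fun _ => Set.range (Int.cast : ℤ → R))
    (fun _ => Set.infinite_range_of_injective Int.cast_injective) fun x hx => ?_
  obtain ⟨zz, rfl⟩ : ∃ zz : σ → ℤ, x = fun a => (zz a : R) :=
    ⟨fun a => (hx a (Set.mem_univ a)).choose,
      funext fun a => ((hx a (Set.mem_univ a)).choose_spec).symm⟩
  apply IsFractionRing.injective R K
  rw [map_mul (MvPolynomial.eval _), map_mul (MvPolynomial.eval _), MvPolynomial.eval_C,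
    MvPolynomial.eval_C, map_mul (algebraMap R K), map_mul (algebraMap R K),
    coeffMatrix_det_eval t φA _ bF zz gA _ hA,
    coeffMatrix_det_eval G φL _ bL zz gL 1 (fun a => by rw [one_smul]; exact hL a),
    one_pow, one_mul, map_pow, map_pow, mul_assoc, hnorm zz]

theorem scaledMatrix_det_key {σ R K L F A' n d : Type*} [CommRing R] [IsDomain R]
    [IsIntegrallyClosed R] [CharZero R] [Field K] [Algebra R K] [IsFractionRing R K] [CommRing L]
    [Algebra K L] [Field F] [Algebra K F] [Algebra R F] [IsScalarTower R K F] [CommRing A']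
    [Fintype n] [DecidableEq n] [Fintype d] [DecidableEq d] (b : Module.Basis n K F)
    (hb : ∀ i, IsIntegral R (b i)) {δ : R} (hδ : algebraMap R K δ = Algebra.discr K b)
    (bL : Module.Basis d K L) (t : MvPolynomial σ (integralClosure R F)) (G : MvPolynomial σ A')
    (gL : A' →+* L) (φL : A' → Matrix d d R)
    (hL : ∀ a, (φL a).map (algebraMap R K) = Algebra.leftMulMatrix bL (gL a)) (N : R) (m : ℕ)
    (hnorm : ∀ zz : σ → ℤ,
      Algebra.norm K (MvPolynomial.eval₂ (integralClosure R F).val.toRingHom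
          (fun a => (zz a : F)) t) * algebraMap R K N ^ m =
        Algebra.norm K (MvPolynomial.eval₂ gL (fun a => (zz a : L)) G)) :
    (coeffMatrix t (scaledMatrix b hb hδ)).det * MvPolynomial.C (N ^ m) =
      MvPolynomial.C (δ ^ Fintype.card n) * (coeffMatrix G φL).det :=
  coeffMatrix_det_key b bL t (integralClosure R F).val.toRingHom (scaledMatrix b hb hδ) δ
    (fun a => scaledMatrix_map b hb hδ a) G gL φL hL N m hnorm

theorem exists_mulVec_eigen {K E Ω : Type*} [Field K] [CommRing E] [Algebra K E] [Field Ω]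
    [Algebra K Ω] {n : Type*} [Fintype n] [DecidableEq n] (b : Module.Basis n K E) (s : E →ₐ[K] Ω) :
    (fun j => s (b j)) ≠ 0 ∧ ∀ x, (fun j => s (b j)) ᵥ*
      (Algebra.leftMulMatrix b x).map (algebraMap K Ω) = s x • fun j => s (b j) := by
  refine ⟨fun h => ?_, fun x => ?_⟩
  · have h1 : ∑ i, s (b.repr 1 i • b i) = 1 := by rw [← map_sum, b.sum_repr, map_one]
    apply one_ne_zero (α := Ω)
    rw [← h1]
    exact Finset.sum_eq_zero fun i _ => by
      rw [map_smul, show s (b i) = 0 from congrFun h i, smul_zero]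
  · ext1 j
    have h1 : ∑ i, s (b.repr (x * b j) i • b i) = s x * s (b j) := by
      rw [← map_sum, b.sum_repr, map_mul]
    simp only [Matrix.vecMul, dotProduct, Pi.smul_apply, smul_eq_mul, Matrix.map_apply,
      Algebra.leftMulMatrix_eq_repr_mul]
    rw [← h1]
    exact Finset.sum_congr rfl fun i _ => by rw [map_smul, Algebra.smul_def, mul_comm]

include ℓ in
/-- An element of the normal model whose norm reduces to a uniformiser at `c`. -/
theorem GoodAt.exists_uniformiser (h : r.GoodAt c) (habs : r.Absorbs F c) {n : ℕ}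
    (b : Module.Basis (Fin n) BaseK F) (hb : ∀ i, IsIntegral ℤ[X] (b i)) (δ : ℤ[X])
    (hδ : algebraMap ℤ[X] BaseK δ = Algebra.discr BaseK b)
    (hδk : δ.map (Int.castRingHom k) ≠ 0)
    (hbc : ∀ i, IsIntegral (KRing c) (b i))
    (hδc : algebraMap (KRing c) BaseK (algebraMap ℤ[X] (KRing c) δ) = Algebra.discr BaseK b)
    (φ : integralClosure (KRing c) F →+* k)
    (hφ : φ.comp (algebraMap (KRing c) (integralClosure (KRing c) F)) = evalK c) :
    ∃ (σ : Type) (t : MvPolynomial σ (integralClosure (KRing c) F)) (z : σ → k) (w : LRing c),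
      MvPolynomial.eval₂ φ z t = 0 ∧ evalL c w ≠ 0 ∧
      (∑ m ∈ t.support, (m.prod fun i e => algebraMap k (LRing c) (z i) ^ e) •
        (scaledMatrix b hbc hδc (t.coeff m)).map (tau c)).det =
        tau c (algebraMap ℤ[X] (KRing c) δ) ^ n * (uL c * w) := by
  classical
  obtain ⟨e, heint, hrepr, D, hD, hDψ⟩ := h.exists_etale_basis (ℓ := ℓ) habs b hb δ hδ hδk
  have := h.isIntegrallyClosed
  have := h.isFractionRing
  have := h.isIntegral
  let E := r.Lr ⊗[BaseK] F
  let Bc := integralClosure (KRing c) F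
  -- the lattice and its basis
  let Cl := integralClosure (r.cover c) E
  have : Module.IsTorsionFree (r.cover c) E :=
    Module.IsTorsionFree.trans_faithfulSMul (r.cover c) r.Lr E
  let v : Fin n → Cl := fun i => ⟨e i, heint i⟩
  have hliv : LinearIndependent (r.cover c) v := by
    refine LinearIndependent.of_comp (Subalgebra.toSubmodule Cl).subtype ?_
    exact e.linearIndependent.restrict_scalars' (r.cover c)
  have hspv : ⊤ ≤ Submodule.span (r.cover c) (Set.range v) := by
    intro x _
    have hx : x = ∑ i, (⟨e.repr (x : E) i, hrepr _ x.2 i⟩ : r.cover c) • v i := by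
      apply Subtype.ext
      rw [AddSubmonoidClass.coe_finsetSum]
      simp only [SetLike.val_smul, v]
      conv_lhs => rw [← e.sum_repr (x : E)]
      rfl
    rw [hx]
    exact Submodule.sum_mem _ fun i _ => Submodule.smul_mem _ _ (Submodule.subset_span ⟨i, rfl⟩)
  let eC := Module.Basis.mk hliv hspv
  have heC : ∀ i, ((eC i : Cl) : E) = e i := fun i => by simp [eC, v]
  have : Module.Free (r.cover c) Cl := Module.Free.of_basis eC
  have : Module.Finite (r.cover c) Cl := Module.Finite.of_basis eC
  have hreprC : ∀ (x : Cl) i, ((eC.repr x i : r.cover c) : r.Lr) = e.repr (x : E) i := by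
    intro x i
    have h1 : (x : E) = ∑ j, ((eC.repr x j : r.cover c) : r.Lr) • e j := by
      conv_lhs => rw [← eC.sum_repr x]
      rw [AddSubmonoidClass.coe_finsetSum]
      exact Finset.sum_congr rfl fun j _ => by rw [SetLike.val_smul, heC]; rfl
    rw [h1, e.repr_sum_self]
  have hlmC : ∀ x : Cl, (Algebra.leftMulMatrix eC x).map (algebraMap (r.cover c) r.Lr) =
      Algebra.leftMulMatrix e (x : E) := by
    intro x
    ext1 p q
    rw [Matrix.map_apply, Algebra.leftMulMatrix_eq_repr_mul, Algebra.leftMulMatrix_eq_repr_mul]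
    exact (hreprC _ _).trans (by rw [Subalgebra.coe_mul, heC])
  have hDC : Algebra.discr (r.cover c) eC = D := by
    apply Subtype.ext
    rw [hD, Algebra.discr_def, Algebra.discr_def]
    refine ((algebraMap (r.cover c) r.Lr).map_det _).trans ?_
    congr 1
    ext1 p q
    rw [RingHom.mapMatrix_apply, Matrix.map_apply, Algebra.traceMatrix_apply,
      Algebra.traceMatrix_apply, Algebra.traceForm_apply, Algebra.traceForm_apply,
      Algebra.trace_eq_matrix_trace eC, Algebra.trace_eq_matrix_trace e, AddMonoidHom.map_trace,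
      ← heC p, ← heC q, ← Subalgebra.coe_mul, ← hlmC]
  -- extending the point
  let Ω := AlgebraicClosure F
  let E' := F ⊗[BaseK] r.Lr
  let cm : E ≃ₐ[BaseK] E' := Algebra.TensorProduct.comm BaseK r.Lr F
  let bF : Module.Basis (Fin r.d) F E' := Algebra.TensorProduct.basis F r.powBasis
  have : Module.Finite F E' := Module.Finite.of_basis bF
  have : Nontrivial E' := by
    have : Nonempty (Fin r.d) := ⟨⟨0, r.d_pos⟩⟩
    exact nontrivial_of_ne _ _ (bF.ne_zero (Classical.arbitrary _))
  obtain ⟨mI, hmI⟩ := Ideal.exists_maximal E'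
  let : Field (E' ⧸ mI) := Ideal.Quotient.field mI
  have : Module.Finite F (E' ⧸ mI) :=
    Module.Finite.of_surjective (Ideal.Quotient.mkₐ F mI).toLinearMap (Ideal.Quotient.mkₐ_surjective F mI)
  let sΩ : E' →ₐ[F] Ω := (IsAlgClosed.lift : (E' ⧸ mI) →ₐ[F] Ω).comp (Ideal.Quotient.mkₐ F mI)
  let ρ : E →ₐ[KRing c] Ω :=
    (sΩ.restrictScalars (KRing c)).comp (cm.toAlgHom.restrictScalars (KRing c))
  let IC := integralClosure (KRing c) Ω
  let ι0 : Bc →ₐ[KRing c] IC :=
    AlgHom.mapIntegralClosure (IsScalarTower.toAlgHom (KRing c) F Ω)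
  let : Algebra Bc IC := ι0.toRingHom.toAlgebra
  have : IsScalarTower (KRing c) Bc IC :=
    IsScalarTower.of_algebraMap_eq fun x => (ι0.commutes x).symm
  have : Algebra.IsIntegral Bc IC :=
    ⟨fun x => ((isIntegral_algHom_iff IC.val Subtype.val_injective).1 x.2).tower_top⟩
  obtain ⟨ψ, hψ⟩ := exists_hom_extends (A := Bc) (B := IC) (fun a a' haa => Subtype.ext
    ((algebraMap F Ω).injective (congrArg Subtype.val haa))) φ
  have hCint : ∀ x : Cl, IsIntegral (KRing c) (x : E) := fun x => isIntegral_trans (x : E) x.2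
  let ψC : Cl →+* k :=
    ψ.comp (RingHom.codRestrict (ρ.toRingHom.comp Cl.val.toRingHom) IC fun x => (hCint x).map ρ)
  let ψA : r.cover c →+* k := ψC.comp (algebraMap (r.cover c) Cl)
  have hψA : ψA.comp (algebraMap (KRing c) (r.cover c)) = evalK c := by
    rw [← hφ, ← hψ, RingHom.comp_assoc]
    refine RingHom.ext fun x => congrArg ψ (Subtype.ext ?_)
    change ρ (algebraMap (r.cover c) E (algebraMap (KRing c) (r.cover c) x)) =
      algebraMap F Ω (algebraMap (KRing c) F x)
    rw [← IsScalarTower.algebraMap_apply (KRing c) (r.cover c) E, ρ.commutes,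
      IsScalarTower.algebraMap_apply (KRing c) F Ω]
  obtain ⟨g, P, f, w1, hg, hP, hvan, hw1, hdet⟩ := exists_point_combination h eC ψA hψA ψC rfl
    (fun ψ' hψ' => by rw [hDC]; exact hDψ ψ' hψ')
  obtain ⟨hl0, hψl0⟩ := point_spec hψA
  set l0 := ψA (r.polyA c X) with hl0def
  -- the generic combination
  set B := (Finset.univ.sup fun i => (f i).natDegree) + 1 with hBdef
  have hfB : ∀ i, (f i).natDegree < B := fun i =>
    Nat.lt_succ_of_le (Finset.le_sup (f := fun i => (f i).natDegree) (Finset.mem_univ i))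
  let σ := Fin n × Fin B
  let cvec : σ → Cl := fun a => algebraMap (r.cover c) Cl (r.polyA c (X ^ (a.2 : ℕ))) * eC a.1
  let zk : σ → k := fun a => (f a.1).coeff a.2
  let M : σ → Matrix (Fin r.d) (Fin r.d) F := fun a => Algebra.leftMulMatrix bF (cm (cvec a : E))
  have hMint : ∀ a, IsIntegral (KRing c) (M a) := fun a =>
    ((hCint (cvec a)).map (cm.toAlgHom.restrictScalars (KRing c))).map
      ((Algebra.leftMulMatrix bF).restrictScalars (KRing c))
  have hMcomm : ∀ a a', M a * M a' = M a' * M a := fun a a' => by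
    simp only [M]
    rw [← map_mul (Algebra.leftMulMatrix bF), ← map_mul (Algebra.leftMulMatrix bF)]
    exact congrArg _ (mul_comm _ _)
  obtain ⟨t, ht⟩ : ∃ t : MvPolynomial σ Bc,
      MvPolynomial.map Bc.val.toRingHom t = (genMatrix M).det := by
    have hint : ∀ m, IsIntegral (KRing c) ((genMatrix M).det.coeff m) := by
      intro m
      rw [Matrix.det_eq_sign_charpoly_coeff, ← map_one (MvPolynomial.C : F →+* MvPolynomial σ F),
        ← map_neg, ← map_pow, MvPolynomial.coeff_C_mul]
      exact (isIntegral_one.neg.pow _).mul (isIntegral_charpoly_genMatrix M hMint hMcomm 0 m)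
    refine ⟨∑ m ∈ (genMatrix M).det.support, MvPolynomial.monomial m ⟨_, hint m⟩, ?_⟩
    rw [map_sum]
    conv_rhs => rw [← (genMatrix M).det.support_sum_monomial_coeff]
    exact Finset.sum_congr rfl fun m _ => MvPolynomial.map_monomial _ _ _
  -- vanishing
  have hψX : ∀ a : σ, ψC (cvec a) = l0 ^ (a.2 : ℕ) * ψC (eC a.1) := fun a => by
    simp only [cvec, map_mul, map_pow]
    rfl
  have hvan' : MvPolynomial.eval₂ φ zk t = 0 := by
    let MΩ : σ → Matrix (Fin r.d) (Fin r.d) Ω := fun a => (M a).map (algebraMap F Ω)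
    have hMΩint : ∀ a, IsIntegral (KRing c) (MΩ a) := fun a => by
      have := (hMint a).map (IsScalarTower.toAlgHom (KRing c) F Ω).mapMatrix
      simpa [MΩ] using this
    obtain ⟨hv0, hv⟩ := exists_mulVec_eigen bF sΩ
    let μ : σ → IC := fun a => ⟨ρ (cvec a : E), (hCint (cvec a)).map ρ⟩
    have h0 := eval_det_genMatrix_eq_zero (R := KRing c) MΩ hMΩint
      (fun a a' => by
        simp only [MΩ]
        rw [← Matrix.map_mul, ← Matrix.map_mul]
        exact congrArg (fun N : Matrix (Fin r.d) (Fin r.d) F => N.map (algebraMap F Ω)) (hMcomm a a'))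
      hv0 μ (fun a => hv (cm (cvec a : E))) ψ zk (by
        rw [← hvan]
        rw [show (∑ a : σ, zk a * ψ (μ a)) = ∑ i, ∑ l : Fin B, (f i).coeff l * (l0 ^ (l : ℕ) * ψC (eC i))
          from (Fintype.sum_prod_type _).trans (Finset.sum_congr rfl fun i _ => Finset.sum_congr rfl
            fun l _ => congrArg _ (hψX (i, l)))]
        refine Finset.sum_congr rfl fun i _ => ?_
        rw [eval_eq_sum_range' (hfB i), Finset.sum_mul,
          Fin.sum_univ_eq_sum_range (fun l => (f i).coeff l * (l0 ^ l * ψC (eC i))) B]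
        exact Finset.sum_congr rfl fun l _ => (mul_assoc _ _ _).symm)
      (MvPolynomial.map ι0.toRingHom t) (by
        rw [MvPolynomial.map_map, show (integralClosure (KRing c) Ω).val.toRingHom.comp ι0.toRingHom =
            (algebraMap F Ω).comp Bc.val.toRingHom from RingHom.ext fun x => rfl,
          ← MvPolynomial.map_map, ht, RingHom.map_det, RingHom.mapMatrix_apply, genMatrix_map])
    rw [MvPolynomial.eval₂_map] at h0
    rw [← hψ]
    exact h0
  refine ⟨σ, t, zk, ?_⟩
  -- the two determinants over the local ring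
  let δc : KRing c := algebraMap ℤ[X] (KRing c) δ
  let Pa : σ → Matrix (Fin n) (Fin n) ℤ[X] := fun a => (X ^ (a.2 : ℕ) : ℤ[X]) • P a.1
  let GP : MvPolynomial σ ℤ[X] := (genMatrix Pa).det
  let Ng : KRing c := (aeval (r.companion h) g).det
  let detF := (coeffMatrix t (scaledMatrix b hbc hδc)).det
  let detL := (coeffMatrix GP fun p => aeval (r.companion h) p).det
  have hkey : detF * MvPolynomial.C (Ng ^ n) = MvPolynomial.C (δc ^ n) * detL := by
    have : CharZero (KRing c) := ⟨fun a a' haa => by
      have := congrArg (fun x => algebraMap BaseK F (algebraMap (KRing c) BaseK x)) haa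
      simpa using this⟩
    have := scaledMatrix_det_key b hbc hδc r.powBasis t GP r.polyX
      (fun p => aeval (r.companion h) p) (fun p => r.aeval_companion_map h p) Ng n ?_
    · rwa [Fintype.card_fin] at this
    intro zz
    let κ := algebraMap (KRing c) BaseK
    let cz : E := ∑ a, (zz a : E) * (cvec a : E)
    -- the two evaluations as norms
    have hF : MvPolynomial.eval₂ Bc.val.toRingHom (fun a => (zz a : F)) t =
        Algebra.norm F (cm cz) := by
      rw [MvPolynomial.eval₂_eq_eval_map, ht, det_genMatrix_eval, Algebra.norm_eq_matrix_det bF]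
      congr 1
      simp only [cz, map_sum, map_mul, M]
      refine Finset.sum_congr rfl fun a _ => ?_
      rw [map_intCast, map_intCast, Int.cast_smul_eq_zsmul, zsmul_eq_mul]
    have hL : MvPolynomial.eval₂ r.polyX (fun a => (zz a : r.Lr)) GP =
        r.polyX g ^ n * Algebra.norm r.Lr cz := by
      rw [MvPolynomial.eval₂_eq_eval_map, RingHom.map_det, RingHom.mapMatrix_apply, genMatrix_map,
        det_genMatrix_eval, Algebra.norm_eq_matrix_det e]
      have h1 : ∑ a, (zz a : r.Lr) • (Pa a).map r.polyX =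
          r.polyX g • Algebra.leftMulMatrix e cz := by
        simp only [cz, map_sum, map_mul, Finset.smul_sum]
        refine Finset.sum_congr rfl fun a _ => ?_
        rw [map_intCast, Int.cast_smul_eq_zsmul, ← zsmul_eq_mul, smul_comm]
        congr 1
        rw [← hlmC, show cvec a = algebraMap (r.cover c) Cl (r.polyA c (X ^ (a.2 : ℕ))) *
          eC a.1 from rfl, map_mul, AlgHom.commutes, ← Algebra.smul_def]
        have h2 := hP a.1
        ext1 p q
        have h3 := congrArg Subtype.val (congrFun (congrFun h2 p) q)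
        simp only [Matrix.map_apply, Matrix.smul_apply, smul_eq_mul, Subalgebra.coe_mul,
          coe_polyA] at h3
        simp only [Pa, Matrix.map_apply, Matrix.smul_apply, smul_eq_mul, map_mul, h3]
        simp only [show ∀ x : r.cover c, algebraMap (r.cover c) r.Lr x = (x : r.Lr) from fun x => rfl,
          coe_polyA]
        ring
      rw [h1, Matrix.det_smul, Fintype.card_fin]
    have hNg : κ Ng = Algebra.norm BaseK (r.polyX g) := by
      rw [Algebra.norm_eq_matrix_det r.powBasis, ← r.aeval_companion_map h, RingHom.map_det,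
        RingHom.mapMatrix_apply]
    have hnorm : Algebra.norm BaseK (Algebra.norm F (cm cz)) =
        Algebra.norm BaseK (Algebra.norm r.Lr cz) := by
      rw [Algebra.norm_norm, Algebra.norm_norm]
      exact Algebra.norm_eq_of_algEquiv cm cz
    rw [hF, hL, hNg, map_mul, map_pow, hnorm]
    ring
  -- reduction
  let τT : KRing c →+* LRing c := tau c
  let zL : σ → LRing c := fun a => algebraMap k (LRing c) (zk a)
  have hk := congrArg (MvPolynomial.eval₂Hom τT zL) hkey
  simp only [detF, detL] at hk
  rw [map_mul, map_mul, MvPolynomial.eval₂Hom_C, MvPolynomial.eval₂Hom_C,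
    eval₂Hom_det (R := KRing c) (S := LRing c) τT zL (coeffMatrix t (scaledMatrix b hbc hδc)),
    RingHom.mapMatrix_apply, coeffMatrix_eval t (scaledMatrix b hbc hδc) τT zL] at hk
  let Λ := r.companionL h
  let σk : ℤ[X] →+* k[X] := mapRingHom (Int.castRingHom k)
  have hΛ : ∀ p : ℤ[X], (aeval (r.companion h) p).map τT = aeval Λ (σk p) := by
    intro p
    rw [← RingHom.mapMatrix_apply, aeval_def, Polynomial.hom_eval₂, coe_mapRingHom, aeval_def,
      eval₂_map]
    congr 1
    exact RingHom.ext_int _ _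
  rw [coeffMatrix_det_eval₂ GP (fun p => aeval (r.companion h) p) τT zL σk
    (aeval Λ : k[X] →ₐ[k] _).toRingHom (fun a => C (zk a)) (fun a => by
      change aeval Λ (C (zk a)) = _
      rw [aeval_C]
      exact IsScalarTower.algebraMap_apply k (LRing c) _ _) hΛ] at hk
  have hG : MvPolynomial.eval₂ σk (fun a => C (zk a)) GP =
      (∑ i, f i • (P i).map σk).det := by
    rw [MvPolynomial.eval₂_eq_eval_map, RingHom.map_det, RingHom.mapMatrix_apply, genMatrix_map,
      det_genMatrix_eval]
    congr 1
    rw [Fintype.sum_prod_type]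
    refine Finset.sum_congr rfl fun i _ => ?_
    conv_rhs => rw [(f i).as_sum_range_C_mul_X_pow' (hfB i), Finset.sum_smul,
      ← Fin.sum_univ_eq_sum_range (fun l => (C ((f i).coeff l) * X ^ l) • (P i).map σk) B]
    refine Finset.sum_congr rfl fun l _ => ?_
    rw [mul_smul]
    congr 1
    ext1 p q
    simp [Pa, σk]
  rw [hG, hdet, AlgHom.toRingHom_eq_coe, RingHom.coe_coe, map_mul, Matrix.det_mul] at hk
  obtain ⟨hnz, hone⟩ := r.det_aeval_companionL h
  obtain ⟨w0, hw0, hw0eq⟩ := hone l0 hl0
  have hNgev : evalL c (τT Ng) ≠ 0 := by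
    rw [RingHom.map_det, RingHom.mapMatrix_apply, hΛ]
    refine hnz _ fun l hl => ?_
    rw [coe_mapRingHom, eval_map]
    have := hg l hl
    rw [aeval_def] at this
    rwa [show algebraMap ℤ k = Int.castRingHom k from RingHom.ext_int _ _] at this
  have hNu : IsUnit (τT (Ng ^ n)) := by
    rw [map_pow]
    exact (isUnit_of_evalL_ne_zero c hNgev).pow n
  refine ⟨w0 * (aeval Λ w1).det * ↑hNu.unit⁻¹, hvan', ?_, ?_⟩
  · rw [map_mul, map_mul]
    exact mul_ne_zero (mul_ne_zero hw0 (hnz w1 hw1)) ((Units.isUnit _).map (evalL c)).ne_zero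
  · have h1 : (∑ m ∈ t.support, (m.prod fun i e => zL i ^ e) •
        (scaledMatrix b hbc hδc (t.coeff m)).map τT).det * τT (Ng ^ n) =
        τT (δc ^ n) * (uL c * (w0 * (aeval Λ w1).det)) := by
      rw [hk, hw0eq]
      ring
    calc _ = (∑ m ∈ t.support, (m.prod fun i e => zL i ^ e) •
          (scaledMatrix b hbc hδc (t.coeff m)).map τT).det * τT (Ng ^ n) * ↑hNu.unit⁻¹ := by
          rw [mul_assoc, hNu.mul_val_inv, mul_one]
      _ = τT (δc ^ n) * (uL c * (w0 * (aeval Λ w1).det)) * ↑hNu.unit⁻¹ := by rw [h1]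
      _ = tau c δc ^ n * (uL c * (w0 * (aeval Λ w1).det * ↑hNu.unit⁻¹)) := by
          rw [map_pow]; ring

end Fermat.Agent.IgusaGenus.RatCover
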