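import Mathlib
import Fermat.Agent.IgusaGenus.Uniformiser
import Fermat.Agent.IgusaGenus.RedDiscr
import Fermat.Agent.FunctionFieldRR.RationalBase
import Fermat.Agent.FunctionFieldRR.PushPull

/-!
# Uniformisers on the special fibre

At every point of the special fibre some combination of reductions is a uniformiser.
-/

set_option autoImplicit false

noncomputable section

open Polynomial Matrix IntermediateField AlgebraicCurve

namespace Fermat.Agent.IgusaGenus

open Fermat.Agent.FunctionFieldRR

section Residue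

variable {k : Type*} [Field k] {B0 Fk : Type*} [CommRing B0] [Algebra ℤ[X] B0]
  [Algebra.IsIntegral ℤ[X] B0] [Field Fk] [Algebra k Fk] {jk : Fk} (red : B0 →+* Fk)
  (hred : ∀ g : ℤ[X], red (algebraMap ℤ[X] B0 g) = aeval jk (g.map (Int.castRingHom k)))

include hred in
/-- Reductions of integral elements are regular where `j` is finite. -/
theorem red_mem_valuationSubring (w : Place k Fk) (hw : 0 ≤ w.ord jk) (y : B0) :
    red y ∈ w.toValuationSubring := by
  have hmem : ∀ g : ℤ[X], (red.comp (algebraMap ℤ[X] B0)) g ∈ w.toValuationSubring := fun g => by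
    rw [RingHom.comp_apply, hred]
    exact aeval_mem w.toValuationSubring w.algebraMap_mem' ((ord_nonneg_iff w jk).1 hw) _
  have h1 : IsIntegral w.toValuationSubring (red y) :=
    (Algebra.IsIntegral.isIntegral (R := ℤ[X]) y).map_of_comp_eq
      ((red.comp (algebraMap ℤ[X] B0)).codRestrict w.toValuationSubring hmem) red
      (RingHom.ext fun _ => rfl)
  obtain ⟨z, hz⟩ := IsIntegrallyClosed.isIntegral_iff.1 h1
  rw [← hz]
  exact z.2

end Residue

theorem det_smul_fin {R : Type*} [CommRing R] {n : ℕ} (c : R) (M : Matrix (Fin n) (Fin n) R) :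
    (c • M).det = c ^ n * M.det := by
  rw [Matrix.det_smul, Fintype.card_fin]

namespace RatCover

variable {r : RatCover} {k : Type} [Field k] [IsAlgClosed k] {c : k} {ℓ : ℕ} [Fact ℓ.Prime]
  [CharP k ℓ]
variable {F : Type} [Field F] [CharZero F] [Algebra BaseK F] [Algebra ℤ[X] F]
  [IsScalarTower ℤ[X] BaseK F] [FiniteDimensional BaseK F]
variable {Fk : Type} [Field Fk] [Algebra k Fk] {jk : Fk}

include ℓ in
/-- Some combination of reductions is a uniformiser at a given point. -/
theorem GoodAt.exists_red_uniformiser (h : r.GoodAt c) (habs : r.Absorbs F c)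
    (hjk : Transcendental k jk) [FiniteDimensional k⟮jk⟯ Fk] [Algebra.IsSeparable k⟮jk⟯ Fk]
    {n : ℕ} (b : Module.Basis (Fin n) BaseK F) (hb : ∀ i, IsIntegral ℤ[X] (b i))
    (red : integralClosure ℤ[X] F →+* Fk)
    (hred : ∀ g : ℤ[X], red (algebraMap ℤ[X] (integralClosure ℤ[X] F) g) =
      aeval jk (g.map (Int.castRingHom k)))
    (e : Module.Basis (Fin n) k⟮jk⟯ Fk) (he : ∀ i, e i = red ⟨b i, hb i⟩)
    (v : Place k Fk) (hv : 0 < v.ord (jk - algebraMap k Fk c)) :
    ∃ T ∈ Submodule.span k (Set.range red), v.ord T = 1 ∧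
      ∀ w : Place k Fk, 0 < w.ord (jk - algebraMap k Fk c) → w ≠ v → w.ord T = 0 := by
  classical
  have : IsFunctionField k Fk := IsFunctionField.of_finiteDimensional jk hjk
  have : IsFunctionField k k⟮jk⟯ := isFunctionField_adjoin hjk
  let B0 := integralClosure ℤ[X] F
  have : Algebra.IsIntegral ℤ[X] B0 :=
    ⟨fun y => (isIntegral_algHom_iff B0.val Subtype.val_injective).1 y.2⟩
  -- the discriminant
  let κ : k[X] →+* k⟮jk⟯ := (aeval (gx (K := k) jk)).toRingHom
  have hκ : Function.Injective κ := transcendental_iff_injective.1 (transcendental_gx hjk)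
  have hκjk : ∀ p : k[X], algebraMap k⟮jk⟯ Fk (κ p) = aeval jk p := fun p =>
    (aeval_algebraMap_apply Fk (gx (K := k) jk) p).symm
  have hred' : ∀ g : ℤ[X], red (algebraMap ℤ[X] (integralClosure ℤ[X] F) g) =
      algebraMap k⟮jk⟯ Fk (κ (g.map (Int.castRingHom k))) := fun g => by rw [hκjk, hred]
  obtain ⟨δ, hδ⟩ := exists_discr_intPoly b hb
  have hdiscr := discr_red (k := k) b hb red κ hred' e he hκ (ℓ := ℓ) hδ
  have hδk : δ.map (Int.castRingHom k) ≠ 0 := fun h0 =>
    Algebra.discr_not_zero_of_basis k⟮jk⟯ e (by rw [hdiscr, h0, map_zero])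
  -- the residue at `v`
  have hvjk : 0 ≤ v.ord jk := by
    have h1 := (ord_nonneg_iff v _).1 hv.le
    exact (ord_nonneg_iff v _).2 (by simpa using add_mem h1 (v.algebraMap_mem' c))
  let ψ0 : B0 →+* k := (residueHom v).comp
    (red.codRestrict v.toValuationSubring (red_mem_valuationSubring red hred v hvjk))
  have hψ0 : ∀ y, ψ0 y = residueConst v (red y) := fun y => residueHom_apply v _
  have hψ0g : ∀ g : ℤ[X], ψ0 (algebraMap ℤ[X] B0 g) = aeval c g := by
    intro g
    have : ψ0.comp (algebraMap ℤ[X] B0) = (aeval c : ℤ[X] →ₐ[ℤ] k).toRingHom := by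
      refine Polynomial.ringHom_ext (fun m => ?_) ?_
      · simp
      · rw [RingHom.comp_apply, hψ0, hred, map_X, aeval_X, residueConst_eq v (Or.inr hv)]
        simp
    exact congrArg (fun f : ℤ[X] →+* k => f g) this
  -- the chart over the local ring
  let : Algebra (KRing c) F :=
    ((algebraMap BaseK F).comp (algebraMap (KRing c) BaseK)).toAlgebra
  have : IsScalarTower (KRing c) BaseK F := IsScalarTower.of_algebraMap_eq' rfl
  have : IsScalarTower ℤ[X] (KRing c) F := IsScalarTower.of_algebraMap_eq fun g => by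
    rw [IsScalarTower.algebraMap_apply (KRing c) BaseK F, ← IsScalarTower.algebraMap_apply
      ℤ[X] (KRing c) BaseK, ← IsScalarTower.algebraMap_apply ℤ[X] BaseK F]
  let Bc := integralClosure (KRing c) F
  have hden : ∀ x : Bc, ∃ g : ℤ[X], aeval c g ≠ 0 ∧ IsIntegral ℤ[X] (g • (x : F)) := by
    intro x
    obtain ⟨m, hm⟩ := IsIntegral.exists_multiple_integral_of_isLocalization
      (R := ℤ[X]) (Rₘ := KRing c) (kIdeal c).primeCompl (x : F) x.2
    exact ⟨m, m.2, hm⟩
  choose den hden0 hdenint using hden
  let num : Bc → B0 := fun x => ⟨den x • (x : F), hdenint x⟩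
  let φf : Bc → k := fun x => ψ0 (num x) / aeval c (den x)
  have hφf : ∀ (x : Bc) (g : ℤ[X]) (y : B0), aeval c g ≠ 0 → (y : F) = g • (x : F) →
      φf x = ψ0 y / aeval c g := by
    intro x g y hg hy
    have h1 : algebraMap ℤ[X] B0 g * num x = algebraMap ℤ[X] B0 (den x) * y := by
      apply Subtype.ext
      change algebraMap ℤ[X] F g * (den x • (x : F)) = algebraMap ℤ[X] F (den x) * (y : F)
      rw [hy, Algebra.smul_def, Algebra.smul_def]
      ring
    have h2 := congrArg ψ0 h1
    rw [map_mul, map_mul, hψ0g, hψ0g] at h2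
    change ψ0 (num x) / _ = _
    rw [div_eq_div_iff (hden0 x) hg]
    linear_combination h2
  let φ : Bc →+* k :=
    { toFun := φf
      map_one' := by
        rw [hφf 1 1 1 (by simp) (by simp)]
        simp
      map_mul' := fun x x' => by
        rw [hφf (x * x') (den x * den x') (num x * num x')
          (by rw [map_mul]; exact mul_ne_zero (hden0 x) (hden0 x'))
          (show (den x • (x : F)) * (den x' • (x' : F)) = _ by
            rw [smul_mul_smul_comm]; rfl)]
        simp only [φf, map_mul]
        ring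
      map_zero' := by
        rw [hφf 0 1 0 (by simp) (by simp)]
        simp
      map_add' := fun x x' => by
        rw [hφf (x + x') (den x * den x')
          (algebraMap ℤ[X] B0 (den x') * num x + algebraMap ℤ[X] B0 (den x) * num x')
          (by rw [map_mul]; exact mul_ne_zero (hden0 x) (hden0 x'))
          (show algebraMap ℤ[X] F (den x') * (den x • (x : F)) +
              algebraMap ℤ[X] F (den x) * (den x' • (x' : F)) =
              (den x * den x') • ((x : F) + (x' : F)) by
            simp only [Algebra.smul_def, map_mul]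
            ring)]
        simp only [φf, map_mul, map_add, hψ0g]
        field_simp [hden0 x, hden0 x'] }
  have hφc : φ.comp (algebraMap (KRing c) Bc) = evalK c := by
    refine IsLocalization.ringHom_ext (kIdeal c).primeCompl (RingHom.ext fun g => ?_)
    change φf (algebraMap (KRing c) Bc (algebraMap ℤ[X] (KRing c) g)) =
      evalK c (algebraMap ℤ[X] (KRing c) g)
    rw [hφf _ 1 (algebraMap ℤ[X] B0 g) (by simp) (by
      rw [one_smul, Subalgebra.coe_algebraMap, Subalgebra.coe_algebraMap,
        ← IsScalarTower.algebraMap_apply]), map_one, div_one, hψ0g, evalK_algebraMap]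
  have hbc : ∀ i, IsIntegral (KRing c) (b i) := fun i => (hb i).tower_top
  have hδc : algebraMap (KRing c) BaseK (algebraMap ℤ[X] (KRing c) δ) = Algebra.discr BaseK b := by
    rw [← IsScalarTower.algebraMap_apply, hδ]
  obtain ⟨σ, t, z, w, hzero, hw, hdet⟩ :=
    h.exists_uniformiser habs b hb δ hδ hδk hbc hδc φ hφc
  -- a common denominator
  let g : ℤ[X] := ∏ m ∈ t.support, den (t.coeff m)
  have hg : aeval c g ≠ 0 := by
    rw [map_prod]
    exact Finset.prod_ne_zero_iff.2 fun m _ => hden0 _
  have hint : ∀ m ∈ t.support, IsIntegral ℤ[X] (g • ((t.coeff m : Bc) : F)) := by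
    intro m hm
    rw [show g = (∏ m' ∈ t.support.erase m, den (t.coeff m')) * den (t.coeff m) from
      (Finset.prod_erase_mul _ _ hm).symm, mul_smul]
    exact (hdenint _).smul _
  let y : (σ →₀ ℕ) → B0 := fun m =>
    if hm : m ∈ t.support then ⟨g • ((t.coeff m : Bc) : F), hint m hm⟩ else 0
  have hy : ∀ m ∈ t.support, (y m : F) = g • ((t.coeff m : Bc) : F) := fun m hm => by
    simp only [y, dif_pos hm]
  let zm : (σ →₀ ℕ) → k := fun m => m.prod fun i e => z i ^ e
  let S0 := scaledMatrix b hb hδ
  have hS : ∀ m ∈ t.support, (S0 (y m)).map (algebraMap ℤ[X] (KRing c)) =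
      algebraMap ℤ[X] (KRing c) g • scaledMatrix b hbc hδc (t.coeff m) := by
    intro m hm
    apply Matrix.map_injective (IsFractionRing.injective (KRing c) BaseK)
    beta_reduce
    rw [Matrix.map_map, Matrix.map_smul' _ _ _ (map_mul _),
      scaledMatrix_map b hbc hδc, ← IsScalarTower.algebraMap_apply ℤ[X] (KRing c) BaseK]
    change (S0 (y m)).map (fun p => algebraMap (KRing c) BaseK (algebraMap ℤ[X] (KRing c) p)) = _
    simp only [← IsScalarTower.algebraMap_apply ℤ[X] (KRing c) BaseK]
    rw [scaledMatrix_map b hb hδ, hy m hm, ← algebraMap_smul BaseK g, map_smul, smul_comm]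
  -- the determinant as a polynomial
  let σp : ℤ[X] →+* k[X] := mapRingHom (Int.castRingHom k)
  let Dt : k[X] := (∑ m ∈ t.support, C (zm m) • (S0 (y m)).map σp).det
  have hL : algebraMap k[X] (LRing c) Dt =
      tau c (algebraMap ℤ[X] (KRing c) g) ^ n * (tau c (algebraMap ℤ[X] (KRing c) δ) ^ n *
        (uL c * w)) := by
    rw [← hdet, RingHom.map_det, RingHom.mapMatrix_apply]
    conv_rhs => rw [← det_smul_fin, Finset.smul_sum]
    congr 1
    rw [← RingHom.mapMatrix_apply, map_sum]
    refine Finset.sum_congr rfl fun m hm => ?_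
    have h1 := congrArg (fun M : Matrix (Fin n) (Fin n) (KRing c) => M.map (tau c)) (hS m hm)
    rw [Matrix.map_map, Matrix.map_smul' _ _ _ (map_mul _)] at h1
    rw [RingHom.mapMatrix_apply, Matrix.map_smul' _ _ _ (map_mul _), Matrix.map_map, smul_comm,
      ← h1]
    congr 1
    · simp only [zm, Finsupp.prod, map_prod, map_pow]
      refine Finset.prod_congr rfl fun i _ => ?_
      rw [IsScalarTower.algebraMap_apply k k[X] (LRing c)]
      rfl
    · ext i j
      exact (tau_algebraMap c _).symm
  -- clear the denominator of `w`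
  obtain ⟨a, s, rfl⟩ := IsLocalization.exists_mk'_eq (lIdeal c).primeCompl w
  have ha : a.eval c ≠ 0 := by
    intro ha
    apply hw
    rw [evalL, IsLocalization.lift_mk'_spec, mul_zero]
    exact ha
  have hs : (s : k[X]).eval c ≠ 0 := s.2
  have hDs : Dt * (s : k[X]) = (σp g) ^ n * (σp δ) ^ n * ((X - C c) * a) := by
    apply IsLocalization.injective (LRing c) (Ideal.primeCompl_le_nonZeroDivisors (lIdeal c))
    rw [map_mul, hL, tau_algebraMap, tau_algebraMap, uL, map_mul, map_mul, map_mul, map_pow,
      map_pow, ← IsLocalization.mk'_spec (LRing c) a s]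
    simp only [σp, coe_mapRingHom]
    ring
  -- the norm of the combination
  let T : Fk := ∑ m ∈ t.support, zm m • red (y m)
  have hTspan : T ∈ Submodule.span k (Set.range red) :=
    Submodule.sum_mem _ fun m _ => Submodule.smul_mem _ _ (Submodule.subset_span ⟨_, rfl⟩)
  have hκN : κ Dt = κ (σp δ) ^ n * Algebra.norm k⟮jk⟯ T := by
    rw [RingHom.map_det, RingHom.mapMatrix_apply, Algebra.norm_eq_matrix_det e]
    conv_rhs => rw [← det_smul_fin]
    congr 1
    rw [← RingHom.mapMatrix_apply, map_sum, map_sum, Finset.smul_sum]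
    refine Finset.sum_congr rfl fun m _ => ?_
    rw [RingHom.mapMatrix_apply, Matrix.map_smul' _ _ _ (map_mul _), Matrix.map_map,
      ← algebraMap_smul k⟮jk⟯ (zm m), map_smul, smul_comm (κ (σp δ))]
    congr 1
    · exact aeval_C (gx (K := k) jk) (zm m)
    · exact (leftMulMatrix_red (k := k) b hb red κ hred' e he
        (scaledMatrix_spec b hb hδ (y m))).symm
  have hδ' : κ (σp δ) ^ n ≠ 0 := pow_ne_zero _ ((map_ne_zero_iff κ hκ).2 hδk)
  have hNs : Algebra.norm k⟮jk⟯ T * κ s = κ ((σp g) ^ n * ((X - C c) * a)) := by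
    apply mul_left_cancel₀ hδ'
    rw [← mul_assoc, ← hκN, ← map_mul, hDs]
    simp only [map_mul, map_pow]
    ring
  -- orders
  set P0 : Place k k⟮jk⟯ := finitePlace hjk c
  have hP0 : P0.ord (gx (K := k) jk - algebraMap k k⟮jk⟯ c) = 1 := ord_finitePlace hjk c
  have hgk : (σp g).eval c = aeval c g := by
    rw [coe_mapRingHom, eval_map, aeval_def]
    congr 1
  have hG : (σp g) ^ n * a ≠ 0 ∧ ((σp g) ^ n * a).eval c ≠ 0 := by
    have : ((σp g) ^ n * a).eval c ≠ 0 := by
      rw [eval_mul, eval_pow, hgk]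
      exact mul_ne_zero (pow_ne_zero _ hg) ha
    exact ⟨fun h0 => this (by rw [h0, eval_zero]), this⟩
  have hR : (σp g) ^ n * ((X - C c) * a) = (X - C c) * ((σp g) ^ n * a) := by ring
  have hRne : (X - C c) * ((σp g) ^ n * a) ≠ 0 := mul_ne_zero (X_sub_C_ne_zero c) hG.1
  have hmult : ((X - C c) * ((σp g) ^ n * a)).rootMultiplicity c = 1 := by
    rw [rootMultiplicity_mul hRne, rootMultiplicity_X_sub_C_self,
      rootMultiplicity_eq_zero (p := (σp g) ^ n * a) hG.2]
  have hsne : (s : k[X]) ≠ 0 := fun h0 => hs (by rw [h0, eval_zero])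
  rw [hR] at hNs
  have hκs : κ s ≠ 0 := (map_ne_zero_iff κ hκ).2 hsne
  have hNne : Algebra.norm k⟮jk⟯ T ≠ 0 := fun h0 => by
    rw [h0, zero_mul] at hNs
    exact (map_ne_zero_iff κ hκ).2 hRne hNs.symm
  have hT0 : T ≠ 0 := fun h0 => hNne (by rw [h0, Algebra.norm_zero])
  have hordN : P0.ord (Algebra.norm k⟮jk⟯ T) = 1 := by
    have h1 := congrArg P0.ord hNs
    rw [P0.ord_mul hNne hκs] at h1
    have h2 := (ord_aeval_of_zero P0 (x := gx (K := k) jk) (c := c) (by omega) hsne).2
    have h3 := (ord_aeval_of_zero P0 (x := gx (K := k) jk) (c := c) (by omega) hRne).2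
    rw [rootMultiplicity_eq_zero (p := (s : k[X])) hs, hP0] at h2
    rw [hmult, hP0] at h3
    change P0.ord _ + P0.ord (aeval (gx (K := k) jk) (s : k[X])) =
      P0.ord (aeval (gx (K := k) jk) _) at h1
    push_cast at h2 h3
    omega
  have hsum := ord_norm (F' := Fk) P0 hT0
  rw [hordN] at hsum
  have hreg : ∀ w : Place k Fk, 0 ≤ w.ord jk → T ∈ w.toValuationSubring := fun w hwj =>
    sum_mem fun m _ => by
      rw [Algebra.smul_def]
      exact mul_mem (w.algebraMap_mem' _) (red_mem_valuationSubring red hred w hwj _)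
  have hmemS : ∀ w, w ∈ placesOver Fk P0 ↔ 0 < w.ord (jk - algebraMap k Fk c) := fun w => by
    rw [mem_placesOver, restrict_eq_finitePlace_iff hjk]
  have hnn : ∀ w ∈ placesOver Fk P0, 0 ≤ w.ord T := by
    intro w hw'
    refine ord_nonneg_of_mem w (hreg w ?_)
    have h1 := (ord_nonneg_iff w _).1 ((hmemS w).1 hw').le
    exact (ord_nonneg_iff w _).2 (by simpa using add_mem h1 (w.algebraMap_mem' c))
  have hres : residueConst v T = 0 := by
    have hTy : T = ∑ m ∈ t.support, algebraMap k Fk (zm m) * red (y m) :=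
      Finset.sum_congr rfl fun m _ => Algebra.smul_def _ _
    let em : t.support → v.toValuationSubring := fun m =>
      ⟨algebraMap k Fk (zm m) * red (y m),
        mul_mem (v.algebraMap_mem' _) (red_mem_valuationSubring red hred v hvjk _)⟩
    have h1 : residueConst v T = residueHom v (∑ m, em m) := by
      rw [residueHom_apply, AddSubmonoidClass.coe_finsetSum, hTy]
      congr 1
      exact (Finset.sum_attach t.support
        (fun m => algebraMap k Fk (zm m) * red (y m))).symm
    rw [h1, map_sum]
    have h2 : ∀ m : t.support, residueHom v (em m) = aeval c g * (φ (t.coeff m) * zm m) := by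
      intro m
      rw [show em m = ⟨algebraMap k Fk (zm m), v.algebraMap_mem' _⟩ *
        red.codRestrict v.toValuationSubring (red_mem_valuationSubring red hred v hvjk) (y m)
        from rfl, map_mul, residueHom_apply,
        residueConst_eq v (c := zm m) (by rw [sub_self]; exact VanishesTo.zero)]
      change zm m * ψ0 (y m) = _
      rw [show φ (t.coeff m) = φf (t.coeff m) from rfl, hφf _ g (y m) hg (hy m m.2)]
      field_simp
    simp only [h2, ← Finset.mul_sum]
    have h3 : ∑ m : t.support, φ (t.coeff m) * zm m = 0 := by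
      rw [Finset.sum_coe_sort t.support (fun m => φ (t.coeff m) * zm m), ← hzero,
        MvPolynomial.eval₂_eq]
      rfl
    rw [h3, mul_zero]
  have hv1 : 1 ≤ v.ord T := by
    have h1 := residueConst_spec v (hreg v hvjk)
    rw [hres, map_zero, sub_zero] at h1
    exact h1.resolve_left hT0
  have hvS : v ∈ placesOver Fk P0 := (hmemS v).2 hv
  rw [← Finset.add_sum_erase _ _ hvS] at hsum
  have hnn' : ∀ w ∈ (placesOver Fk P0).erase v, 0 ≤ w.ord T := fun w hw' =>
    hnn w (Finset.mem_of_mem_erase hw')
  have hrest := Finset.sum_nonneg hnn'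
  refine ⟨T, hTspan, by omega, fun w hw' hne => ?_⟩
  have hwS : w ∈ (placesOver Fk P0).erase v := Finset.mem_erase.2 ⟨hne, (hmemS w).2 hw'⟩
  have hle := Finset.single_le_sum hnn' hwS
  have hge := hnn' w hwS
  omega

end RatCover

end Fermat.Agent.IgusaGenus
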