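import Mathlib
import Fermat.Agent.IgusaGenus.Special
import Fermat.Agent.IgusaGenus.ChartAlg
import Fermat.Agent.Reduction.ChartUniformiser

/-!
# Reduction of the charts

Reduction of functions integral over a chart of the rational modular function field, and
uniformisers in the reduced chart.
-/

set_option autoImplicit false

noncomputable section

open IsLocalRing ModularCurve AlgebraicCurve Polynomial IntermediateField

namespace Fermat.Agent.IgusaGenus

open Fermat.Agent.Reduction Fermat.Agent.FunctionFieldRR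

variable (N : ℕ) {A : ValuationSubring (AlgebraicClosure ℚ)}

theorem coeffMap_mem_bar {x : LaurentSeries ℚ} (hx : x ∈ modularFunctionFieldFullC ℚ N) :
    coeffEmb (AlgebraicClosure ℚ) x ∈ modularFunctionFieldBar N :=
  coeffEmb_mem_laurentBaseChange _ (by rwa [modularFunctionFieldFullC_rat] at hx)

/-- Base change to `ℚ̄`. -/
def iotaQ : FQ N →+* modularFunctionFieldBar N :=
  ((coeffEmb (AlgebraicClosure ℚ)).comp (modularFunctionFieldFullC ℚ N).toSubfield.subtype).codRestrict
    (modularFunctionFieldBar N) fun x => coeffMap_mem_bar N x.2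

theorem coe_iotaQ (x : FQ N) :
    (iotaQ N x : LaurentSeries (AlgebraicClosure ℚ)) =
      coeffEmb (AlgebraicClosure ℚ) (x : LaurentSeries ℚ) := rfl

variable {N}

/-- Every function is a ratio of integral series. -/
theorem exists_series_frac [NeZero N] {x : LaurentSeries (AlgebraicClosure ℚ)}
    (hx : x ∈ modularFunctionFieldBar N) :
    ∃ P Q : LaurentSeries A, Q ≠ 0 ∧ x * ιS A Q = ιS A P := by
  have hne : ∀ {Q : LaurentSeries A}, Q ≠ 0 → ιS A Q ≠ 0 := fun hQ =>
    (map_ne_zero_iff _ ιS_injective).2 hQ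
  rw [modularFunctionFieldBar_eq] at hx
  induction hx using IntermediateField.adjoin_induction with
  | mem x hx =>
    obtain ⟨d, hd0, hd, rfl⟩ := hx
    exact ⟨qExpand A d (jqModC A), 1, one_ne_zero, by
      rw [map_one, mul_one]; exact (coeffMap_qExpand_jq A.subtype d).symm⟩
  | algebraMap a =>
    rw [algebraMap_laurentSeries_eq_single]
    rcases A.mem_or_inv_mem a with ha | ha
    · exact ⟨HahnSeries.single 0 ⟨a, ha⟩, 1, one_ne_zero, by rw [map_one, mul_one, ιS_single]⟩
    · rcases eq_or_ne a 0 with rfl | ha0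
      · exact ⟨0, 1, one_ne_zero, by simp⟩
      · refine ⟨1, HahnSeries.single 0 ⟨a⁻¹, ha⟩, ?_, ?_⟩
        · rw [Ne, HahnSeries.single_eq_zero_iff]
          exact fun h => inv_ne_zero ha0 (congrArg Subtype.val h)
        · rw [ιS_single, HahnSeries.single_mul_single, add_zero, mul_inv_cancel₀ ha0,
            HahnSeries.single_zero_one, map_one]
  | add x y _ _ hx hy =>
    obtain ⟨P, Q, hQ, h1⟩ := hx
    obtain ⟨P', Q', hQ', h2⟩ := hy
    refine ⟨P * Q' + P' * Q, Q * Q', mul_ne_zero hQ hQ', ?_⟩
    simp only [map_add, map_mul]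
    linear_combination ιS A Q' * h1 + ιS A Q * h2
  | inv x _ hx =>
    obtain ⟨P, Q, hQ, h1⟩ := hx
    rcases eq_or_ne x 0 with rfl | hx0
    · exact ⟨0, 1, one_ne_zero, by simp⟩
    refine ⟨Q, P, fun h => mul_ne_zero hx0 (hne hQ) (by rw [h1, h, map_zero]), ?_⟩
    rw [← h1, ← mul_assoc, inv_mul_cancel₀ hx0, one_mul]
  | mul x y _ _ hx hy =>
    obtain ⟨P, Q, hQ, h1⟩ := hx
    obtain ⟨P', Q', hQ', h2⟩ := hy
    refine ⟨P * P', Q * Q', mul_ne_zero hQ hQ', ?_⟩
    simp only [map_mul]
    linear_combination (y * ιS A Q') * h1 + ιS A P * h2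

/-- A function integral over integral series has an integral series. -/
theorem mem_range_of_isIntegral [NeZero N] (hnil : NilModulo A)
    {x : LaurentSeries (AlgebraicClosure ℚ)} (hx : x ∈ modularFunctionFieldBar N)
    {p : (LaurentSeries A)[X]} (hp : p.Monic) (hpx : p.eval₂ (ιS A) x = 0) :
    x ∈ (ιS A).range := by
  obtain ⟨P, Q, hQ, hPQ⟩ := exists_series_frac (A := A) hx
  set d := p.natDegree
  refine mem_range_of_almostIntegral hnil (pow_ne_zero d hQ) fun k => ?_
  induction k using Nat.strong_induction_on with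
  | _ k ih =>
  rcases le_or_gt k d with hk | hk
  · obtain ⟨l, hl⟩ := Nat.exists_eq_add_of_le hk
    refine ⟨Q ^ l * P ^ k, ?_⟩
    rw [map_mul, map_pow, map_pow, map_pow, ← hPQ, hl, mul_pow, pow_add]
    ring
  · obtain ⟨l, rfl⟩ := Nat.exists_eq_add_of_le hk.le
    rw [eval₂_eq_sum_range, Finset.sum_range_succ, hp.coeff_natDegree, map_one, one_mul,
      add_comm, ← eq_neg_iff_add_eq_zero] at hpx
    rw [pow_add, hpx, neg_mul, mul_neg, Finset.sum_mul, Finset.mul_sum]
    refine Subring.neg_mem _ (Subring.sum_mem _ fun i hi => ?_)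
    rw [show ιS A (Q ^ d) * (ιS A (p.coeff i) * x ^ i * x ^ l) =
      ιS A (p.coeff i) * (ιS A (Q ^ d) * x ^ (i + l)) by ring]
    exact Subring.mul_mem _ ⟨_, rfl⟩ (ih (i + l) (by have := Finset.mem_range.1 hi; omega))

variable (A N)

/-- Functions of `F_N` without poles at the places where `t` is finite, reduced. -/
def chartRed (t : modularFunctionFieldBar N) :
    Set (modularFunctionFieldFullC (ResidueField A) N) :=
  {z | ∃ (y : LaurentSeries A) (f : modularFunctionFieldBar N),
    (f : LaurentSeries (AlgebraicClosure ℚ)) = ιS A y ∧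
    redS A y = (z : LaurentSeries (ResidueField A)) ∧
    ∀ P : Place (AlgebraicClosure ℚ) (modularFunctionFieldBar N),
      0 ≤ P.ord t → 0 ≤ P.ord f}

variable {A N}

/-- The structure map of the chart to the cover of `BaseK`. -/
def baseHom {s : FQ N} (hs : Transcendental ℚ s) : BaseK →+* FQ N :=
  IsFractionRing.lift (g := (aeval s : ℤ[X] →ₐ[ℤ] FQ N).toRingHom) fun p q hpq => by
    refine Polynomial.map_injective (Int.castRingHom ℚ) Int.cast_injective ?_
    apply transcendental_iff_injective.1 hs
    have h : ∀ g : ℤ[X], aeval s (g.map (Int.castRingHom ℚ)) = aeval s g := fun g => by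
      rw [aeval_def, eval₂_map, aeval_def]
      congr 1
      exact RingHom.ext_int _ _
    rw [h, h]
    exact hpq

theorem baseHom_algebraMap {s : FQ N} (hs : Transcendental ℚ s) (g : ℤ[X]) :
    baseHom hs (algebraMap ℤ[X] BaseK g) = aeval s g :=
  IsFractionRing.lift_algebraMap _ g

theorem baseHom_mem {s : FQ N} (hs : Transcendental ℚ s) (x : BaseK) : baseHom hs x ∈ ℚ⟮s⟯ := by
  obtain ⟨p, q, -, rfl⟩ := IsFractionRing.div_surjective (A := ℤ[X]) x
  rw [map_div₀, baseHom_algebraMap, baseHom_algebraMap]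
  have h : ∀ g : ℤ[X], aeval s g ∈ ℚ⟮s⟯ := fun g => by
    rw [aeval_eq_sum_range]
    refine sum_mem fun i _ => ?_
    rw [zsmul_eq_mul]
    exact mul_mem (intCast_mem _ _) (pow_mem (mem_adjoin_simple_self ℚ s) _)
  exact div_mem (h p) (h q)

theorem baseHom_surjective {s : FQ N} (hs : Transcendental ℚ s) :
    Function.Surjective ((baseHom hs).codRestrict (ℚ⟮s⟯) (baseHom_mem hs)) := by
  rintro ⟨z, hz⟩
  suffices hmem : z ∈ (baseHom hs).fieldRange by
    obtain ⟨x, hx⟩ := hmem
    exact ⟨x, Subtype.ext hx⟩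
  induction hz using IntermediateField.adjoin_induction with
  | mem x hx =>
    rw [Set.mem_singleton_iff] at hx
    exact ⟨algebraMap ℤ[X] BaseK X, by rw [baseHom_algebraMap, aeval_X, hx]⟩
  | algebraMap a =>
    rw [eq_ratCast]
    exact SubfieldClass.ratCast_mem _ a
  | add x y _ _ hx hy => exact add_mem hx hy
  | inv x _ hx => exact inv_mem hx
  | mul x y _ _ hx hy => exact mul_mem hx hy

/-- A uniformiser in the reduced chart of `s`. -/
theorem exists_chart_uniformiser [NeZero N] {ℓ : ℕ} [Fact ℓ.Prime] (hnil : NilModulo A)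
    [CharP (ResidueField A) ℓ] [IsAlgClosed (ResidueField A)]
    (s : FQ N) (hs : Transcendental ℚ s)
    (sA : LaurentSeries A) (hsA : (iotaQ N s : LaurentSeries (AlgebraicClosure ℚ)) = ιS A sA)
    (sK : modularFunctionFieldFullC (ResidueField A) N)
    (hsK : redS A sA = (sK : LaurentSeries (ResidueField A)))
    (hsKt : Transcendental (ResidueField A) sK)
    [FiniteDimensional (ResidueField A)⟮sK⟯ (modularFunctionFieldFullC (ResidueField A) N)]
    [Algebra.IsSeparable (ResidueField A)⟮sK⟯ (modularFunctionFieldFullC (ResidueField A) N)]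
    (hmem : ∀ f : modularFunctionFieldBar N, ∀ y : LaurentSeries A,
      (f : LaurentSeries (AlgebraicClosure ℚ)) = ιS A y →
        redS A y ∈ modularFunctionFieldFullC (ResidueField A) N)
    {n : ℕ} (hn0 : n ≠ 0) (hnQ : Module.finrank ℚ⟮s⟯ (FQ N) = n)
    (hnK : Module.finrank (ResidueField A)⟮sK⟯ (modularFunctionFieldFullC (ResidueField A) N) = n)
    (yb : Fin n → LaurentSeries A) (fb : Fin n → FQ N)
    (hfb : ∀ i, @IsIntegral ℤ[X] (FQ N) _ _ (algZX s) (fb i))
    (hfy : ∀ i, (iotaQ N (fb i) : LaurentSeries (AlgebraicClosure ℚ)) = ιS A (yb i))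
    (eb : Fin n → modularFunctionFieldFullC (ResidueField A) N)
    (hey : ∀ i, redS A (yb i) = (eb i : LaurentSeries (ResidueField A)))
    (heli : LinearIndependent (ResidueField A)⟮sK⟯ eb)
    {r : RatCover} {c : ResidueField A} (h : r.GoodAt c) (habs : AbsorbsAt N r s c)
    (v : Place (ResidueField A) (modularFunctionFieldFullC (ResidueField A) N))
    (hv : 0 < v.ord (sK - algebraMap _ _ c)) :
    ∃ T ∈ Submodule.span (ResidueField A) (chartRed N A (iotaQ N s)), v.ord T = 1 ∧
      ∀ w : Place (ResidueField A) (modularFunctionFieldFullC (ResidueField A) N),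
        0 < w.ord (sK - algebraMap _ _ c) → w ≠ v → w.ord T = 0 := by
  classical
  let instZX : Algebra ℤ[X] (FQ N) := algZX s
  let instBase : Algebra BaseK (FQ N) := (baseHom hs).toAlgebra
  have : IsScalarTower ℤ[X] BaseK (FQ N) :=
    IsScalarTower.of_algebraMap_eq fun g => (baseHom_algebraMap hs g).symm
  let ζ : BaseK ≃+* ℚ⟮s⟯ := RingEquiv.ofBijective _ ⟨RingHom.injective _, baseHom_surjective hs⟩
  have hfr : Module.finrank BaseK (FQ N) = n := by
    rw [← hnQ]
    exact Algebra.finrank_eq_of_equiv_equiv ζ (RingEquiv.refl _) (RingHom.ext fun x => rfl)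
  have : FiniteDimensional BaseK (FQ N) := Module.finite_of_finrank_pos (by omega)
  -- integral functions have integral series
  let B0 := integralClosure ℤ[X] (FQ N)
  let evA : ℤ[X] →+* LaurentSeries A := (aeval sA : ℤ[X] →ₐ[ℤ] LaurentSeries A).toRingHom
  have hev : ∀ g : ℤ[X], ιS A (evA g) = (iotaQ N (algebraMap ℤ[X] (FQ N) g) : LaurentSeries _) := by
    intro g
    refine congrArg (fun f : ℤ[X] →+* LaurentSeries (AlgebraicClosure ℚ) => f g)
      (Polynomial.ringHom_ext (f := (ιS A).comp evA)
        (g := ((modularFunctionFieldBar N).val.toRingHom.comp (iotaQ N)).comp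
          (algebraMap ℤ[X] (FQ N))) (fun m => ?_) ?_)
    · simp
    · simp [evA, algZX_algebraMap, hsA]
  have hser : ∀ y : B0, ∃ z : LaurentSeries A,
      (iotaQ N (y : FQ N) : LaurentSeries (AlgebraicClosure ℚ)) = ιS A z := by
    intro y
    obtain ⟨p, hp, hpy⟩ := y.2
    have := mem_range_of_isIntegral (N := N) hnil (iotaQ N (y : FQ N)).2 (hp.map evA) (by
      have h0 := congrArg (fun f => ((iotaQ N f : modularFunctionFieldBar N) :
        LaurentSeries (AlgebraicClosure ℚ))) hpy
      simp only [map_zero, ZeroMemClass.coe_zero] at h0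
      rw [eval₂_map]
      refine Eq.trans ?_ h0
      change _ = ((modularFunctionFieldBar N).val.toRingHom.comp (iotaQ N)) _
      rw [Polynomial.hom_eval₂]
      congr 1
      exact RingHom.ext hev)
    obtain ⟨z, hz⟩ := this
    exact ⟨z, hz.symm⟩
  choose ser hser using hser
  let toA : B0 →+* LaurentSeries A :=
    { toFun := ser
      map_one' := ιS_injective (by rw [← hser, map_one]; simp)
      map_mul' := fun a a' => ιS_injective (by rw [← hser, map_mul, ← hser, ← hser]; simp)
      map_zero' := ιS_injective (by rw [← hser, map_zero]; simp)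
      map_add' := fun a a' => ιS_injective (by rw [← hser, map_add, ← hser, ← hser]; simp) }
  have htoA : ∀ y : B0, ιS A (toA y) = (iotaQ N (y : FQ N) : LaurentSeries _) := fun y =>
    (hser y).symm
  let red : B0 →+* modularFunctionFieldFullC (ResidueField A) N :=
    ((redS A).comp toA).codRestrict (modularFunctionFieldFullC (ResidueField A) N)
      fun y => hmem _ _ (hser y)
  have hevA : ∀ g : ℤ[X], toA (algebraMap ℤ[X] B0 g) = evA g := fun g => ιS_injective (by
    rw [htoA, hev]; rfl)
  have hred : ∀ g : ℤ[X], red (algebraMap ℤ[X] B0 g) =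
      aeval sK (g.map (Int.castRingHom (ResidueField A))) := by
    intro g
    refine congrArg (fun f : ℤ[X] →+* modularFunctionFieldFullC (ResidueField A) N => f g)
      (Polynomial.ringHom_ext (f := red.comp (algebraMap ℤ[X] B0))
        (g := ((aeval sK : (ResidueField A)[X] →ₐ[ResidueField A] _).toRingHom).comp
          (mapRingHom (Int.castRingHom (ResidueField A)))) (fun m => ?_) ?_)
    · simp
    · apply Subtype.ext
      change redS A (toA (algebraMap ℤ[X] B0 X)) = _
      rw [hevA]
      simp [evA, hsK]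
  -- the bases
  let fB : Fin n → B0 := fun i => ⟨fb i, hfb i⟩
  have hredb : ∀ i, red (fB i) = eb i := fun i => Subtype.ext (by
    change redS A (toA (fB i)) = _
    rw [show toA (fB i) = yb i from ιS_injective (by rw [htoA]; exact hfy i), hey])
  let e := basisOfLinearIndependentOfCardEqFinrank' eb heli (by rw [Fintype.card_fin, hnK])
  have hbli : LinearIndependent BaseK fb := by
    rw [← LinearIndependent.iff_fractionRing ℤ[X] BaseK, Fintype.linearIndependent_iff]
    intro g hg
    by_contra hcon
    push Not at hcon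
    -- remove the largest common power of `ℓ`
    have key : ∀ g : Fin n → ℤ[X], ∑ i, g i • fb i = 0 →
        ∀ i, C (ℓ : ℤ) ∣ g i := by
      intro g hg i
      have h1 : ∑ i, algebraMap ℤ[X] B0 (g i) * fB i = 0 := by
        apply Subtype.ext
        rw [AddSubmonoidClass.coe_finsetSum, ZeroMemClass.coe_zero]
        simpa [fB, Algebra.smul_def] using hg
      have h2 := congrArg red h1
      rw [map_sum, map_zero] at h2
      simp only [map_mul, hred, hredb] at h2
      have h3 := Fintype.linearIndependent_iff.1 heli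
        (fun i => aeval (gx (K := ResidueField A) sK) ((g i).map (Int.castRingHom _))) (by
          refine Eq.trans (Finset.sum_congr rfl fun i _ => ?_) h2
          rw [Algebra.smul_def]
          congr 1
          exact (aeval_algebraMap_apply (modularFunctionFieldFullC (ResidueField A) N) (gx (K := ResidueField A) sK) ((g i).map (Int.castRingHom (ResidueField A)))).symm) i
      have h4 := (map_eq_zero_iff _ (transcendental_iff_injective.1 (transcendental_gx hsKt))).1 h3
      rw [C_dvd_iff_dvd_coeff]
      intro l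
      have hl := congrArg (fun p => p.coeff l) h4
      rw [coeff_map, coeff_zero] at hl
      exact (CharP.intCast_eq_zero_iff (ResidueField A) ℓ _).1 hl
    have hdiv : ∀ m : ℕ, ∀ g : Fin n → ℤ[X], ∑ i, g i • fb i = 0 →
        ∀ i, C (ℓ : ℤ) ^ m ∣ g i := by
      intro m
      induction m with
      | zero => exact fun g _ i => by rw [pow_zero]; exact one_dvd _
      | succ m ih =>
        intro g hg i
        choose g' hg' using key g hg
        have hg'' : ∑ i, g' i • fb i = 0 := by
          have h0 : algebraMap ℤ[X] (FQ N) (C (ℓ : ℤ)) ≠ 0 := by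
            rw [algZX_algebraMap, aeval_C, Ne, map_natCast]
            exact Nat.cast_ne_zero.2 (Fact.out : ℓ.Prime).ne_zero
          refine (mul_eq_zero.1 ?_).resolve_left h0
          rw [Finset.mul_sum, ← hg]
          exact Finset.sum_congr rfl fun i _ => by
            rw [hg' i, mul_smul, Algebra.smul_def (C (ℓ : ℤ))]
        rw [pow_succ', hg' i]
        exact mul_dvd_mul_left _ (ih g' hg'' i)
    obtain ⟨i, hi⟩ := hcon
    obtain ⟨m, D, hmD, hD⟩ := exists_pow_mul_of_map_ne_zero (k := ResidueField A) (ℓ := ℓ) hi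
    have hl0 : (C (ℓ : ℤ) : ℤ[X]) ≠ 0 := by
      simpa using (Fact.out : ℓ.Prime).ne_zero
    obtain ⟨q, hq⟩ := hdiv (m + 1) g hg i
    apply hD
    rw [hmD, pow_succ, mul_assoc] at hq
    rw [mul_left_cancel₀ (pow_ne_zero m hl0) hq, Polynomial.map_mul, map_C]
    simp
  have : Nonempty (Fin n) := ⟨⟨0, Nat.pos_of_ne_zero hn0⟩⟩
  let b := basisOfLinearIndependentOfCardEqFinrank hbli (by rw [Fintype.card_fin, hfr])
  have hbi : ∀ i, b i = fb i := fun i => by simp [b]
  obtain ⟨T, hT, hT1, hT2⟩ := h.exists_red_uniformiser (ℓ := ℓ) (F := FQ N) habs hsKt b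
    (fun i => hbi i ▸ hfb i) red hred e (fun i => by
      simp only [e, coe_basisOfLinearIndependentOfCardEqFinrank']
      rw [← hredb]
      exact congrArg red (Subtype.ext (hbi i).symm)) v hv
  refine ⟨T, Submodule.span_mono ?_ hT, hT1, hT2⟩
  rintro _ ⟨y, rfl⟩
  refine ⟨toA y, iotaQ N (y : FQ N), (htoA y).symm, rfl, fun P hP => ?_⟩
  refine ord_nonneg_of_mem P (red_mem_valuationSubring (B0 := B0)
    ((iotaQ N).comp B0.val.toRingHom) (fun g => ?_) P hP y)
  refine congrArg (fun f : ℤ[X] →+* modularFunctionFieldBar N => f g)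
    (Polynomial.ringHom_ext
      (f := ((iotaQ N).comp B0.val.toRingHom).comp (algebraMap ℤ[X] B0))
      (g := ((aeval (iotaQ N s) :
        (AlgebraicClosure ℚ)[X] →ₐ[AlgebraicClosure ℚ] _).toRingHom).comp
          (mapRingHom (Int.castRingHom (AlgebraicClosure ℚ)))) (fun m => ?_) ?_)
  · simp
  · simp [algZX_algebraMap]

end Fermat.Agent.IgusaGenus
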