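import Mathlib
import Fermat.Agent.IgusaGenus.ChartRed
import Fermat.Agent.Reduction.GenRegular

/-!
# Lifts to the charts

Lifts of the reduced generators to functions integral over the charts.
-/

set_option autoImplicit false

noncomputable section

open IsLocalRing ModularCurve Polynomial

namespace Fermat.Agent.IgusaGenus

open Fermat.Agent.Reduction

variable {N : ℕ} [NeZero N]

/-- Each `j(qᵈ)` is integral over `ℤ[j]`. -/
theorem isIntegral_jd : ∀ d : ℕ, ∀ _ : NeZero d, ∀ y : FQ N,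
    (y : LaurentSeries ℚ) = Igusa.jd ℚ d → d ∣ N →
      @IsIntegral ℤ[X] (FQ N) _ _ (algZX (jC ℚ N)) y := by
  let : Algebra ℤ[X] (FQ N) := algZX (jC ℚ N)
  intro d
  induction d using Nat.strong_induction_on with
  | _ d ih =>
  intro _ y hy hd
  by_cases h1 : d = 1
  · subst h1
    rw [show y = algebraMap ℤ[X] (FQ N) X by
      rw [algZX_algebraMap, aeval_X]; exact Subtype.ext (by rw [hy, Igusa.jd_one]; rfl)]
    exact isIntegral_algebraMap
  obtain ⟨p, hp, hpd⟩ := Nat.exists_prime_and_dvd h1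
  obtain ⟨d', rfl⟩ := dvd_iff_exists_eq_mul_left.mp hpd
  have : Fact p.Prime := ⟨hp⟩
  have : NeZero d' := ⟨left_ne_zero_of_mul (NeZero.ne (d' * p))⟩
  have hd' : d' ∣ N := (dvd_mul_right d' p).trans hd
  have hlt : d' < d' * p :=
    (lt_mul_iff_one_lt_right (Nat.pos_of_ne_zero (NeZero.ne d'))).mpr hp.one_lt
  let B0 := integralClosure ℤ[X] (FQ N)
  have : Algebra.IsIntegral ℤ[X] B0 :=
    ⟨fun z => (isIntegral_algHom_iff B0.val Subtype.val_injective).1 z.2⟩
  set z : FQ N := ⟨Igusa.jd ℚ d', Igusa.jd_mem _ hd'⟩ with hz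
  set z' : B0 := ⟨z, ih d' hlt inferInstance z rfl hd'⟩ with hz'
  have hint : IsIntegral B0 y := by
    refine ⟨Igusa.modAt p z', Igusa.modAt_monic p z', ?_⟩
    rw [← Polynomial.eval_map, Igusa.modAt_map, show algebraMap B0 (FQ N) z' = z from rfl]
    apply (modularFunctionFieldFullC ℚ N).val.injective
    rw [map_zero]
    refine ((Polynomial.eval₂_at_apply (p := Igusa.modAt p z)
      (modularFunctionFieldFullC ℚ N).val.toRingHom y).symm).trans ?_
    rw [← Polynomial.eval_map, Igusa.modAt_map,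
      show (modularFunctionFieldFullC ℚ N).val.toRingHom z = Igusa.jd ℚ d' from rfl,
      show (modularFunctionFieldFullC ℚ N).val.toRingHom y = _ from hy]
    exact eval_modAt_jd p d' (Nat.cast_ne_zero.mpr hp.ne_zero)
  exact isIntegral_trans y hint

omit [NeZero N] in
/-- A function integral over `ℤ[j]` becomes integral over `ℤ[1/j]` after multiplication by a power
of `1/j`. -/
theorem exists_isIntegral_mul_inv_pow {F : Type*} [Field F] {j x : F} (hj : j ≠ 0)
    (hx : @IsIntegral ℤ[X] F _ _ (algZX j) x) :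
    ∃ n₀ : ℕ, ∀ n, n₀ ≤ n → @IsIntegral ℤ[X] F _ _ (algZX j⁻¹) (x * j⁻¹ ^ n) := by
  classical
  obtain ⟨p, hp, hpx⟩ := hx
  refine ⟨Finset.univ.sup fun i : Fin p.natDegree => (p.coeff i).natDegree, fun n hn => ?_⟩
  set d := p.natDegree with hd
  let a : Fin d → ℤ[X] := fun i => Polynomial.reflect (n * (d - i)) (p.coeff i)
  let : Algebra ℤ[X] F := algZX j⁻¹
  refine ⟨X ^ d + ∑ i : Fin d, C (a i) * X ^ (i : ℕ), monic_X_pow_add ?_, ?_⟩
  · exact degree_sum_fin_lt _
  have : Invertible j := invertibleOfNonzero hj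
  have ha : ∀ i : Fin d, aeval j⁻¹ (a i) = aeval j (p.coeff i) * j⁻¹ ^ (n * (d - i)) := by
    intro i
    have hdeg : (p.coeff i).natDegree ≤ n * (d - i) :=
      le_trans ((Finset.le_sup (f := fun l : Fin d => (p.coeff l).natDegree)
        (Finset.mem_univ i)).trans hn) (Nat.le_mul_of_pos_right _ (by have := i.2; omega))
    have h := eval₂_reflect_mul_pow (algebraMap ℤ F) j (n * (d - i)) (p.coeff i) hdeg
    rw [invOf_eq_inv] at h
    rw [aeval_def, aeval_def, ← h, inv_pow, mul_inv_cancel_right₀ (pow_ne_zero _ hj)]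
  change eval₂ (aeval j⁻¹ : ℤ[X] →ₐ[ℤ] F).toRingHom (x * j⁻¹ ^ n) _ = 0
  change eval₂ (aeval j : ℤ[X] →ₐ[ℤ] F).toRingHom x p = 0 at hpx
  rw [eval₂_eq_sum_range, Finset.sum_range_succ, hp.coeff_natDegree, map_one, one_mul,
    ← Fin.sum_univ_eq_sum_range] at hpx
  rw [eval₂_add, eval₂_X_pow, eval₂_finsetSum]
  simp only [eval₂_mul, eval₂_C, eval₂_X_pow, AlgHom.toRingHom_eq_coe, RingHom.coe_coe, ha]
  simp only [AlgHom.toRingHom_eq_coe, RingHom.coe_coe] at hpx
  have hterm : ∀ i : Fin d, aeval j (p.coeff i) * j⁻¹ ^ (n * (d - i)) * (x * j⁻¹ ^ n) ^ (i : ℕ) =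
      j⁻¹ ^ (n * d) * (aeval j (p.coeff i) * x ^ (i : ℕ)) := by
    intro i
    have hi : n * d = n * (d - i) + n * i := by
      rw [← Nat.mul_add, Nat.sub_add_cancel i.2.le]
    rw [hi, mul_pow, pow_add, ← pow_mul]
    ring
  rw [Finset.sum_congr rfl fun i _ => hterm i, ← Finset.mul_sum, mul_pow, ← pow_mul]
  linear_combination (j⁻¹ ^ (n * d)) * hpx

/-- A polynomial in the generating series is the series of a function integral over `ℤ[j]`. -/
theorem exists_lift_isIntegral {A : ValuationSubring (AlgebraicClosure ℚ)} {y : LaurentSeries A}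
    (hy : y ∈ Subring.closure (modularSeriesModel A N).gens) :
    ∃ f : FQ N, @IsIntegral ℤ[X] (FQ N) _ _ (algZX (jC ℚ N)) f ∧
      (iotaQ N f : LaurentSeries (AlgebraicClosure ℚ)) = ιS A y := by
  let : Algebra ℤ[X] (FQ N) := algZX (jC ℚ N)
  induction hy using Subring.closure_induction with
  | mem y hy =>
    obtain ⟨d, hd0, hd, rfl⟩ := hy
    refine ⟨⟨Igusa.jd ℚ d, Igusa.jd_mem _ hd⟩, isIntegral_jd d hd0 _ rfl hd, ?_⟩
    rw [coe_iotaQ]
    exact (coeffMap_qExpand_jq (algebraMap ℚ (AlgebraicClosure ℚ)) d).trans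
      (coeffMap_qExpand_jq A.subtype d).symm
  | zero => exact ⟨0, isIntegral_zero, by simp⟩
  | one => exact ⟨1, isIntegral_one, by simp⟩
  | add a b _ _ ha hb =>
    obtain ⟨f, hf, hfa⟩ := ha
    obtain ⟨g, hg, hgb⟩ := hb
    exact ⟨f + g, hf.add hg, by simp [hfa, hgb]⟩
  | neg a _ ha =>
    obtain ⟨f, hf, hfa⟩ := ha
    exact ⟨-f, hf.neg, by simp [hfa]⟩
  | mul a b _ _ ha hb =>
    obtain ⟨f, hf, hfa⟩ := ha
    obtain ⟨g, hg, hgb⟩ := hb
    exact ⟨f * g, hf.mul hg, by simp [hfa, hgb]⟩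

end Fermat.Agent.IgusaGenus
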