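import Mathlib
import Fermat.Agent.IgusaGenus.ChartLift

/-!
# Genus equality from absorbing covers

The genus does not drop modulo a prime not dividing the level, given absorbing covers.
-/

set_option autoImplicit false

noncomputable section

open IsLocalRing ModularCurve AlgebraicCurve IntermediateField

namespace Fermat.Agent.IgusaGenus

open Fermat.Agent.Reduction Fermat.Agent.FunctionFieldRR

variable {N ℓ : ℕ} [NeZero N] [Fact ℓ.Prime] {A : ValuationSubring (AlgebraicClosure ℚ)}

theorem iotaQ_jC : iotaQ N (jC ℚ N) = jBar N :=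
  Subtype.ext (coeffMap_jqModC (algebraMap ℚ (AlgebraicClosure ℚ)))

theorem transcendental_jC_rat : Transcendental ℚ (jC ℚ N) := Reduction.transcendental_jC ℚ N

/-- With covers absorbing the ramification, every chart has uniformisers downstairs. -/
theorem genus0_le_genusC_of_covers (hA : A.LiesOverPrime ℓ) [IsAlgClosed (ResidueField A)]
    (hN : (N : ResidueField A) ≠ 0)
    (hfin : ∀ c : ResidueField A, ∃ r : RatCover, r.GoodAt c ∧ AbsorbsAt N r (jC ℚ N) c)
    (hcusp : ∃ r : RatCover, r.GoodAt (0 : ResidueField A) ∧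
      AbsorbsAt N r (jC ℚ N)⁻¹ (0 : ResidueField A)) :
    genus0 N ≤ genusC (ResidueField A) N hN := by
  classical
  have : CharP (ResidueField A) ℓ := Reduction.charP_residueField hA
  have hnil : NilModulo A :=
    letI : Algebra ℚ (AlgebraicClosure ℚ) := AlgebraicClosure.instAlgebra ℚ
    haveI : Algebra.IsAlgebraic ℚ (AlgebraicClosure ℚ) := AlgebraicClosure.isAlgebraic ℚ
    nilModulo_of_liesOverPrime hA
  have hbar := finiteDimensional_jBar N
  have hC := finiteDimensional_jC (ResidueField A) N hN
  have hsepC := isSeparable_jC (ResidueField A) N hN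
  set M := modularGoodModelOf A N hA hbar hC (by rw [finrank_jBar, finrank_jC _ N hN]) with hM
  have hjF : M.jF = jBar N := modularSeriesModel_jF A N
  have hjK : M.jK = jC (ResidueField A) N := modularSeriesModel_jK A N
  have := M.fin_red
  have hmem : ∀ f : modularFunctionFieldBar N, ∀ y : LaurentSeries A,
      (f : LaurentSeries (AlgebraicClosure ℚ)) = ιS A y →
        redS A y ∈ modularFunctionFieldFullC (ResidueField A) N := fun f y hf =>
    M.redS_mem (hf ▸ f.2)
  obtain ⟨b, hb, e, he, heli⟩ := M.toSeriesModel.exists_lift_basis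
  choose f hf hfb using fun i => exists_lift_isIntegral (hb i)
  have hn : Module.finrank (ResidueField A)⟮M.jK⟯
      (modularFunctionFieldFullC (ResidueField A) N) = dedekindPsi N := by
    rw [hjK]; exact finrank_jC _ N hN
  have hn0 : Module.finrank (ResidueField A)⟮M.jK⟯
      (modularFunctionFieldFullC (ResidueField A) N) ≠ 0 := by
    rw [hn]; exact (dedekindPsi_pos N).ne'
  have : IsFunctionField (AlgebraicClosure ℚ) (modularFunctionFieldBar N) :=
    IsFunctionField.of_finiteDimensional _ (transcendental_jBar N)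
  have : IsFunctionField (ResidueField A) (modularFunctionFieldFullC (ResidueField A) N) :=
    IsFunctionField.of_finiteDimensional _ (Reduction.transcendental_jC _ N)
  have := isSeparable_jBar N
  have := (hasPrincipalDivisors :
    HasPrincipalDivisors (AlgebraicClosure ℚ) (modularFunctionFieldBar N))
  have := (hasPrincipalDivisors :
    HasPrincipalDivisors (ResidueField A) (modularFunctionFieldFullC (ResidueField A) N))
  have hQ : (N : ℚ) ≠ 0 := Nat.cast_ne_zero.mpr (NeZero.ne N)
  have hQ0 : jC ℚ N ≠ 0 := fun h =>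
    transcendental_jC_rat (N := N) (h ▸ isAlgebraic_zero)
  have hC0 : jC (ResidueField A) N ≠ 0 := hjK ▸ M.jK_ne_zero
  refine genus0_le_genusC_of_uniformisers hA hN (fun c v hv => ?_) (fun v hv => ?_)
  · obtain ⟨r, hr, habs⟩ := hfin c
    obtain ⟨T, hT, h1, h2⟩ := exists_chart_uniformiser hnil (ℓ := ℓ) (jC ℚ N)
      transcendental_jC_rat M.j (by rw [iotaQ_jC, ← hjF]; rfl) (jC (ResidueField A) N)
      (by rw [← hjK]; rfl) (Reduction.transcendental_jC _ N) hmem hn0
      (by rw [hn]; exact finrank_jC ℚ N hQ) (by rw [hn]; exact finrank_jC _ N hN)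
      b f hf hfb e (fun i => (he i).symm) (hjK ▸ heli) hr habs v hv
    refine ⟨T, Submodule.span_mono ?_ hT, h1, h2⟩
    rintro z ⟨y, g, hg, hy, hP⟩
    exact ⟨y, g, hg, hy, fun P hP' => hP P (by rwa [iotaQ_jC])⟩
  · obtain ⟨r, hr, habs⟩ := hcusp
    set uK := (jC (ResidueField A) N)⁻¹ with huK
    have hadj : (ResidueField A)⟮uK⟯ = (ResidueField A)⟮M.jK⟯ := by
      rw [huK, ← hjK]; exact M.toSeriesModel.adjoin_uK
    have hsKt : Transcendental (ResidueField A) uK := fun h =>
      Reduction.transcendental_jC (ResidueField A) N (by simpa [huK] using h.inv)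
    have hQt : Transcendental ℚ (jC ℚ N)⁻¹ := fun h =>
      transcendental_jC_rat (N := N) (by simpa using h.inv)
    have : FiniteDimensional (ResidueField A)⟮uK⟯
        (modularFunctionFieldFullC (ResidueField A) N) := by
      rw [hadj]; infer_instance
    have : Algebra.IsSeparable (ResidueField A)⟮uK⟯
        (modularFunctionFieldFullC (ResidueField A) N) := by
      rw [hadj, hjK]; exact hsepC
    choose n₀ hn₀ using fun i => exists_isIntegral_mul_inv_pow hQ0 (hf i)
    set n₁ := Finset.univ.sup n₀
    have huA : redS A M.uA = (uK : LaurentSeries (ResidueField A)) := by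
      rw [huK, ← hjK]; exact M.toSeriesModel.coe_uK.symm
    have huF : (iotaQ N (jC ℚ N)⁻¹ : LaurentSeries (AlgebraicClosure ℚ)) = ιS A M.uA := by
      rw [map_inv₀, iotaQ_jC, ← hjF]; exact M.toSeriesModel.coe_uF
    have heli' : LinearIndependent (ResidueField A)⟮uK⟯ (fun i => e i * uK ^ n₁) := by
      rw [hadj]
      exact heli.map' (LinearMap.mulRight (ResidueField A)⟮M.jK⟯ (uK ^ n₁))
        (LinearMap.ker_eq_bot.mpr fun a a' h =>
          mul_right_cancel₀ (pow_ne_zero _ (inv_ne_zero hC0)) h)
    have hv' : 0 < v.ord (uK - algebraMap _ _ (0 : ResidueField A)) := by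
      rw [map_zero, sub_zero, huK, v.ord_inv]; omega
    obtain ⟨T, hT, h1, h2⟩ := exists_chart_uniformiser hnil (ℓ := ℓ) (jC ℚ N)⁻¹
      hQt M.uA huF uK huA hsKt hmem hn0
      (by rw [finrank_adjoin_inv, hn]; exact finrank_jC ℚ N hQ) (by rw [hadj])
      (fun i => b i * M.uA ^ n₁) (fun i => f i * (jC ℚ N)⁻¹ ^ n₁)
      (fun i => hn₀ i n₁ (Finset.le_sup (Finset.mem_univ i)))
      (fun i => by rw [map_mul (iotaQ N), map_pow (iotaQ N), MulMemClass.coe_mul,
        SubmonoidClass.coe_pow, hfb, huF, map_mul, map_pow])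
      (fun i => e i * uK ^ n₁)
      (fun i => by rw [map_mul, map_pow, huA, ← he]; rfl) heli' hr habs v hv'
    refine ⟨T, Submodule.span_mono ?_ hT, h1, fun w hw hne => h2 w ?_ hne⟩
    · rintro z ⟨y, g, hg, hy, hP⟩
      exact ⟨y, g, hg, hy, fun P hP' => hP P (by
        rw [map_inv₀, iotaQ_jC, P.ord_inv]; omega)⟩
    · rw [map_zero, sub_zero, huK, w.ord_inv]; omega

end Fermat.Agent.IgusaGenus
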